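/-
Programme MP (S44), chapter TH (lead): **(ET) — on a curve with good reduction, a function whose
derivation `d/dt` preserves the Gauss ring and the pole-free functions of a residue disc reduces to a
function which is UNRAMIFIED at the corresponding point of the special fibre**, abstractly over
`RedDatum7.RedDatum`.

`D : RedDatum L F k Ft`, `δ : Derivation L F F`, `t ∈ D.G` with `δ t = 1`, `δ (D.G) ⊆ D.G`, `Q` a place of
`Ft` such that on the residue disc `U(Q) = {P | D.r P = Q}`: `t` has no pole, `δ` preserves the functions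
regular at `P`, and the zeros of `t − c` are simple (`c : L`).  Then for `a : D.A`:

  `0 < ord_Q (red (t − a))  ⟹  ord_Q (red (t − a)) = 1`      (`ord_red_sub_eq_one`).

Proof: otherwise pick a zero `P₀` of `t − a` in the disc (fibre sum), `u` a good uniformiser at `P₀`,
`t − a = u · f₁` (`MaxMod9.quot`) with `ord_Q (red f₁) ≥ 1`; `1 = δ (t − a) = u · δ f₁ + f₁ · δ u` reduces into
the maximal ideal of `Q` — absurd.

* `der_mem_place` : over a function field, the derivation `δ` with `δ t = 1` preserves the valuation ring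
  of every place at which some `t − c` is a uniformiser.
-/
import Mathlib
import Fermat.Agent.FF.NS.MaxMod9
import Fermat.Agent.X0.FFDiff

set_option autoImplicit false
set_option linter.unusedSectionVars false
set_option linter.style.longLine false
set_option linter.style.haveILetI false

namespace Fermat.Agent.MP.TH.Etale0

open AlgebraicCurve Fermat.Agent.X0.FF Fermat.Agent.RR.LSpace Fermat.Agent.MW.EMB.Value6
open Fermat.Agent.FF.RED.RedDatum7 Fermat.Agent.FF.RED.Disc7 Fermat.Agent.FF.NS.Gauss9
  Fermat.Agent.FF.NS.MaxMod9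

noncomputable section

section Abstract

variable {L F k Ft : Type*} [Field L] [Field F] [Algebra L F] [Field k] [Field Ft] [Algebra k Ft]
variable (D : RedDatum L F k Ft)

/-- the reduction of a pole-free integral function is regular at `Q` (also when it vanishes). -/
theorem red_mem_of_poleFree (g : D.G) {Q : Place k Ft} (hpf : D.PoleFree (g : F) Q) :
    D.red g ∈ Q.toValuationSubring := by
  by_cases h0 : D.red g = 0
  · rw [h0]; exact Q.toValuationSubring.zero_mem
  · exact ffp_mem_of_ord_nonneg Q (D.ord_red_nonneg h0 hpf)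

/-- **(ET), abstract form.** -/
theorem ord_red_sub_eq_one (δ : Derivation L F F) (t : D.G) (hδt : δ (t : F) = 1)
    (hδG : ∀ g : D.G, δ (g : F) ∈ D.G) (Q : Place k Ft)
    (htpf : D.PoleFree (t : F) Q)
    (hpres : ∀ P : Place L F, D.r P = Q → ∀ f : F, 0 ≤ P.ord f → 0 ≤ P.ord (δ f))
    (hsimple : ∀ P : Place L F, D.r P = Q → ∀ c : L,
      0 < P.ord ((t : F) - algebraMap L F c) → P.ord ((t : F) - algebraMap L F c) = 1)
    (a : D.A) (hpos : 0 < Q.ord (D.red (t - D.const a))) :
    Q.ord (D.red (t - D.const a)) = 1 := by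
  classical
  set s : D.G := t - D.const a with hs
  have hred0 : D.red s ≠ 0 := by
    intro h0
    rw [h0, Place.ord_zero] at hpos
    exact lt_irrefl _ hpos
  have hspf : D.PoleFree (s : F) Q := poleFree_sub D htpf (poleFree_const D _ Q)
  have hs0 : (s : F) ≠ 0 := D.coe_ne_zero_of_red_ne_zero hred0
  -- a zero `P₀` of `s` in the disc
  obtain ⟨P₀, hP₀, hP₀pos⟩ : ∃ P₀ : Place L F, D.r P₀ = Q ∧ 0 < P₀.ord (s : F) := by
    by_contra hcon
    push_neg at hcon
    have hsum := D.fibre_sum s hred0 Q
    have hz : ∑ P ∈ (divOf D.HL (D.coe_ne_zero_of_red_ne_zero hred0)).support.filter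
        (fun P => D.r P = Q), P.ord (s : F) = 0 := by
      apply Finset.sum_eq_zero
      intro P hP
      have hPQ := (Finset.mem_filter.mp hP).2
      have h1 := hcon P hPQ
      have h2 := hspf P hPQ
      omega
    rw [hz] at hsum
    omega
  have hcoe : (s : F) = (t : F) - algebraMap L F (a : L) := rfl
  have hP₀one : P₀.ord (s : F) = 1 := by
    rw [hcoe] at hP₀pos ⊢
    exact hsimple P₀ hP₀ _ hP₀pos
  -- a good uniformiser at `P₀`
  obtain ⟨u, hu⟩ := exists_isGoodUnif D P₀
  subst hP₀
  have hval0 : valF D.HL P₀ (s : F) = 0 :=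
    (valF_eq_zero_iff D.HL P₀ (poleFree_mem D hspf rfl)).mpr (Or.inr hP₀pos)
  set f₁ : D.G := quot hu s hspf with hf₁
  have hf₁pf : D.PoleFree (f₁ : F) (D.r P₀) := poleFree_quot hu s hspf
  have hdecomp : s = u * f₁ := by
    have h := eq_add_mul_quot hu s hspf
    have hc0 : D.const (valA D s hspf rfl) = 0 := by
      apply Subtype.ext
      show algebraMap L F (valF D.HL P₀ (s : F)) = 0
      rw [hval0, map_zero]
    rw [hc0, zero_add] at h
    exact h
  have hupf : D.PoleFree (u : F) (D.r P₀) := hu.poleFree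
  have hured : (D.r P₀).ord (D.red u) = 1 := hu.ord_red
  have hredmul : D.red s = D.red u * D.red f₁ := by rw [hdecomp, map_mul]
  have hf₁0 : D.red f₁ ≠ 0 := by
    intro h0
    rw [hredmul, h0, mul_zero] at hred0
    exact hred0 rfl
  have hordmul : (D.r P₀).ord (D.red s) = 1 + (D.r P₀).ord (D.red f₁) := by
    rw [hredmul, (D.r P₀).ord_mul hu.2.1 hf₁0, hured]
  by_contra hne
  have hf₁pos : 0 < (D.r P₀).ord (D.red f₁) := by
    have h1 : 0 ≤ (D.r P₀).ord (D.red f₁) := D.ord_red_nonneg hf₁0 hf₁pf
    omega
  -- apply `δ`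
  set Du : D.G := ⟨δ (u : F), hδG u⟩ with hDu
  set Df : D.G := ⟨δ (f₁ : F), hδG f₁⟩ with hDf
  have hDupf : D.PoleFree (Du : F) (D.r P₀) := fun P hP => hpres P hP _ (hupf P hP)
  have hDfpf : D.PoleFree (Df : F) (D.r P₀) := fun P hP => hpres P hP _ (hf₁pf P hP)
  have hone : (1 : D.G) = u * Df + f₁ * Du := by
    apply Subtype.ext
    show (1 : F) = (u : F) * δ (f₁ : F) + (f₁ : F) * δ (u : F)
    have h1 : δ (s : F) = 1 := by
      rw [hcoe, map_sub, hδt, Derivation.map_algebraMap, sub_zero]
    have h2 : (s : F) = (u : F) * (f₁ : F) := congrArg Subtype.val hdecomp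
    rw [h2, Derivation.leibniz, smul_eq_mul, smul_eq_mul] at h1
    rw [← h1]
  have hred1 : (1 : Ft) = D.red u * D.red Df + D.red f₁ * D.red Du := by
    have := congrArg D.red hone
    rwa [map_one, map_add, map_mul, map_mul] at this
  -- both summands lie in the maximal ideal of `Q`
  have hA : ∀ (x y : Ft), 0 < (D.r P₀).ord x → x ≠ 0 → y ∈ (D.r P₀).toValuationSubring →
      x * y = 0 ∨ 1 ≤ (D.r P₀).ord (x * y) := by
    intro x y hx hx0 hy
    by_cases hy0 : y = 0
    · left; rw [hy0, mul_zero]
    · right
      rw [(D.r P₀).ord_mul hx0 hy0]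
      have := ffp_ord_nonneg_of_mem (D.r P₀) hy
      omega
  have h1 := hA (D.red u) (D.red Df) (by rw [hured]; exact one_pos) hu.2.1
    (red_mem_of_poleFree D Df hDfpf)
  have h2 := hA (D.red f₁) (D.red Du) hf₁pos hf₁0 (red_mem_of_poleFree D Du hDupf)
  have hord1 : (D.r P₀).ord (1 : Ft) = 0 := Place.ord_one _
  rcases h1 with h1 | h1 <;> rcases h2 with h2 | h2
  · rw [h1, h2, add_zero] at hred1
    exact one_ne_zero hred1
  · rw [h1, zero_add] at hred1
    rw [hred1] at hord1
    omega
  · rw [h2, add_zero] at hred1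
    rw [hred1] at hord1
    omega
  · have hsum0 : D.red u * D.red Df + D.red f₁ * D.red Du ≠ 0 := by
      rw [← hred1]; exact one_ne_zero
    have := ffp_le_ord_add (D.r P₀) h1 h2 hsum0
    rw [← hred1, hord1] at this
    omega

end Abstract

/-! ### the derivation `d/dt` at a place where `t - c` is a uniformiser -/

section Local

open KaehlerDifferential

variable {K F : Type*} [Field K] [Field F] [Algebra K F] [IsAlgClosed K] [CharZero K]

/-- **`d/dt` preserves the valuation ring of a place at which some `t - c` is a uniformiser.** -/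
theorem der_mem_place {t : F} (ht : IsGen K t) (δ : Derivation K F F) (hδt : δ t = 1)
    (v : Place K F) (c : K) (hc : v.ord (t - algebraMap K F c) = 1) {a : F}
    (ha : 0 ≤ v.ord a) : 0 ≤ v.ord (δ a) := by
  haveI := dCoordGenerates ht v
  haveI := nontrivial_kaehler ht
  -- `D a = g • D t` and `δ a = g`
  have hspan := span_D_eq_top ht
  have hmem : D K F a ∈ Submodule.span F {D K F t} := by rw [hspan]; exact Submodule.mem_top
  obtain ⟨g, hg⟩ := Submodule.mem_span_singleton.mp hmem
  have hδa : δ a = g := by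
    have h1 := Derivation.liftKaehlerDifferential_comp_D δ a
    rw [← hg, map_smul, Derivation.liftKaehlerDifferential_comp_D, hδt, smul_eq_mul, mul_one] at h1
    exact h1.symm
  -- the coefficient of `D t`
  have hDt : D K F t = D K F (t - algebraMap K F c) := by
    rw [map_sub, Derivation.map_algebraMap, sub_zero]
  have hord : v.ordDifferential (D K F t) = 0 := by
    rw [hDt, ordDifferential_D_of_ord_ne_zero ht v (by rw [hc]; exact one_ne_zero), hc, sub_self]
  have hDt0 : D K F t ≠ 0 := D_ne_zero ht
  have hct0 : v.differentialCoeff (D K F t) ≠ 0 := ffg_differentialCoeff_ne_zero ht v hDt0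
  have hcoef : v.differentialCoeff (D K F a) = g * v.differentialCoeff (D K F t) := by
    rw [← hg, v.differentialCoeff_smul]
  have hca : 0 ≤ v.ord (v.differentialCoeff (D K F a)) := ord_differentialCoeff_D_nonneg ht v ha
  rw [hδa]
  by_cases hg0 : g = 0
  · rw [hg0, Place.ord_zero]
  · rw [hcoef, v.ord_mul hg0 hct0] at hca
    rw [Place.ordDifferential] at hord
    omega

end Local

end

end Fermat.Agent.MP.TH.Etale0
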