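/-
Programme MP (S44), chapter TH (lead): **θ-calculus and Gauss valuation rings, abstract part.**

`E ≤ L((q))` a field of `q`-expansions, `A ≤ L` a valuation ring with `res : A →+* k`,
`I ≤ E` a subring of elements with `A`-integral expansion, `red₀ : I →+* Ft` a reduction whose
kernel is the kernel of the coefficientwise reduction (`Integral`), `G := fracRing red₀` the Gauss
valuation ring (`hval : ∀ y, y ∈ G ∨ y⁻¹ ∈ G`).

* `Integral.mem_of_mul_eq` (RATIO, `≤`) : `y · U = V` in `L((q))` with `U, V` integral series, `Ū ≠ 0`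
  ⟹ `y ∈ G`;
* `Integral.fracRed_ne_zero_of_mul_eq` (RATIO, unit) : if moreover `V̄ ≠ 0` then `red y ≠ 0`;
* `thetaDer` : `θ = q d/dq` as an `L`-derivation `E → L((q))`;
* `theta_eq_mul` : `θ f = θ t · dd f` for every `L`-derivation `dd` of `E` with `dd t = 1`, when `Ω[E⁄L]`
  is spanned by `D t`;
* `der_mem` (DER-weak) : such a `dd` preserves `G` as soon as `θ t` is an integral series with
  nonzero reduction.
-/
import Mathlib
import Fermat.Agent.IG.PR.Theta20
import Fermat.Agent.FF.IFACE.GaussVal1

set_option autoImplicit false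
set_option linter.unusedSectionVars false
set_option linter.style.longLine false

open HahnSeries ModularCurve

noncomputable section

namespace Fermat.Agent.MP.TH.Theta0

open Fermat.Agent.IG.PR.Theta20 Fermat.Agent.FF.IFACE.GaussVal1

variable {L : Type*} [Field L] (A : ValuationSubring L) {k : Type*} [Field k] (res : ↥A →+* k)
variable (E : IntermediateField L (LaurentSeries L))

theorem coeffMap_subtype_injective : Function.Injective (coeffMap (A.subtype : ↥A →+* L)) := by
  intro x y h
  ext n
  have := congrArg (fun z : LaurentSeries L => z.coeff n) h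
  simp only [coeffMap_coeff] at this
  exact this

/-- the data of an integral structure on `E`. -/
structure Integral {Ft : Type*} [Field Ft] (I : Subring ↥E) (red₀ : ↥I →+* Ft) : Prop where
  exists_series : ∀ f : ↥I, ∃ Y : LaurentSeries ↥A,
    coeffMap A.subtype Y = ((f : ↥E) : LaurentSeries L)
  red_eq_zero_iff : ∀ (f : ↥I) (Y : LaurentSeries ↥A),
    coeffMap A.subtype Y = ((f : ↥E) : LaurentSeries L) → (red₀ f = 0 ↔ coeffMap res Y = 0)

variable {A res E}
variable {Ft : Type*} [Field Ft] {I : Subring ↥E} {red₀ : ↥I →+* Ft}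

namespace Integral

variable (H : Integral A res E I red₀)
include H

/-- (RATIO, `≤`). -/
theorem mem_of_mul_eq (hval : ∀ y : ↥E, y ∈ fracRing red₀ ∨ y⁻¹ ∈ fracRing red₀)
    (y : ↥E) (U V : LaurentSeries ↥A) (hU : coeffMap res U ≠ 0)
    (h : (y : LaurentSeries L) * coeffMap A.subtype U = coeffMap A.subtype V) :
    y ∈ fracRing red₀ := by
  rcases hval y with hy | hy
  · exact hy
  by_contra hny
  -- `y⁻¹ ∈ G` is not a unit of `G`
  have hred : fracRed red₀ ⟨y⁻¹, hy⟩ = 0 := by
    by_contra hne
    apply hny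
    have := inv_mem_of_fracRed_ne_zero red₀ hne
    simpa using this
  obtain ⟨a, b, hb, hab, -⟩ := exists_num_den red₀ ⟨y⁻¹, hy⟩
  have ha : red₀ a = 0 := (fracRed_eq_zero_iff red₀ ⟨y⁻¹, hy⟩ hb hab).mp hred
  have hy0 : y ≠ 0 := by
    rintro rfl
    exact hny (Subring.zero_mem _)
  obtain ⟨Ya, hYa⟩ := H.exists_series a
  obtain ⟨Yb, hYb⟩ := H.exists_series b
  have hYa0 : coeffMap res Ya = 0 := (H.red_eq_zero_iff a Ya hYa).mp ha
  have hYb0 : coeffMap res Yb ≠ 0 := fun h0 => hb ((H.red_eq_zero_iff b Yb hYb).mpr h0)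
  -- `b = y * a` in `E`
  have hba : (b : ↥E) = y * (a : ↥E) := by
    have h1 : y⁻¹ * (b : ↥E) = (a : ↥E) := hab
    rw [← h1, ← mul_assoc, mul_inv_cancel₀ hy0, one_mul]
  -- `U * Yb = V * Ya` over `A`
  have hkey : U * Yb = V * Ya := by
    apply coeffMap_subtype_injective (A := A)
    rw [map_mul, map_mul, hYb, hYa, ← h, hba]
    push_cast
    ring
  have := congrArg (coeffMap res) hkey
  rw [map_mul, map_mul, hYa0, mul_zero] at this
  exact (mul_ne_zero hU hYb0) this

/-- (RATIO, unit). -/
theorem fracRed_ne_zero_of_mul_eq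
    (y : ↥E) (hy : y ∈ fracRing red₀) (U V : LaurentSeries ↥A) (hV : coeffMap res V ≠ 0)
    (h : (y : LaurentSeries L) * coeffMap A.subtype U = coeffMap A.subtype V) :
    fracRed red₀ ⟨y, hy⟩ ≠ 0 := by
  intro hred
  obtain ⟨a, b, hb, hab, -⟩ := exists_num_den red₀ ⟨y, hy⟩
  have ha : red₀ a = 0 := (fracRed_eq_zero_iff red₀ ⟨y, hy⟩ hb hab).mp hred
  obtain ⟨Ya, hYa⟩ := H.exists_series a
  obtain ⟨Yb, hYb⟩ := H.exists_series b
  have hYa0 : coeffMap res Ya = 0 := (H.red_eq_zero_iff a Ya hYa).mp ha
  have hYb0 : coeffMap res Yb ≠ 0 := fun h0 => hb ((H.red_eq_zero_iff b Yb hYb).mpr h0)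
  have hab' : y * (b : ↥E) = (a : ↥E) := hab
  have hkey : V * Yb = U * Ya := by
    apply coeffMap_subtype_injective (A := A)
    rw [map_mul, map_mul, hYb, hYa, ← h, ← hab']
    push_cast
    ring
  have := congrArg (coeffMap res) hkey
  rw [map_mul, map_mul, hYa0, mul_zero] at this
  exact (mul_ne_zero hV hYb0) this

/-- an element with nonzero reduction is a unit of the Gauss ring. -/
theorem inv_mem_of_mul_eq (hval : ∀ y : ↥E, y ∈ fracRing red₀ ∨ y⁻¹ ∈ fracRing red₀)
    (y : ↥E) (U V : LaurentSeries ↥A) (hU : coeffMap res U ≠ 0) (hV : coeffMap res V ≠ 0)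
    (h : (y : LaurentSeries L) * coeffMap A.subtype U = coeffMap A.subtype V) :
    y ∈ fracRing red₀ ∧ y⁻¹ ∈ fracRing red₀ := by
  have hy := H.mem_of_mul_eq hval y U V hU h
  refine ⟨hy, ?_⟩
  have := inv_mem_of_fracRed_ne_zero red₀ (H.fracRed_ne_zero_of_mul_eq y hy U V hV h)
  simpa using this

end Integral

/-! ### `θ` as a derivation -/

theorem theta_C_mul (c : L) (f : LaurentSeries L) :
    theta (HahnSeries.C c * f) = HahnSeries.C c * theta f := by
  rw [theta_mul, theta_C, zero_mul, zero_add]

variable (E)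

/-- `L((q))` as a module over `E` (a type synonym, to avoid instance diamonds). -/
def TMod (_E : IntermediateField L (LaurentSeries L)) : Type _ := LaurentSeries L

instance instAddCommGroupTMod : AddCommGroup (TMod E) :=
  inferInstanceAs (AddCommGroup (LaurentSeries L))

/-- the identity `L((q)) ≃+ TMod E`. -/
def toMod : LaurentSeries L ≃+ TMod E := AddEquiv.refl _

instance instModuleETMod : Module ↥E (TMod E) :=
  Module.compHom (LaurentSeries L)
    ((E.val : ↥E →ₐ[L] LaurentSeries L) : ↥E →+* LaurentSeries L)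

instance instModuleLTMod : Module L (TMod E) := Module.compHom (TMod E) (algebraMap L ↥E)

instance instIsScalarTowerTMod : IsScalarTower L ↥E (TMod E) := ⟨fun c x m => by
  show (c • x) • m = (algebraMap L ↥E c) • (x • m)
  rw [Algebra.smul_def, mul_smul]⟩

theorem smulE_def (x : ↥E) (m : TMod E) :
    x • m = toMod E ((x : LaurentSeries L) * (toMod E).symm m) := rfl

theorem smulL_def (c : L) (m : TMod E) :
    c • m = toMod E (HahnSeries.C c * (toMod E).symm m) := by
  show (algebraMap L ↥E c) • m = _
  rw [smulE_def]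
  congr 2
  show algebraMap L (LaurentSeries L) c = _
  exact LaurentSeries.algebraMap_apply L c

theorem coe_smul_eq (c : L) (f : ↥E) :
    ((c • f : ↥E) : LaurentSeries L) = HahnSeries.C c * (f : LaurentSeries L) := by
  rw [IntermediateField.coe_smul, Algebra.smul_def, LaurentSeries.algebraMap_apply]

/-- `θ = q d/dq` restricted to `E`, as a derivation with values in `L((q))`. -/
def thetaDer : Derivation L ↥E (TMod E) where
  toFun f := toMod E (theta (f : LaurentSeries L))
  map_add' f g := by
    show toMod E (theta (((f + g : ↥E)) : LaurentSeries L)) = _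
    push_cast
    rw [map_add, map_add]
  map_smul' c f := by
    show toMod E (theta (((c • f : ↥E)) : LaurentSeries L)) =
      c • toMod E (theta (f : LaurentSeries L))
    rw [coe_smul_eq, theta_C_mul, smulL_def]
    rfl
  map_one_eq_zero' := by
    show toMod E (theta (((1 : ↥E)) : LaurentSeries L)) = 0
    push_cast
    rw [theta_one, map_zero]
  leibniz' f g := by
    show toMod E (theta (((f * g : ↥E)) : LaurentSeries L)) =
      f • toMod E (theta (g : LaurentSeries L)) + g • toMod E (theta (f : LaurentSeries L))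
    rw [smulE_def, smulE_def, ← map_add]
    congr 1
    push_cast
    rw [theta_mul]
    show _ = (f : LaurentSeries L) * theta (g : LaurentSeries L) +
      (g : LaurentSeries L) * theta (f : LaurentSeries L)
    ring

theorem thetaDer_apply (f : ↥E) : thetaDer E f = toMod E (theta (f : LaurentSeries L)) := rfl

/-- multiplication by a fixed series, as an `E`-linear map `E → L((q))`. -/
def mulSeries (s : LaurentSeries L) : ↥E →ₗ[↥E] TMod E where
  toFun x := toMod E ((x : LaurentSeries L) * s)
  map_add' x y := by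
    rw [← map_add]
    congr 1
    push_cast
    ring
  map_smul' c x := by
    show toMod E (((c * x : ↥E) : LaurentSeries L) * s) = c • toMod E ((x : LaurentSeries L) * s)
    rw [smulE_def]
    congr 1
    push_cast
    show _ = (c : LaurentSeries L) * ((x : LaurentSeries L) * s)
    ring

variable {E}

/-- **the θ-formula**: `θ f = θ t · dd f`. -/
theorem theta_eq_mul {t : ↥E} (hspan : Submodule.span ↥E {KaehlerDifferential.D L ↥E t} = ⊤)
    (dd : Derivation L ↥E ↥E) (hdd : dd t = 1) (f : ↥E) :
    theta (f : LaurentSeries L) = theta (t : LaurentSeries L) * ((dd f : ↥E) : LaurentSeries L) := by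
  -- the derivation `δ := θ − θ t • dd` vanishes at `t`
  let δ : Derivation L ↥E (TMod E) :=
    thetaDer E - (mulSeries E (theta (t : LaurentSeries L))).compDer dd
  have hδ : ∀ x : ↥E, δ x = toMod E (theta (x : LaurentSeries L) -
      ((dd x : ↥E) : LaurentSeries L) * theta (t : LaurentSeries L)) := by
    intro x
    show toMod E (theta (x : LaurentSeries L)) -
      toMod E (((dd x : ↥E) : LaurentSeries L) * theta (t : LaurentSeries L)) = _
    rw [← map_sub]
  have hδt : δ t = 0 := by
    rw [hδ, hdd]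
    push_cast
    rw [one_mul, sub_self, map_zero]
  have hlift : δ.liftKaehlerDifferential = 0 := by
    apply LinearMap.ext_on (s := {KaehlerDifferential.D L ↥E t}) hspan
    intro x hx
    rw [Set.mem_singleton_iff] at hx
    subst hx
    rw [Derivation.liftKaehlerDifferential_comp_D, LinearMap.zero_apply]
    exact hδt
  have h0 : δ f = 0 := by
    rw [← Derivation.liftKaehlerDifferential_comp_D δ f, hlift, LinearMap.zero_apply]
  rw [hδ] at h0
  have h1 : theta (f : LaurentSeries L) -
      ((dd f : ↥E) : LaurentSeries L) * theta (t : LaurentSeries L) = 0 := by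
    have := congrArg (toMod E).symm h0
    simpa using this
  rw [sub_eq_zero] at h1
  rw [h1, mul_comm]

/-! ### (DER-weak): derivations preserve the Gauss valuation ring -/

/-- `θ` over `A` lifts `θ` over `L`. -/
theorem coeffMap_subtype_theta (Y : LaurentSeries ↥A) :
    coeffMap A.subtype (theta Y) = theta (coeffMap A.subtype Y) := coeffMap_theta _ Y

/-- **(DER-weak)**: a derivation `dd` of `E` obeying the θ-formula w.r.t. `t`, with `θ t` an integral
series of nonzero reduction, preserves the Gauss valuation ring. -/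
theorem der_mem (H : Integral A res E I red₀)
    (hval : ∀ y : ↥E, y ∈ fracRing red₀ ∨ y⁻¹ ∈ fracRing red₀)
    (dd : Derivation L ↥E ↥E) (t : ↥E)
    (hθ : ∀ f : ↥E, theta (f : LaurentSeries L) =
      theta (t : LaurentSeries L) * ((dd f : ↥E) : LaurentSeries L))
    (Yt : LaurentSeries ↥A) (hYt : coeffMap A.subtype Yt = theta (t : LaurentSeries L))
    (hYt0 : coeffMap res Yt ≠ 0) {y : ↥E} (hy : y ∈ fracRing red₀) :
    dd y ∈ fracRing red₀ := by
  -- step 1: integral elements
  have step1 : ∀ a : ↥I, dd (a : ↥E) ∈ fracRing red₀ := by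
    intro a
    obtain ⟨Ya, hYa⟩ := H.exists_series a
    refine H.mem_of_mul_eq hval (dd (a : ↥E)) Yt (theta Ya) hYt0 ?_
    rw [hYt, coeffMap_subtype_theta, hYa, hθ (a : ↥E), mul_comm]
  -- step 2: fractions
  obtain ⟨a, b, hb, hab⟩ := hy
  have hb0 : (b : ↥E) ≠ 0 := coe_ne_zero_of_red_ne_zero red₀ hb
  have hbinv : ((b : ↥E))⁻¹ ∈ fracRing red₀ :=
    ⟨1, b, hb, by rw [inv_mul_cancel₀ hb0]; rfl⟩
  have hy' : y ∈ fracRing red₀ := ⟨a, b, hb, hab⟩
  have hd : dd y * (b : ↥E) + y * dd (b : ↥E) = dd (a : ↥E) := by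
    have := congrArg dd hab
    rw [Derivation.leibniz] at this
    rw [← this, smul_eq_mul, smul_eq_mul]
    ring
  have hdy : dd y = (dd (a : ↥E) - y * dd (b : ↥E)) * ((b : ↥E))⁻¹ := by
    rw [← hd]
    field_simp
    ring
  rw [hdy]
  exact Subring.mul_mem _ (Subring.sub_mem _ (step1 a) (Subring.mul_mem _ hy' (step1 b))) hbinv

end Fermat.Agent.MP.TH.Theta0
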