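/-
Programme MP (S44), chapter TH (lead): **(DER-weak) for the Hauptmodul at a level `M` with `4 ∣ M`, over
the Gauss valuation ring of the expansion at `∞` (good level: `p ∤ M`).**

* `integral_gaussRing` : the generic `q`-expansion Gauss ring of `ES/RED/GaussRing15` is an
  `Theta0.Integral` structure;
* `tH M h4 : Fbar M` the Hauptmodul `t = tq 4 8`, `isGen_tH`, `ddH M h4` := a derivation of `Fbar M / ℚ̄` with
  `ddH t = 1`, `theta_eq` (the θ-formula `θ f = θ t · ddH f`);
* `theta_tH_lift`, `theta_tH_red_ne_zero` : `θ t` is an integral series of nonzero reduction;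
* `ddH_mem_good` : `ddH` preserves the Gauss valuation ring `fracRing (gaussRedN A (resA A) M)` (`p ∤ M`).
-/
import Mathlib
import Fermat.Agent.MP.TH.Theta0
import Fermat.Agent.ORD.NODE.Deriv0
import Fermat.Agent.ORD.IFACEN.ModelLHyp9
import Fermat.Agent.RED.BASE.Main12
import Fermat.Agent.FF.RED.Gauss7

set_option autoImplicit false
set_option linter.unusedSectionVars false
set_option linter.style.longLine false
set_option synthInstance.maxHeartbeats 400000

open HahnSeries ModularCurve AlgebraicCurve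

noncomputable section

namespace Fermat.Agent.MP.TH.ThetaGood0

open Fermat.Agent.IG.PR.Theta20 Fermat.Agent.FF.IFACE.GaussVal1 Fermat.Agent.MP.TH.Theta0
open Fermat.Agent.ES.RED.GaussRing15 Fermat.Agent.ES.RED.Contract8
open Fermat.Agent.X0 Fermat.Agent.RED.Interface4 Fermat.Agent.RED.BASE
open Fermat.Agent.RED.BASE.Interface12 Fermat.Agent.RED.BASE.Hauptmodul12
open Fermat.Agent.RED.BASE.EtaQuot12

section Generic

variable {L : Type*} [Field L] (A : ValuationSubring L) {k : Type*} [Field k] (π : ↥A →+* k)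
variable (E : IntermediateField L (LaurentSeries L)) (Et : IntermediateField k (LaurentSeries k))

theorem integral_gaussRing : Integral A π E (gaussRing A π E Et) (gaussRed A π E Et) where
  exists_series f := by
    obtain ⟨Y, hY, -⟩ := f.2
    exact ⟨Y, hY⟩
  red_eq_zero_iff f Y hY := gaussRed_eq_zero_iff A π E Et f hY

end Generic

/-! ### the Hauptmodul and its derivation -/

section Haupt

instance : NeZero (4 : ℕ) := ⟨by norm_num⟩

variable (M : ℕ) [NeZero M]

/-- `t ∈ Fbar M`. -/
theorem tMemH (h4 : 4 ∣ M) : TMem 4 8 M := tMem_of_dvd baseHyp_four h4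

/-- the Hauptmodul `t` of `X₀(4)` in `Fbar M`. -/
def tH (h4 : 4 ∣ M) : ↥(Fbar M) := tF M (tMemH M h4)

@[simp] theorem coe_tH (h4 : 4 ∣ M) :
    ((tH M h4 : ↥(Fbar M)) : LaurentSeries Qbar) = tq Qbar 4 8 := rfl

theorem isGen_tH (h4 : 4 ∣ M) : FF.IsGen Qbar (tH M h4) := TGen19.isGen_tF 4 8 M (tMemH M h4)

/-- a derivation of `Fbar M` with `dd t = 1`. -/
def ddH (h4 : 4 ∣ M) : Derivation Qbar ↥(Fbar M) ↥(Fbar M) :=
  (Fermat.Agent.ORD.NODE.Deriv0.exists_derivation (isGen_tH M h4)).choose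

theorem ddH_tH (h4 : 4 ∣ M) : ddH M h4 (tH M h4) = 1 :=
  (Fermat.Agent.ORD.NODE.Deriv0.exists_derivation (isGen_tH M h4)).choose_spec

/-- **the θ-formula** at level `M`. -/
theorem theta_eq (h4 : 4 ∣ M) (f : ↥(Fbar M)) :
    theta (f : LaurentSeries Qbar) =
      theta (tq Qbar 4 8) * ((ddH M h4 f : ↥(Fbar M)) : LaurentSeries Qbar) :=
  theta_eq_mul (E := Fbar M) (FF.span_D_eq_top (isGen_tH M h4)) (ddH M h4) (ddH_tH M h4) f

end Haupt

/-! ### `θ t` is integral of nonzero reduction -/

section ThetaT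

variable (A : ValuationSubring Qbar)

theorem theta_tH_lift :
    coeffMap A.subtype (theta (tq ↥A 4 8)) = theta (tq Qbar 4 8) := by
  rw [coeffMap_theta, coeffMap_tq]

theorem theta_tH_red_ne_zero {k : Type*} [Field k] (π : ↥A →+* k) :
    coeffMap π (theta (tq ↥A 4 8)) ≠ 0 := by
  rw [coeffMap_theta, coeffMap_tq]
  intro h
  have := congrArg (fun z : LaurentSeries k => z.coeff (-1)) h
  simp only [theta_coeff, coeff_tq_neg_one, HahnSeries.coeff_zero] at this
  simp at this

end ThetaT

/-! ### the good level -/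

section Good

variable (p : ℕ) [Fact p.Prime] (M : ℕ) [NeZero M] (A : ValuationSubring Qbar)
  (hA : A.LiesOverPrime p) (hpM : ¬ p ∣ M) (h4 : 4 ∣ M)

include hA hpM h4 in
/-- the Gauss ring of the good level is a valuation ring. -/
theorem hval_good (y : ↥(Fbar M)) :
    y ∈ fracRing (gaussRedN A (resA A) M) ∨ y⁻¹ ∈ fracRing (gaussRedN A (resA A) M) := by
  obtain ⟨x, hx, T, hS0, hS1, hs0, peel0, peel1⟩ :=
    Fermat.Agent.ES.TOP.ModelAtFinal8.modelAt p (Fact.out : p.Prime) A hA 4 8 baseHyp_four M h4 hpM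
  exact Fermat.Agent.FF.RED.Gauss7.mem_or_inv_mem
    (Fermat.Agent.FF.IFACE.Inst1.redDatum 4 8 p hpM (tMem_of_dvd baseHyp_four h4)
      (tGenBase' baseHyp_four) A hA T hS0 hS1 hs0 peel0 peel1) y

include hA hpM in
/-- **(DER-weak) at the good level**: `d/dt` preserves the Gauss valuation ring. -/
theorem ddH_mem_good {y : ↥(Fbar M)} (hy : y ∈ fracRing (gaussRedN A (resA A) M)) :
    ddH M h4 y ∈ fracRing (gaussRedN A (resA A) M) :=
  der_mem (integral_gaussRing A (resA A) (Fbar M) (modularFunctionFieldFullC (kA A) M))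
    (hval_good p M A hA hpM h4) (ddH M h4) (tH M h4) (theta_eq M h4)
    (theta (tq ↥A 4 8)) (theta_tH_lift A) (theta_tH_red_ne_zero A (resA A)) hy

end Good

end Fermat.Agent.MP.TH.ThetaGood0
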