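/-
Programme MP (S44), chapter TH (lead): **(ET) on the special fibre of `X₀(M₀)`** (`4 ∣ M₀`, `p ∤ M₀`, along
`padicPlace p`): the reduced Hauptmodul `t̃ = tRes` is UNRAMIFIED at every place `Q` of
`Ft = k(X₀(M₀))` at which it is finite and `D0(t̃)` is a unit (`j = N(t)/D0(t)`, `JFrac`), i.e. away from
the cusps:

  `et_good : t̃ ∈ O_Q → D0(t̃) ≠ 0 → ord_Q (D0(t̃)) = 0 → 0 < ord_Q (t̃ − c̄) → ord_Q (t̃ − c̄) = 1`.

Proof: `Etale0.ord_red_sub_eq_one` for helper9's `GoodDatum9.goodDatum`, the derivation `d/dt`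
(`ThetaGood0.ddH`, which preserves the Gauss valuation ring: `ddH_mem_good`), `Unbranched 4 8 M₀`
(every non-cuspidal place of `X₀(M₀)` is unramified over the `t`-line) and the tube closure
`TwoCharts.inChart0_of_red_mem`.
-/
import Mathlib
import Fermat.Agent.MP.TH.Etale0
import Fermat.Agent.MP.TH.ThetaGood0
import Fermat.Agent.MP.TAU.GoodDatum9
import Fermat.Agent.ES.P36.CuspThirdK16

set_option autoImplicit false
set_option linter.unusedSectionVars false
set_option linter.style.longLine false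
set_option linter.style.haveILetI false
set_option synthInstance.maxHeartbeats 400000

open AlgebraicCurve ModularCurve IntermediateField Polynomial
open scoped MatrixGroups

noncomputable section

namespace Fermat.Agent.MP.TH.EtaleGood0

open Fermat.Agent.RED.Interface4 Fermat.Agent.RED.BASE Fermat.Agent.RED.BASE.Hauptmodul12
  Fermat.Agent.RED.BASE.Interface12 Fermat.Agent.RED.PUR.ChartGeneric22
  Fermat.Agent.ES.RED Fermat.Agent.ES.RED.ModelInstFinal4 Fermat.Agent.ES.RED.TwoCharts8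
  Fermat.Agent.ES.RED.Contract8 Fermat.Agent.ES.RED.GaussRing15 Fermat.Agent.ES.RED.GaloisInst21
  Fermat.Agent.FF.RED.RedDatum7 Fermat.Agent.FF.RED.Disc7 Fermat.Agent.FF.IFACE.Inst1
  Fermat.Agent.FF.IFACE.GaussVal1
  Fermat.Agent.FF.BASE.Place2 Fermat.Agent.X0 Fermat.Agent.X0.FF
  Fermat.Agent.MP.TAU.GoodDatum9 Fermat.Agent.MP.TH.ThetaGood0 Fermat.Agent.MP.TH.Etale0
  Fermat.Agent.ES.P36.CuspPoly16 Fermat.Agent.ES.P36.CuspThirdK16
  Fermat.Agent.MW.EMB.Value6

variable {p M₀ : ℕ} [Fact p.Prime] [NeZero M₀] (hpM : ¬ p ∣ M₀) (h4 : 4 ∣ M₀)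

/-- the reduced Hauptmodul `t̃ ∈ k(X₀(M₀))`. -/
abbrev tbar : ↥(modularFunctionFieldFullC (kA (padicPlace p)) M₀) :=
  Fermat.Agent.ES.RED.SpecialGen25.tRes 4 8 M₀ p hpM (tMem4 h4) (tGenBase' baseHyp_four)
    (padicPlace p) (liesOverPrime (ℓ := p))

/-- the chart-0 coefficient structure of the good model. -/
theorem hS0g : CoeffChart (F₀ := modularFunctionFieldFull M₀) (goodT hpM h4).S0 :=
  coeffChart0_final 4 8 M₀ p hpM (tMem4 h4) (tGenBase' baseHyp_four) (padicPlace p)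
    (liesOverPrime (ℓ := p))

/-- `t` as an element of the Gauss valuation ring. -/
def tG : (goodDatum hpM h4).G :=
  ⟨tF M₀ (tMem4 h4), le_fracRing _ (chart_le_gauss (hS0g hpM h4) (goodT hpM h4).S0.s_mem)⟩

@[simp] theorem coe_tG : ((tG hpM h4 : (goodDatum hpM h4).G) : X0.FF M₀) = tF M₀ (tMem4 h4) := rfl

theorem red_tG : (goodDatum hpM h4).red (tG hpM h4) = tbar hpM h4 := by
  have h1 := fracRed_of_mem (gaussRedN (padicPlace p) (resA (padicPlace p)) M₀)
    ⟨(((goodT hpM h4).S0.sB : ↥(goodT hpM h4).S0.B) : X0.FF M₀),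
      chart_le_gauss (hS0g hpM h4) (goodT hpM h4).S0.sB.2⟩
  rw [gaussRed_of_chart (hS0g hpM h4) (goodT hpM h4).S0.sB] at h1
  have h2 := Fermat.Agent.ES.RED.RedInst15.red_sB_eq_tRes 4 8 M₀ p hpM (tMem4 h4)
    (tGenBase' baseHyp_four) (padicPlace p) (liesOverPrime (ℓ := p)) (goodT hpM h4).S0
    (hS0g hpM h4) rfl
  show _ = Fermat.Agent.ES.RED.SpecialGen25.tRes 4 8 M₀ p hpM (tMem4 h4) (tGenBase' baseHyp_four)
    (padicPlace p) (liesOverPrime (ℓ := p))
  rw [← h2, ← h1]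
  rfl

/-! ### `j = N(t) / D0(t)` at level `M₀` -/

section JFrac

theorem coe_ival_FF {M : ℕ} [NeZero M] (x : X0.FF M) (P : ℤ[X]) :
    ((ival P x : X0.FF M) : LaurentSeries Kbar) = ival P (x : LaurentSeries Kbar) :=
  map_ival ((modularFunctionFieldBar M).val : X0.FF M →+* LaurentSeries Kbar) x P

theorem coe_aeval_FF {M : ℕ} [NeZero M] (x : X0.FF M) (P : Kbar[X]) :
    ((aeval x P : X0.FF M) : LaurentSeries Kbar) = aeval (x : LaurentSeries Kbar) P :=
  (Polynomial.aeval_algHom_apply (modularFunctionFieldBar M).val x P).symm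

variable {N : Kbar[X]} {D0 : ℤ[X]}

/-- `j · D0(t) = N(t)` at every level `M` with `4 ∣ M`. -/
theorem jFrac_level (hND : JFrac 4 8 baseHyp_four N D0) {M : ℕ} [NeZero M] (h : TMem 4 8 M) :
    jF M * ival D0 (tF M h) = aeval (tF M h) N := by
  have h0 := hND.2.2
  have h4' : ((jF 4 * ival D0 (tF 4 (tMem baseHyp_four)) : X0.FF 4) : LaurentSeries Kbar) =
      ((aeval (tF 4 (tMem baseHyp_four)) N : X0.FF 4) : LaurentSeries Kbar) := by rw [h0]
  have e1 : ((tF 4 (tMem baseHyp_four) : X0.FF 4) : LaurentSeries Kbar) = tK 4 8 := rfl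
  have e2 : ((tF M h : X0.FF M) : LaurentSeries Kbar) = tK 4 8 := rfl
  rw [MulMemClass.coe_mul, coe_ival_FF, coe_aeval_FF, Fermat.Agent.X0.coe_jF, e1] at h4'
  apply Subtype.ext
  rw [MulMemClass.coe_mul, coe_ival_FF, coe_aeval_FF, Fermat.Agent.X0.coe_jF, e2]
  exact h4'

end JFrac

/-! ### (ET) -/

section Main

variable {N : Kbar[X]} {D0 : ℤ[X]}

instance : IsAlgClosed (kA (padicPlace p)) :=
  Fermat.Agent.ES.KRON.KronInst10.isAlgClosed_residueField (padicPlace p)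

/-- the reduced coordinate of chart 0 is `t̃`. -/
theorem red_sB0 : (goodT hpM h4).S0.red (goodT hpM h4).S0.sB = tbar hpM h4 :=
  Fermat.Agent.ES.RED.RedInst15.red_sB_eq_tRes 4 8 M₀ p hpM (tMem4 h4)
    (tGenBase' baseHyp_four) (padicPlace p) (liesOverPrime (ℓ := p)) (goodT hpM h4).S0
    (hS0g hpM h4) rfl

/-- `t̃` generates. -/
theorem isGen_tbar : IsGen (kA (padicPlace p)) (tbar hpM h4) :=
  Fermat.Agent.ES.RED.SpecialGen25.isGen_tRes 4 8 M₀ p hpM (tMem4 h4) (tGenBase' baseHyp_four)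
    (padicPlace p) (liesOverPrime (ℓ := p))

/-- tube closure: `t` is regular on the disc of a place `Q` at which `t̃` is regular. -/
theorem poleFree_t {Q : Place (kA (padicPlace p)) ↥(modularFunctionFieldFullC (kA (padicPlace p)) M₀)}
    (htQ : tbar hpM h4 ∈ Q.toValuationSubring) :
    (goodDatum hpM h4).PoleFree (tF M₀ (tMem4 h4)) Q := by
  intro P hP
  have hxt : IsGen (kA (padicPlace p)) ((goodT hpM h4).S0.red (goodT hpM h4).S0.sB) := by
    rw [red_sB0]; exact isGen_tbar hpM h4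
  have hin := (goodT hpM h4).inChart0_of_red_mem hxt P (by
    have : (goodT hpM h4).r P = Q := hP
    rw [this, red_sB0]; exact htQ)
  obtain ⟨hs, -⟩ := hin
  exact ffp_ord_nonneg_of_mem P hs


/-- `D0(t)` as an element of the Gauss valuation ring. -/
def dG (D0 : ℤ[X]) : (goodDatum hpM h4).G := ival D0 (tG hpM h4)

theorem coe_dG (D0 : ℤ[X]) :
    ((dG hpM h4 D0 : (goodDatum hpM h4).G) : X0.FF M₀) = ival D0 (tF M₀ (tMem4 h4)) :=
  map_ival (goodDatum hpM h4).G.subtype (tG hpM h4) D0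

theorem red_dG (D0 : ℤ[X]) : (goodDatum hpM h4).red (dG hpM h4 D0) = ival D0 (tbar hpM h4) := by
  rw [dG, map_ival, red_tG]

/-- the places of the disc of a non-cuspidal `Q` are non-cuspidal. -/
theorem ord_jF_nonneg (hND : JFrac 4 8 baseHyp_four N D0)
    {Q : Place (kA (padicPlace p)) ↥(modularFunctionFieldFullC (kA (padicPlace p)) M₀)}
    (htQ : tbar hpM h4 ∈ Q.toValuationSubring)
    (hD0 : ival D0 (tbar hpM h4) ≠ 0) (hDQ : Q.ord (ival D0 (tbar hpM h4)) = 0)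
    (P : Place Qbar (X0.FF M₀)) (hP : (goodDatum hpM h4).r P = Q) : 0 ≤ P.ord (jF M₀) := by
  have htP : tF M₀ (tMem4 h4) ∈ P.toValuationSubring :=
    poleFree_mem (goodDatum hpM h4) (poleFree_t hpM h4 htQ) hP
  have hred0 : (goodDatum hpM h4).red (dG hpM h4 D0) ≠ 0 := by rw [red_dG]; exact hD0
  have hdpf : (goodDatum hpM h4).PoleFree ((dG hpM h4 D0 : (goodDatum hpM h4).G) : X0.FF M₀) Q := by
    intro P' hP'
    rw [coe_dG]
    exact ffp_ord_nonneg_of_mem P' (ival_mem_valuationSubring P'.toValuationSubring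
      (poleFree_mem (goodDatum hpM h4) (poleFree_t hpM h4 htQ) hP') D0)
  have hle := (goodDatum hpM h4).ord_le_ord_red hred0 hdpf hP
  rw [red_dG, hDQ, coe_dG] at hle
  have hge : 0 ≤ P.ord (ival D0 (tF M₀ (tMem4 h4))) := by
    have := hdpf P hP
    rwa [coe_dG] at this
  have hd0 : ival D0 (tF M₀ (tMem4 h4)) ≠ 0 := by
    rw [← coe_dG hpM h4 D0]
    exact (goodDatum hpM h4).coe_ne_zero_of_red_ne_zero hred0
  have hrel := jFrac_level hND (tMem4 h4)
  by_cases hj0 : jF M₀ = 0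
  · rw [hj0, Place.ord_zero]
  have hN : 0 ≤ P.ord (aeval (tF M₀ (tMem4 h4)) N) :=
    ffp_ord_nonneg_of_mem P (Fermat.Agent.ES.P36.JDenom16.aeval_mem_place P htP N)
  rw [← hrel, P.ord_mul hj0 hd0] at hN
  omega

/-- **(ET) on the special fibre of `X₀(M₀)`.** -/
theorem et_good (hND : JFrac 4 8 baseHyp_four N D0)
    (Q : Place (kA (padicPlace p)) ↥(modularFunctionFieldFullC (kA (padicPlace p)) M₀))
    (htQ : tbar hpM h4 ∈ Q.toValuationSubring)
    (hD0 : ival D0 (tbar hpM h4) ≠ 0) (hDQ : Q.ord (ival D0 (tbar hpM h4)) = 0)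
    (a : ↥(padicPlace p))
    (hpos : 0 < Q.ord (tbar hpM h4 -
      algebraMap (kA (padicPlace p)) _ (resA (padicPlace p) a))) :
    Q.ord (tbar hpM h4 - algebraMap (kA (padicPlace p)) _ (resA (padicPlace p) a)) = 1 := by
  have hδt : ddH M₀ h4 ((tG hpM h4 : (goodDatum hpM h4).G) : X0.FF M₀) = 1 := ddH_tH M₀ h4
  have hδG : ∀ g : (goodDatum hpM h4).G, ddH M₀ h4 (g : X0.FF M₀) ∈ (goodDatum hpM h4).G :=
    fun g => ddH_mem_good p M₀ (padicPlace p) (liesOverPrime (ℓ := p)) hpM h4 g.2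
  obtain ⟨hU0, hU⟩ := (Main12.baseExports_four M₀ h4).unbranched
  have hloc : ∀ P : Place Qbar (X0.FF M₀), (goodDatum hpM h4).r P = Q →
      ∃ c : Qbar, P.ord (tF M₀ (tMem4 h4) - algebraMap Qbar (X0.FF M₀) c) = 1 :=
    fun P hP => hU P (ord_jF_nonneg hpM h4 hND htQ hD0 hDQ P hP)
  have hpres : ∀ P : Place Qbar (X0.FF M₀), (goodDatum hpM h4).r P = Q →
      ∀ f : X0.FF M₀, 0 ≤ P.ord f → 0 ≤ P.ord (ddH M₀ h4 f) := by
    intro P hP f hf
    obtain ⟨c, hc⟩ := hloc P hP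
    exact der_mem_place (isGen_tH M₀ h4) (ddH M₀ h4) (ddH_tH M₀ h4) P c hc hf
  have hsimple : ∀ P : Place Qbar (X0.FF M₀), (goodDatum hpM h4).r P = Q → ∀ c : Qbar,
      0 < P.ord (((tG hpM h4 : (goodDatum hpM h4).G) : X0.FF M₀) - algebraMap Qbar (X0.FF M₀) c) →
      P.ord (((tG hpM h4 : (goodDatum hpM h4).G) : X0.FF M₀) - algebraMap Qbar (X0.FF M₀) c) = 1 := by
    intro P hP c hc
    obtain ⟨c', hc'⟩ := hloc P hP
    have htP : tF M₀ (tMem4 h4) ∈ P.toValuationSubring :=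
      poleFree_mem (goodDatum hpM h4) (poleFree_t hpM h4 htQ) hP
    have h1 : valF (goodDatum hpM h4).HL P (tF M₀ (tMem4 h4)) = c :=
      valF_unique (goodDatum hpM h4).HL P htP c (Or.inr hc)
    have h2 : valF (goodDatum hpM h4).HL P (tF M₀ (tMem4 h4)) = c' :=
      valF_unique (goodDatum hpM h4).HL P htP c' (Or.inr (by rw [hc']; exact one_pos))
    have : c = c' := h1.symm.trans h2
    rw [this]
    exact hc'
  have key := ord_red_sub_eq_one (goodDatum hpM h4) (ddH M₀ h4) (tG hpM h4) hδt hδG Q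
    (poleFree_t hpM h4 htQ) hpres hsimple a
  have hredsub : (goodDatum hpM h4).red (tG hpM h4 - (goodDatum hpM h4).const a) =
      tbar hpM h4 - algebraMap (kA (padicPlace p)) _ (resA (padicPlace p) a) := by
    rw [map_sub, red_tG, RedDatum.red_const']
    rfl
  rw [hredsub] at key
  exact key hpos

/-- **(ET)**, residue-constant form. -/
theorem et_good' (hND : JFrac 4 8 baseHyp_four N D0)
    (Q : Place (kA (padicPlace p)) ↥(modularFunctionFieldFullC (kA (padicPlace p)) M₀))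
    (htQ : tbar hpM h4 ∈ Q.toValuationSubring)
    (hD0 : ival D0 (tbar hpM h4) ≠ 0) (hDQ : Q.ord (ival D0 (tbar hpM h4)) = 0)
    (c : kA (padicPlace p))
    (hpos : 0 < Q.ord (tbar hpM h4 - algebraMap (kA (padicPlace p)) _ c)) :
    Q.ord (tbar hpM h4 - algebraMap (kA (padicPlace p)) _ c) = 1 := by
  obtain ⟨a, rfl⟩ := (goodDatum hpM h4).res_surj c
  exact et_good hpM h4 hND Q htQ hD0 hDQ a hpos

/-- the `q`-expansion of `t̃`. -/
theorem coe_tbar : ((tbar hpM h4 : ↥(modularFunctionFieldFullC (kA (padicPlace p)) M₀)) :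
    LaurentSeries (kA (padicPlace p))) = EtaQuot12.tq (kA (padicPlace p)) 4 8 := rfl

end Main

end Fermat.Agent.MP.TH.EtaleGood0
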