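/-
Programme MP (S44), chapter TH, brick (R-c) (helper2): **the nodes of the concrete datum
`MainDatum6.datum hpM h4 hp2` of `X₀(M' p)` avoid the cusps**, and the reduced Hauptmodul is
unramified at the node places.

* the dictionary closed point `χ₀` of the `ℚ̄`-level chart ↦ maximal ideal `ker (χ₀ ∘ j)` of the
  `K`-level chart, on both branches (`phi0`, `onBranch_one0`, `onBranch_two0`, `phi1`, …);
* `exists_ready` : a finite inertial `K ∋ ζ_{M'}` with all the K-level items of Programs N/P;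
* `chi_ival_ne_zero` : `χ₀ (D0(T)) ≠ 0` at a two-branch closed point of chart `0` (`j = N(t)/D0(t)`);
  `chi_tinv_ne_zero` : `χ₀ (T⁻¹) ≠ 0` at a two-branch closed point of chart `1`;
* **`h0`** : every node of the datum is a chart-`0` point;
* **`h1`** : at every node `e`, `ord_{Qs e} (t̄ − c) = 1` for the value `c` of `t̄` at `Qs e`
  (lead's `EtaleGood0.et_good'`), with `t̄ = red₀ (tBad)` (`red_tBad`).
-/
import Mathlib
import Fermat.Agent.MP.TH.CuspK2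
import Fermat.Agent.MP.TH.EtaleGood0
import Fermat.Agent.MP.FINAL.MainDatum6
import Fermat.Agent.ES.P36.RegClosed21
import Fermat.Agent.ES.P36.NumAsmP12
import Fermat.Agent.ES.P36.ModelInert4

set_option autoImplicit false
set_option synthInstance.maxHeartbeats 400000
set_option linter.style.haveILetI false
set_option linter.unusedSectionVars false
set_option linter.unusedVariables false
set_option linter.style.longLine false

noncomputable section

open HahnSeries ModularCurve IntermediateField Polynomial AlgebraicCurve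
open scoped MatrixGroups

namespace Fermat.Agent.MP.TH.Cusp2

open Fermat.Agent.X0 Fermat.Agent.RED.Interface4 Fermat.Agent.RED.DESC.PlaceExtend27
  Fermat.Agent.RED.DESC Fermat.Agent.RED.NumInst4
  Fermat.Agent.RED.PUR.GaussGen8 Fermat.Agent.RED.PUR.GaussBridge10
  Fermat.Agent.RED.PUR.ChartGeneric22
  Fermat.Agent.RED.DESC.NumberFieldDVR27
  Fermat.Agent.RED.BASE.Interface12 Fermat.Agent.RED.BASE.EtaQuot12
  Fermat.Agent.RED.BASE.Hauptmodul12
  Fermat.Agent.ES.RED.ChartIntegralA1 Fermat.Agent.ES.RED.GaussUnit25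
  Fermat.Agent.ES.N34.ModelDefs9 Fermat.Agent.ES.N34.NumData13
  Fermat.Agent.ES.N34.NodalCore13
  Fermat.Agent.ES.P36.ModelQAt4 Fermat.Agent.ES.P36.RegInst21
  Fermat.Agent.ES.P36.CuspPoly16 Fermat.Agent.ES.P36.CuspThirdK16
  Fermat.Agent.ORD.ANN.Side3
  Fermat.Agent.ORD.IFACEN.GaussBad1 Fermat.Agent.ORD.IFACEN.SideOne1
  Fermat.Agent.ORD.IFACEN.SideTwo1
  Fermat.Agent.ORD.IFACEN.BadLevelOne8 Fermat.Agent.ORD.IFACEN.BadFamily8
  Fermat.Agent.ORD.IFACEN.BadInstTwo8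
  Fermat.Agent.ORD.IFACEN.LocAt8

/-- fast instance (the canonical search costs seconds). -/
local instance (priority := 100000) algKFc (A : ValuationSubring Qbar) (M : ℕ) [NeZero M] :
    Algebra (kA A) ↥(modularFunctionFieldFullC (kA A) M) := inferInstance

/-- shortcut instance (typeclass search takes seconds to find it). -/
local instance (priority := high) algAKFKc (A : ValuationSubring Qbar) (M : ℕ)
    (K : IntermediateField ℚ Qbar) : Algebra ↥(AK A K) ↥(FK M K) := inferInstance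

/-! ### the dictionary `ℚ̄`-level closed point ↦ `K`-level maximal ideal -/

section Dict

variable (p M' : ℕ) [Fact p.Prime] [NeZero M'] (A : ValuationSubring Qbar)
  (hA : A.LiesOverPrime p) (hpM : ¬ p ∣ M') (h4 : 4 ∣ M')
  (K : IntermediateField ℚ Qbar) [FiniteDimensional ℚ K] (ht : tq ↥K 4 8 ∈ FK M' K)

/-- the `K`-level closed point below a closed point `χ₀` of `chart A t`. -/
def phi0 (χ₀ : ↥(chart ↥A (tB p M' h4)) →+* kA A) : ↥(B0 A p ht) →+* kA A :=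
  χ₀.comp (((baseChangeHom (M' * p) K).comp (B0 A p ht).val.toRingHom).codRestrict
    (chart ↥A (tB p M' h4)).toSubring (fun b => baseChangeHom_mem_chart0 p M' A h4 K ht b.2))

theorem phi0_apply (χ₀ : ↥(chart ↥A (tB p M' h4)) →+* kA A) (b : ↥(B0 A p ht)) :
    phi0 p M' A h4 K ht χ₀ b = χ₀ ⟨baseChangeHom (M' * p) K (b : ↥(FK (M' * p) K)),
      baseChangeHom_mem_chart0 p M' A h4 K ht b.2⟩ := rfl

/-- the `K`-level closed point below a closed point `χ₀` of `chart A t⁻¹`. -/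
def phi1 (χ₀ : ↥(chart ↥A (tB p M' h4)⁻¹) →+* kA A) : ↥(B1 A p ht) →+* kA A :=
  χ₀.comp (((baseChangeHom (M' * p) K).comp (B1 A p ht).val.toRingHom).codRestrict
    (chart ↥A (tB p M' h4)⁻¹).toSubring (fun b => baseChangeHom_mem_chart1 p M' A h4 K ht b.2))

theorem phi1_apply (χ₀ : ↥(chart ↥A (tB p M' h4)⁻¹) →+* kA A) (b : ↥(B1 A p ht)) :
    phi1 p M' A h4 K ht χ₀ b = χ₀ ⟨baseChangeHom (M' * p) K (b : ↥(FK (M' * p) K)),
      baseChangeHom_mem_chart1 p M' A h4 K ht b.2⟩ := rfl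

variable {π : ↥(AK A K)} (hπ : IsUnif (AK A K) π) (hE : FK (M' * p) K ≤ fracField (AK A K))

theorem onBranch_one0 (χ₀ : ↥(chart ↥A (tB p M' h4)) →+* kA A)
    (hon₁ : ∀ b : ↥(chart ↥A (tB p M' h4)),
      red1 p M' A hA hpM h4 ⟨(b : ↥(Fbar (M' * p))), chart0_le_G1 p M' A hA hpM h4 b.2⟩ = 0 →
        χ₀ b = 0) :
    OnBranch π (B0 A p ht) (O1 M' p hπ hE) (RingHom.ker (phi0 p M' A h4 K ht χ₀)) := by
  intro b hb
  rw [RingHom.mem_ker, phi0_apply]
  apply hon₁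
  have hbO : (b : ↥(FK (M' * p) K)) ∈ O1 M' p hπ hE :=
    (on_iff_one p M' A hA hpM h4 K hπ hE _).1
      (chart0_le_G1 p M' A hA hpM h4 (baseChangeHom_mem_chart0 p M' A h4 K ht b.2))
  exact (on_zero_iff_one p M' A hA hpM h4 K hπ hE _ hbO).2 hb

theorem onBranch_two0 (χ₀ : ↥(chart ↥A (tB p M' h4)) →+* kA A)
    (hon₂ : ∀ b : ↥(chart ↥A (tB p M' h4)),
      red2 p M' A hA hpM h4 ⟨(b : ↥(Fbar (M' * p))), chart0_le_G2 p M' A hA hpM h4 b.2⟩ = 0 →
        χ₀ b = 0) :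
    OnBranch π (B0 A p ht) (O2 M' p hπ hE) (RingHom.ker (phi0 p M' A h4 K ht χ₀)) := by
  intro b hb
  rw [RingHom.mem_ker, phi0_apply]
  apply hon₂
  have hbO : (b : ↥(FK (M' * p) K)) ∈ O2 M' p hπ hE :=
    (on_iff_two p M' A hA hpM h4 K hπ hE _).1
      (chart0_le_G2 p M' A hA hpM h4 (baseChangeHom_mem_chart0 p M' A h4 K ht b.2))
  exact (on_zero_iff_two p M' A hA hpM h4 K hπ hE _ hbO).2 hb

theorem onBranch_one1 (χ₀ : ↥(chart ↥A (tB p M' h4)⁻¹) →+* kA A)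
    (hon₁ : ∀ b : ↥(chart ↥A (tB p M' h4)⁻¹),
      red1 p M' A hA hpM h4 ⟨(b : ↥(Fbar (M' * p))), chart1_le_G1 p M' A hA hpM h4 b.2⟩ = 0 →
        χ₀ b = 0) :
    OnBranch π (B1 A p ht) (O1 M' p hπ hE) (RingHom.ker (phi1 p M' A h4 K ht χ₀)) := by
  intro b hb
  rw [RingHom.mem_ker, phi1_apply]
  apply hon₁
  have hbO : (b : ↥(FK (M' * p) K)) ∈ O1 M' p hπ hE :=
    (on_iff_one p M' A hA hpM h4 K hπ hE _).1
      (chart1_le_G1 p M' A hA hpM h4 (baseChangeHom_mem_chart1 p M' A h4 K ht b.2))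
  exact (on_zero_iff_one p M' A hA hpM h4 K hπ hE _ hbO).2 hb

theorem onBranch_two1 (χ₀ : ↥(chart ↥A (tB p M' h4)⁻¹) →+* kA A)
    (hon₂ : ∀ b : ↥(chart ↥A (tB p M' h4)⁻¹),
      red2 p M' A hA hpM h4 ⟨(b : ↥(Fbar (M' * p))), chart1_le_G2 p M' A hA hpM h4 b.2⟩ = 0 →
        χ₀ b = 0) :
    OnBranch π (B1 A p ht) (O2 M' p hπ hE) (RingHom.ker (phi1 p M' A h4 K ht χ₀)) := by
  intro b hb
  rw [RingHom.mem_ker, phi1_apply]
  apply hon₂
  have hbO : (b : ↥(FK (M' * p) K)) ∈ O2 M' p hπ hE :=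
    (on_iff_two p M' A hA hpM h4 K hπ hE _).1
      (chart1_le_G2 p M' A hA hpM h4 (baseChangeHom_mem_chart1 p M' A h4 K ht b.2))
  exact (on_zero_iff_two p M' A hA hpM h4 K hπ hE _ hbO).2 hb

end Dict

/-! ### the cusp facts at the `ℚ̄`-level closed points -/

section Ready

variable (p M' : ℕ) [Fact p.Prime] [NeZero M'] (A : ValuationSubring Qbar)
  (hA : A.LiesOverPrime p) (hpM : ¬ p ∣ M') (h4 : 4 ∣ M')

include hA hpM in
/-- a finite inertial field containing `ζ_{M'}`. -/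
theorem exists_ready : ∃ K : IntermediateField ℚ Qbar, FiniteDimensional ℚ K ∧
    Fermat.Agent.ES.P36.InertField27.IsInertial A K ∧ zetaK M' ∈ K := by
  have hq : p.Prime := Fact.out
  obtain ⟨K₀, hfin₀, hζ₀, hfix₀, -⟩ :=
    Fermat.Agent.ES.P36.ZetaUnr26.exists_zeta_field_unr hq hA M' hpM
  obtain ⟨K, hKfin, hle, -, hK⟩ :=
    Fermat.Agent.ES.P36.DescLiftP12.exists_ready_ge hfin₀ hfix₀ hfin₀ hfix₀
  exact ⟨K, hKfin, hK, hle hζ₀⟩

set_option maxHeartbeats 1000000 in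
/-- **`χ₀ (D0(T)) ≠ 0`** at a closed point of chart `0` lying on both components. -/
theorem chi_ival_ne_zero (hp2 : p ≠ 2) {N : Kbar[X]} {D0 : ℤ[X]} (hprim : D0.IsPrimitive)
    (hND : JFrac 4 8 baseHyp_four N D0)
    (χ₀ : ↥(chart ↥A (tB p M' h4)) →+* kA A)
    (hon₁ : ∀ b : ↥(chart ↥A (tB p M' h4)),
      red1 p M' A hA hpM h4 ⟨(b : ↥(Fbar (M' * p))), chart0_le_G1 p M' A hA hpM h4 b.2⟩ = 0 →
        χ₀ b = 0)
    (hon₂ : ∀ b : ↥(chart ↥A (tB p M' h4)),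
      red2 p M' A hA hpM h4 ⟨(b : ↥(Fbar (M' * p))), chart0_le_G2 p M' A hA hpM h4 b.2⟩ = 0 →
        χ₀ b = 0) :
    χ₀ ⟨ival D0 (tB p M' h4),
      ival_mem_subalgebra (chart ↥A (tB p M' h4)) (self_mem_chart _) D0⟩ ≠ 0 := by
  have hq : p.Prime := Fact.out
  obtain ⟨K, hKfin, hK, hζ⟩ := exists_ready p M' A hA hpM
  haveI := hKfin
  have hF := Fermat.Agent.ES.P36.ModelInert4.frobInvAt_of_isInertial hK hq hA
  have hqn : ¬ p ∣ 4 := by
    intro h
    have h' : p ∣ 2 := hq.dvd_of_dvd_pow (show p ∣ 2 ^ 2 by simpa using h)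
    exact hp2 ((Nat.prime_dvd_prime_iff_eq hq Nat.prime_two).1 h')
  obtain ⟨-, -, hS2, -, -⟩ := items_four_at (K := K) hq hp2 hpM h4 hA hζ hF
  have hL := Fermat.Agent.ES.P36.LevelMAt4.levelItems_four_at (K := K) hq hpM h4 hA hζ
  obtain ⟨ht, hE, hD⟩ := nodalNumData_four_at (K := K) hq hp2 hpM h4 hA hζ hF
  obtain ⟨π, hπ⟩ := exists_unif (p := p) hA K
  have hx1 : (RingHom.ker (phi0 p M' A h4 K ht χ₀)).IsMaximal := isMaxK p A hA _
  have h := Fermat.Agent.MP.TH.CuspK2.ival_tN_notMem_at baseHyp_four hq hqn hpM hA hF hL hS2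
    N D0 hprim hND ht hE π hπ (hD π hπ) _ hx1
    (onBranch_one0 p M' A hA hpM h4 K ht hπ hE χ₀ hon₁)
    (onBranch_two0 p M' A hA hpM h4 K ht hπ hE χ₀ hon₂)
  intro h0
  apply h
  rw [RingHom.mem_ker, phi0_apply]
  have e : (⟨baseChangeHom (M' * p) K (ival D0 (tN p ht)),
      baseChangeHom_mem_chart0 p M' A h4 K ht
        (ival_mem_subalgebra (B0 A p ht) (self_mem_chart (tN p ht)) D0)⟩ :
      ↥(chart ↥A (tB p M' h4))) = ⟨ival D0 (tB p M' h4),
      ival_mem_subalgebra (chart ↥A (tB p M' h4)) (self_mem_chart _) D0⟩ := by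
    apply Subtype.ext
    show baseChangeHom (M' * p) K (ival D0 (tN p ht)) = ival D0 (tB p M' h4)
    rw [map_ival, baseChangeHom_tN p M' h4 K ht]
  rw [e]
  exact h0

set_option maxHeartbeats 1000000 in
/-- **`χ₀ (T⁻¹) ≠ 0`** at a closed point of chart `1` lying on both components: no node over
`t = ∞`. -/
theorem chi_tinv_ne_zero (hp2 : p ≠ 2)
    (χ₀ : ↥(chart ↥A (tB p M' h4)⁻¹) →+* kA A)
    (hon₁ : ∀ b : ↥(chart ↥A (tB p M' h4)⁻¹),
      red1 p M' A hA hpM h4 ⟨(b : ↥(Fbar (M' * p))), chart1_le_G1 p M' A hA hpM h4 b.2⟩ = 0 →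
        χ₀ b = 0)
    (hon₂ : ∀ b : ↥(chart ↥A (tB p M' h4)⁻¹),
      red2 p M' A hA hpM h4 ⟨(b : ↥(Fbar (M' * p))), chart1_le_G2 p M' A hA hpM h4 b.2⟩ = 0 →
        χ₀ b = 0) :
    χ₀ ⟨(tB p M' h4)⁻¹, self_mem_chart _⟩ ≠ 0 := by
  have hq : p.Prime := Fact.out
  obtain ⟨K, hKfin, hK, hζ⟩ := exists_ready p M' A hA hpM
  haveI := hKfin
  have hF := Fermat.Agent.ES.P36.ModelInert4.frobInvAt_of_isInertial hK hq hA
  have hqn : ¬ p ∣ 4 := by
    intro h
    have h' : p ∣ 2 := hq.dvd_of_dvd_pow (show p ∣ 2 ^ 2 by simpa using h)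
    exact hp2 ((Nat.prime_dvd_prime_iff_eq hq Nat.prime_two).1 h')
  obtain ⟨-, -, hS2, -, -⟩ := items_four_at (K := K) hq hp2 hpM h4 hA hζ hF
  have hL := Fermat.Agent.ES.P36.LevelMAt4.levelItems_four_at (K := K) hq hpM h4 hA hζ
  have hD := nodalNumData_four_at (K := K) hq hp2 hpM h4 hA hζ hF
  obtain ⟨ht, hE, -⟩ := id hD
  obtain ⟨π, hπ⟩ := exists_unif (p := p) hA K
  have hx1 : (RingHom.ker (phi1 p M' A h4 K ht χ₀)).IsMaximal := isMaxK p A hA _
  have hcusp := Fermat.Agent.ES.P36.CuspOffAsm21.cuspOffItems_at baseHyp_four hq hqn hpM hA hF hL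
    hS2 hD (Dvd.dvd.mul_right h4 p) _
    (Fermat.Agent.RED.BASE.MainCusp12.cuspExports_four (M' * p) (Dvd.dvd.mul_right h4 p)).cuspExp
  obtain ⟨-, hc1⟩ := hcusp ht hE π hπ
  obtain ⟨hinf, -⟩ := hc1 _ hx1 (onBranch_one1 p M' A hA hpM h4 K ht hπ hE χ₀ hon₁)
    (onBranch_two1 p M' A hA hpM h4 K ht hπ hE χ₀ hon₂)
  have h := hinf (⟨(tN p ht)⁻¹, self_mem_chart (tN p ht)⁻¹⟩ : ↥(B1 A p ht)) rfl
  intro h0
  apply h
  rw [RingHom.mem_ker, phi1_apply]
  have e : (⟨baseChangeHom (M' * p) K ((tN p ht)⁻¹),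
      baseChangeHom_mem_chart1 p M' A h4 K ht (self_mem_chart (tN p ht)⁻¹)⟩ :
      ↥(chart ↥A (tB p M' h4)⁻¹)) = ⟨(tB p M' h4)⁻¹, self_mem_chart _⟩ := by
    apply Subtype.ext
    show baseChangeHom (M' * p) K ((tN p ht)⁻¹) = (tB p M' h4)⁻¹
    rw [map_inv₀, baseChangeHom_tN p M' h4 K ht]
  rw [e]
  exact h0

end Ready

/-! ### the concrete datum -/

section Datum

open Fermat.Agent.FF.BASE.Place2 Fermat.Agent.ORD.IFACEN.Centre8 Fermat.Agent.ORD.IFACEN.AtlasPts6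
  Fermat.Agent.ORD.IFACEN.PtsDict3 Fermat.Agent.ORD.IFACEN.PtsAssembly3
  Fermat.Agent.ORD.IFACEN.TwoCompAssembly3 Fermat.Agent.ORD.IFACEN.AtlasSplit6
  Fermat.Agent.ORD.IFACEN.CoordOne9
  Fermat.Agent.ORD.NODE.NodeSys4 Fermat.Agent.MP.FINAL.MainDatum6 Fermat.Agent.MP.TH.EtaleGood0
  Fermat.Agent.ORD.SEMIRED.SemiRedDatum9 Fermat.Agent.ORD.SEMIRED.ToSemiRed9
  Fermat.Agent.ORD.IFACEN.AssembleN9

variable {p M' : ℕ} [Fact p.Prime] [NeZero M'] (hpM : ¬ p ∣ M') (h4 : 4 ∣ M') (hp2 : p ≠ 2)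

/-- **(h0)**: every node of the datum is a point of the chart `t ≠ ∞` (no node over `t = ∞`). -/
theorem h0 (e : Nodes hpM h4 hp2) : ∃ x₀, e.1 = Sum.inl x₀ := by
  rcases e with ⟨x₀ | y, hn⟩
  · exact ⟨x₀, rfl⟩
  · exfalso
    have hon₁ : ∀ b : ↥(chart ↥(padicPlace p) (tB p M' h4)⁻¹),
        red1 p M' (padicPlace p) (liesOverPrime (ℓ := p)) hpM h4
          ⟨(b : ↥(Fbar (M' * p))),
            chart1_le_G1 p M' (padicPlace p) (liesOverPrime (ℓ := p)) hpM h4 b.2⟩ = 0 →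
          y.1.χ b = 0 := fun b hb => hn.1 b hb
    have hon₂ : ∀ b : ↥(chart ↥(padicPlace p) (tB p M' h4)⁻¹),
        red2 p M' (padicPlace p) (liesOverPrime (ℓ := p)) hpM h4
          ⟨(b : ↥(Fbar (M' * p))),
            chart1_le_G2 p M' (padicPlace p) (liesOverPrime (ℓ := p)) hpM h4 b.2⟩ = 0 →
          y.1.χ b = 0 := fun b hb => hn.2 b hb
    exact chi_tinv_ne_zero p M' (padicPlace p) (liesOverPrime (ℓ := p)) hpM h4 hp2 y.1.χ
      hon₁ hon₂ y.2

/-- the reduction of the coordinate `tBad` on the component `0` is the reduced Hauptmodul. -/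
theorem red_tBad (hmem : tBad p M' h4 ∈ (datum hpM h4 hp2).G 0) :
    (datum hpM h4 hp2).red 0 ⟨tBad p M' h4, hmem⟩ = tbar hpM h4 :=
  red1_t1 p M' (padicPlace p) (liesOverPrime (ℓ := p)) hpM h4

include hp2 in
/-- (ET) at the branch `Q` of a node system at a two-branch closed point of chart `0`. -/
theorem ord_eq_one_of_nodeSys {N : Kbar[X]} {D0 : ℤ[X]} (hprim : D0.IsPrimitive)
    (hND : JFrac 4 8 baseHyp_four N D0)
    (χ₀ : ↥(chart ↥(padicPlace p) (tB p M' h4)) →+* kA (padicPlace p))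
    (hon₁ : ∀ b : ↥(chart ↥(padicPlace p) (tB p M' h4)),
      red1 p M' (padicPlace p) (liesOverPrime (ℓ := p)) hpM h4
        ⟨(b : ↥(Fbar (M' * p))),
          chart0_le_G1 p M' (padicPlace p) (liesOverPrime (ℓ := p)) hpM h4 b.2⟩ = 0 → χ₀ b = 0)
    (hon₂ : ∀ b : ↥(chart ↥(padicPlace p) (tB p M' h4)),
      red2 p M' (padicPlace p) (liesOverPrime (ℓ := p)) hpM h4
        ⟨(b : ↥(Fbar (M' * p))),
          chart0_le_G2 p M' (padicPlace p) (liesOverPrime (ℓ := p)) hpM h4 b.2⟩ = 0 → χ₀ b = 0)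
    {Q Q' : Place (kA (padicPlace p)) ↥(modularFunctionFieldFullC (kA (padicPlace p)) M')}
    {x y u : locC (chart ↥(padicPlace p) (tB p M' h4)) χ₀} {ϖ : Qbar}
    (hn : NodeSys (base (padicPlace p))
      (side1 p M' (padicPlace p) (liesOverPrime (ℓ := p)) hpM h4)
      (side2 p M' (padicPlace p) (liesOverPrime (ℓ := p)) hpM h4)
      (locC (chart ↥(padicPlace p) (tB p M' h4)) χ₀)
      (chiC (chart ↥(padicPlace p) (tB p M' h4)) χ₀) Q Q' x y u ϖ) :
    ∃ c : kA (padicPlace p), Q.ord (tbar hpM h4 -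
      algebraMap (kA (padicPlace p)) ↥(modularFunctionFieldFullC (kA (padicPlace p)) M') c) = 1 := by
  have hs := hn.side
  have hb := hn.base
  set T : locC (chart ↥(padicPlace p) (tB p M' h4)) χ₀ :=
    ofBA _ χ₀ ⟨tB p M' h4, self_mem_chart _⟩ with hT
  set Dd : locC (chart ↥(padicPlace p) (tB p M' h4)) χ₀ :=
    ofBA _ χ₀ ⟨ival D0 (tB p M' h4),
      ival_mem_subalgebra (chart ↥(padicPlace p) (tB p M' h4)) (self_mem_chart _) D0⟩ with hDd
  have hχD : chiC (chart ↥(padicPlace p) (tB p M' h4)) χ₀ Dd ≠ 0 := by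
    rw [hDd, chiC_ofBA]
    exact chi_ival_ne_zero p M' (padicPlace p) (liesOverPrime (ℓ := p)) hpM h4 hp2 hprim hND χ₀
      hon₁ hon₂
  have hredT : hs.redC T = tbar hpM h4 := by
    rw [LocSide.redC_apply]
    exact red1_t1 p M' (padicPlace p) (liesOverPrime (ℓ := p)) hpM h4
  have hDT : Dd = ival D0 T := by
    apply Subtype.ext
    exact (map_ival (Subring.subtype _) T D0).symm
  have hredD : hs.redC Dd = ival D0 (tbar hpM h4) := by
    rw [hDT, map_ival, hredT]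
  have hD0 : ival D0 (tbar hpM h4) ≠ 0 := by
    rw [← hredD]; exact hs.redC_ne_zero_of_chi hχD
  have hDQ : Q.ord (ival D0 (tbar hpM h4)) = 0 := by
    rw [← hredD]; exact hs.ord_redC_eq_zero_of_chi hb hχD
  have htQ : tbar hpM h4 ∈ Q.toValuationSubring := (hs.mem_Q' _).2 ⟨T, hredT⟩
  obtain ⟨a, ha⟩ := hb.exists_res_eq_chi T
  refine ⟨chiC (chart ↥(padicPlace p) (tB p M' h4)) χ₀ T,
    et_good' hpM h4 hND Q htQ hD0 hDQ _ ?_⟩
  have h0 : chiC (chart ↥(padicPlace p) (tB p M' h4)) χ₀ (T - hb.const a) = 0 := by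
    rw [map_sub, hb.chi_const', ha, sub_self]
  have e : hs.redC (T - hb.const a) = tbar hpM h4 -
      algebraMap (kA (padicPlace p)) ↥(modularFunctionFieldFullC (kA (padicPlace p)) M')
        (chiC (chart ↥(padicPlace p) (tB p M' h4)) χ₀ T) := by
    rw [map_sub, hs.redC_const hb, ha, hredT]
  rw [← e]
  apply hs.ord_redC_pos h0
  rw [e]
  intro h
  apply (isGen_tbar hpM h4).transcendental
  rw [sub_eq_zero.1 h]
  exact isAlgebraic_algebraMap _

include hp2 in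
/-- the same with the closed point generalised (for `subst`). -/
theorem ord_eq_one_of_pts {N : Kbar[X]} {D0 : ℤ[X]} (hprim : D0.IsPrimitive)
    (hND : JFrac 4 8 baseHyp_four N D0)
    (pt : Fermat.Agent.ORD.IFACEN.TwoCompInst6.PtsM p M' (padicPlace p) h4)
    (x₀ : CPt (base (padicPlace p)).res
      (Fermat.Agent.ORD.IFACEN.TwoCompInst6.B0 p M' (padicPlace p) h4))
    (hpt : pt = Sum.inl x₀)
    (hon₁ : Fermat.Agent.ORD.IFACEN.TwoCompInst6.On₁ p M' (padicPlace p)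
      (liesOverPrime (ℓ := p)) hpM h4 pt)
    (hon₂ : Fermat.Agent.ORD.IFACEN.TwoCompInst6.On₂ p M' (padicPlace p)
      (liesOverPrime (ℓ := p)) hpM h4 pt)
    {Q Q' : Place (kA (padicPlace p)) ↥(modularFunctionFieldFullC (kA (padicPlace p)) M')}
    {x y u : ringPts pt} {ϖ : Qbar}
    (hn : NodeSys (base (padicPlace p))
      (side1 p M' (padicPlace p) (liesOverPrime (ℓ := p)) hpM h4)
      (side2 p M' (padicPlace p) (liesOverPrime (ℓ := p)) hpM h4)
      (ringPts pt) (chiPts pt) Q Q' x y u ϖ) :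
    ∃ c : kA (padicPlace p), Q.ord (tbar hpM h4 -
      algebraMap (kA (padicPlace p)) ↥(modularFunctionFieldFullC (kA (padicPlace p)) M') c) = 1 := by
  subst hpt
  exact ord_eq_one_of_nodeSys hpM h4 hp2 hprim hND x₀.χ (fun b hb => hon₁ b hb)
    (fun b hb => hon₂ b hb) hn

/-- **(h1)**: the reduced Hauptmodul `t̄ = red₀ (tBad)` is unramified at the branch `Qs e` of every
node `e` of the datum. -/
theorem h1 (e : Nodes hpM h4 hp2) (hmem : tBad p M' h4 ∈ (datum hpM h4 hp2).G 0) :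
    ∃ c : kA (padicPlace p), ((datum hpM h4 hp2).Qs e).ord
      ((datum hpM h4 hp2).red 0 ⟨tBad p M' h4, hmem⟩ -
        algebraMap (kA (padicPlace p)) ↥(modularFunctionFieldFullC (kA (padicPlace p)) M') c) =
      1 := by
  rw [red_tBad]
  obtain ⟨N, D0, hprim, hND⟩ :=
    Fermat.Agent.ES.P36.JFracInst16.exists_jFrac 4 8 baseHyp_four
  obtain ⟨x₀, hx₀⟩ := h0 hpM h4 hp2 e
  have hsymm := splitEquiv_symm_inr (hypMain hpM h4 hp2).IsNode e
  have hpt : ((hypMain hpM h4 hp2).ptsData (Fermat.Agent.ORD.IFACEN.TwoCompInst6.lHyp_bad (M' * p))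
      (Fermat.Agent.ORD.IFACEN.TwoCompInst6.lHyp_good p M' (padicPlace p)
        (liesOverPrime (ℓ := p)) hpM h4)).e.symm (Sum.inr e) = Sum.inl x₀ := hsymm.trans hx₀
  have hn := ((hypMain hpM h4 hp2).ptsData
    (Fermat.Agent.ORD.IFACEN.TwoCompInst6.lHyp_bad (M' * p))
    (Fermat.Agent.ORD.IFACEN.TwoCompInst6.lHyp_good p M' (padicPlace p)
      (liesOverPrime (ℓ := p)) hpM h4)).nsys' e
  exact ord_eq_one_of_pts hpM h4 hp2 hprim hND _ x₀ hpt (hsymm ▸ e.2.1) (hsymm ▸ e.2.2) hn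

end Datum

end Fermat.Agent.MP.TH.Cusp2
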