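/-
Programme MP (row 38 via S44), chapter TH (helper7), plan TH-REG, brick (R-b), abstract half:
**a regular pair of coordinates `X Y = ϖ₀ E` at a node pins the thickness: `|π| = |ϖ₀|`.**

* `ord_eq_zero_of_mul` : on the tube of a local ring `C`, `X Y = ϖ₀ E` with `X, Y ∈ C`, `E ∈ Cˣ`, `ϖ₀ ≠ 0`
  forces `ord_P X = 0`;
* `val_pi_eq` (on a `Node3.NodeChart`) : `X` without zeros and poles on the annulus, `‖X‖_S = 1`,
  `ord_Q (red X) = 1`, `‖Y‖_{S'} = ‖E‖_{S'} = 1` ⟹ `|π| = |ϖ₀|` (`Node3.NodeChart.val_jump`);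
* `ord_redC_eq_one` : if `d f = a X + b Y` in `C` with `d` a unit, `red Y = 0`, `X` in the maximal ideal
  and `ord_Q (red f) = 1`, then `ord_Q (red X) = 1`;
* `ord_frob_sub` : in characteristic `p`, `ord_Q (w - c) = 1` and `c ^ p ^ n = c` (`n > 0`) give
  `ord_Q (w ^ p ^ n - w) = 1`.
-/
import Mathlib
import Fermat.Agent.ORD.NODE.NodeSys4
import Fermat.Agent.MP.T3.Local2

set_option autoImplicit false
set_option linter.unusedSectionVars false
set_option linter.style.longLine false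
set_option linter.style.haveILetI false

namespace Fermat.Agent.MP.TH.RegAbs7

open AlgebraicCurve Fermat.Agent.X0.FF Fermat.Agent.RR.LSpace Fermat.Agent.MW.EMB.Value6
open Fermat.Agent.ORD.ANN.Side3 Fermat.Agent.ORD.ANN.Node3
open Fermat.Agent.ORD.IFACEN.DiscPlaces8 Fermat.Agent.ORD.NODE.NodeSys4

noncomputable section

variable {L k F Ft Ft' : Type*} [Field L] [Field k] [Field F] [Algebra L F]
  [Field Ft] [Algebra k Ft] [Field Ft'] [Algebra k Ft']

/-! ### the tube -/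

/-- on the tube of `C`: `X Y = ϖ₀ E`, `X, Y ∈ C`, `E` a unit of `C` ⟹ `X` has neither zero nor pole. -/
theorem ord_eq_zero_of_mul {B : Base L k} {C : Subring F} {χ : C →+* k} (hb : LocBase B C χ)
    {X Y E : C} {ϖ₀ : L} (hϖ₀ : ϖ₀ ≠ 0) (hmul : (X : F) * (Y : F) = algebraMap L F ϖ₀ * (E : F))
    (hE : χ E ≠ 0) {P : Place L F} (hP : InDisc C P) : P.ord (X : F) = 0 := by
  have hX := LocBase.ord_nonneg hP X
  have hY := LocBase.ord_nonneg hP Y
  have hE1 := LocBase.ord_nonneg hP E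
  have hE2 := LocBase.ord_nonneg hP (hb.inv E hE)
  have hE0 : (E : F) ≠ 0 := hb.coe_ne_zero (hb.ne_zero_of_chi hE)
  rw [hb.coe_inv, Place.ord_inv] at hE2
  have hEord : P.ord (E : F) = 0 := by omega
  have hc0 : algebraMap L F ϖ₀ ≠ 0 := (map_ne_zero _).mpr hϖ₀
  have hprod : (X : F) * (Y : F) ≠ 0 := by rw [hmul]; exact mul_ne_zero hc0 hE0
  have hX0 : (X : F) ≠ 0 := left_ne_zero_of_mul hprod
  have hY0 : (Y : F) ≠ 0 := right_ne_zero_of_mul hprod
  have h1 := P.ord_mul hX0 hY0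
  rw [hmul, P.ord_mul hc0 hE0, ffp_ord_algebraMap, hEord] at h1
  omega

/-! ### the thickness -/

section Chart

variable {B : Base L k} {HL : LHyp L F} {S : Side B F Ft} {S' : Side B F Ft'}
  {Hk : LHyp k Ft} {Hk' : LHyp k Ft'} (N : NodeChart B HL S S' Hk Hk')

/-- **the thickness of a node carrying a regular pair.** -/
theorem val_pi_eq {X Y E : F} {ϖ₀ : L} (hϖ₀ : ϖ₀ ≠ 0) (hmul : X * Y = algebraMap L F ϖ₀ * E)
    (hX : X ∈ S.G) (hXr : S.red ⟨X, hX⟩ ≠ 0) (hord : N.Q.ord (S.red ⟨X, hX⟩) = 1)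
    (hY : Y ∈ S'.G) (hYr : S'.red ⟨Y, hY⟩ ≠ 0) (hE : E ∈ S'.G) (hEr : S'.red ⟨E, hE⟩ ≠ 0)
    (hann : ∀ P ∈ N.ann, P.ord X = 0) :
    B.A.valuation N.π = B.A.valuation ϖ₀ := by
  have hX0 : X ≠ 0 := S.coe_ne_zero_of_red_ne_zero hXr
  have hY0 : Y ≠ 0 := S'.coe_ne_zero_of_red_ne_zero hYr
  have hc0 : algebraMap L F ϖ₀ ≠ 0 := (map_ne_zero _).mpr hϖ₀
  -- the two normalisations
  have n1 : S.IsNorm 1 X := S.isNorm_one_of_mem hX hXr
  have hYi : Y⁻¹ ∈ S'.G := S'.inv_mem (g := ⟨Y, hY⟩) hYr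
  have hEY : E * Y⁻¹ ∈ S'.G := S'.G.mul_mem hE hYi
  have hredEY : S'.red ⟨E * Y⁻¹, hEY⟩ ≠ 0 := by
    have e : (⟨E * Y⁻¹, hEY⟩ : S'.G) = ⟨E, hE⟩ * ⟨Y⁻¹, hYi⟩ := rfl
    rw [e, map_mul, S'.red_inv (g := ⟨Y, hY⟩) hYr]
    exact mul_ne_zero hEr (inv_ne_zero hYr)
  have heq : algebraMap L F ϖ₀⁻¹ * X = E * Y⁻¹ := by
    rw [map_inv₀]
    field_simp
    rw [hmul]
  have n2 : S'.IsNorm ϖ₀⁻¹ X := by
    refine ⟨by rw [heq]; exact hEY, ?_⟩
    have : (⟨algebraMap L F ϖ₀⁻¹ * X, by rw [heq]; exact hEY⟩ : S'.G) = ⟨E * Y⁻¹, hEY⟩ :=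
      Subtype.ext heq
    rw [this]
    exact hredEY
  have hj := N.val_jump hX0 n1 n2
  rw [Fermat.Agent.MP.T3.Local2.supp_eq_empty N hX0 hann, Finset.prod_empty, S.nred_one_of_mem hX,
    hord, zpow_one, map_one, mul_one, map_inv₀] at hj
  have hv0 : B.A.valuation ϖ₀ ≠ 0 := (Valuation.ne_zero_iff _).mpr hϖ₀
  calc B.A.valuation N.π = B.A.valuation ϖ₀ * ((B.A.valuation ϖ₀)⁻¹ * B.A.valuation N.π) := by
        rw [← mul_assoc, mul_inv_cancel₀ hv0, one_mul]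
    _ = B.A.valuation ϖ₀ := by rw [hj, mul_one]

end Chart

/-- **the thickness of a node system carrying a regular pair** (`val_pi_eq` on
`NodeSys.nodeChart`, with all hypotheses on the local ring). -/
theorem val_pi_eq_sys {B : Base L k} {S : Side B F Ft} {S' : Side B F Ft'} {C : Subring F}
    {χ : C →+* k} {Q : Place k Ft} {Q' : Place k Ft'} {x y u : C} {ϖ : L}
    (hN : NodeSys B S S' C χ Q Q' x y u ϖ) (HL : LHyp L F) (Hk : LHyp k Ft) (Hk' : LHyp k Ft')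
    {X Y E : C} {ϖ₀ : L} (hϖ₀ : ϖ₀ ≠ 0)
    (hmul : (X : F) * (Y : F) = algebraMap L F ϖ₀ * (E : F))
    (hXr : hN.side.redC X ≠ 0) (hord : Q.ord (hN.side.redC X) = 1)
    (hYr : hN.side'.redC Y ≠ 0) (hE : χ E ≠ 0) :
    B.A.valuation ϖ = B.A.valuation ϖ₀ :=
  val_pi_eq (hN.nodeChart HL Hk Hk') hϖ₀ hmul (hN.side.le_G X X.2) hXr hord
    (hN.side'.le_G Y Y.2) hYr (hN.side'.le_G E E.2) (hN.side'.redC_ne_zero_of_chi hE)
    (fun _ hP => ord_eq_zero_of_mul hN.base hϖ₀ hmul hE hP)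

/-! ### the order of the reduction of `X` -/

/-- **`X` reduces to a uniformiser at the branch** as soon as some function of the maximal ideal
generated by `X`, `Y` (up to a unit) does, and `Y` reduces to zero. -/
theorem ord_redC_eq_one {B : Base L k} {S : Side B F Ft} {C : Subring F} {χ : C →+* k}
    {Q : Place k Ft} (hs : LocSide B S C χ Q) (hb : LocBase B C χ) {X Y f d a b : C}
    (hgen : d * f = a * X + b * Y) (hd : χ d ≠ 0) (hY : hs.redC Y = 0) (hX0 : χ X = 0)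
    (hXr : hs.redC X ≠ 0) (hf : Q.ord (hs.redC f) = 1) : Q.ord (hs.redC X) = 1 := by
  have hfr : hs.redC f ≠ 0 := by
    intro h0
    rw [h0, Place.ord_zero] at hf
    exact zero_ne_one hf
  have hdr : hs.redC d ≠ 0 := hs.redC_ne_zero_of_chi hd
  have h1 : hs.redC d * hs.redC f = hs.redC a * hs.redC X := by
    rw [← map_mul, hgen, map_add, map_mul, map_mul, hY, mul_zero, add_zero]
  have har : hs.redC a ≠ 0 := by
    intro h0
    rw [h0, zero_mul] at h1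
    exact mul_ne_zero hdr hfr h1
  have h2 := congrArg Q.ord h1
  rw [Q.ord_mul hdr hfr, Q.ord_mul har hXr, hs.ord_redC_eq_zero_of_chi hb hd, hf] at h2
  have h3 := hs.ord_redC_nonneg a
  have h4 := hs.ord_redC_pos hX0 hXr
  omega

/-! ### the Frobenius polynomial -/

/-- in characteristic `p`: `w ^ pⁿ - w = (w - c) ((w - c) ^ (pⁿ - 1) - 1)` when `c ^ pⁿ = c`, so a simple
zero of `w - c` is a simple zero of `w ^ pⁿ - w` (`n > 0`). -/
theorem ord_frob_sub {p : ℕ} [Fact p.Prime] [CharP Ft p] (Q : Place k Ft) (w : Ft) (c : k)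
    {n : ℕ} (hn : 0 < n) (hc : c ^ p ^ n = c) (hord : Q.ord (w - algebraMap k Ft c) = 1) :
    Q.ord (w ^ p ^ n - w) = 1 := by
  have hp : p.Prime := Fact.out
  set z : Ft := w - algebraMap k Ft c with hz
  have hz0 : z ≠ 0 := by
    intro h0
    rw [h0, Place.ord_zero] at hord
    exact zero_ne_one hord
  have hq : 2 ≤ p ^ n := by
    calc 2 ≤ p := hp.two_le
      _ = p ^ 1 := (pow_one p).symm
      _ ≤ p ^ n := Nat.pow_le_pow_right hp.pos hn
  have hpos : 0 < p ^ n - 1 := by omega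
  have e : w ^ p ^ n - w = z * (z ^ (p ^ n - 1) - 1) := by
    have h1 : z ^ p ^ n = w ^ p ^ n - algebraMap k Ft c := by
      rw [hz, sub_pow_char_pow, ← map_pow, hc]
    have h2 : z * z ^ (p ^ n - 1) = z ^ p ^ n := by
      rw [← pow_succ', Nat.sub_add_cancel (by omega)]
    rw [mul_sub, h2, h1, mul_one, hz]
    ring
  have hzp : 0 < Q.ord (z ^ (p ^ n - 1)) := by
    rw [← zpow_natCast, Q.ord_zpow, hord, mul_one]
    exact_mod_cast hpos
  have hu : Q.ord (z ^ (p ^ n - 1) - 1) = 0 := by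
    have h1 : Q.ord ((1 : Ft)) = 0 := Place.ord_one Q
    have hlt : Q.ord (1 : Ft) < Q.ord (z ^ (p ^ n - 1)) := by rw [h1]; exact hzp
    have := ffp_ord_add_eq_of_lt Q (f := (-1 : Ft)) (g := z ^ (p ^ n - 1)) ?_ ?_
    · rw [show z ^ (p ^ n - 1) - 1 = -1 + z ^ (p ^ n - 1) by ring, this, ffp_ord_neg, h1]
    · exact neg_ne_zero.mpr one_ne_zero
    · rw [ffp_ord_neg]; exact hlt
  have hu0 : z ^ (p ^ n - 1) - 1 ≠ 0 := by
    intro h0
    rw [sub_eq_zero] at h0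
    rw [h0, Place.ord_one] at hzp
    exact lt_irrefl _ hzp
  rw [e, Q.ord_mul hz0 hu0, hord, hu, add_zero]

end

end Fermat.Agent.MP.TH.RegAbs7
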