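/-
Programme MP (row 38 via S44), chapter TH (helper7), plan TH-REG, brick (R-a), generic half:
**the regular coordinates of a thickness-one node of a finite level, unpacked.**

`NodeRegAt10.NodeRegAt π B O1 O2` (Program P, chapter REG: the nodes of the level-`M' q` chart over an
INERTIAL number field are regular of thickness one) is stated inside the localisation `B_𝔪`.  Here its
content is unpacked into statements about elements of the chart `B` itself: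

* `exists_reg_coords` : at a two-branch closed point `𝔪 ∋ π` there are `x y e ∈ B` with
  `x y = π e`, `e ∉ 𝔪`, `x, y ∈ 𝔪`, `x ∉ π O1`, `y ∈ π O1`, `x ∈ π O2`, `y ∉ π O2`, and the GENERATION clause
  `∀ f ∈ 𝔪, ∃ d a b ∈ B, d ∉ 𝔪 ∧ d f = a x + b y`.
-/
import Mathlib
import Fermat.Agent.ES.P36.NodeRegAt10

set_option autoImplicit false
set_option linter.unusedSectionVars false
set_option linter.style.longLine false
set_option linter.style.haveILetI false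

namespace Fermat.Agent.MP.TH.RegLevel7

open IsLocalRing Fermat.Agent.ES.N34.NodalCore13 Fermat.Agent.ES.N34.NodalSmooth13
  Fermat.Agent.ES.P36.NodeRegAt10

variable {R E : Type*} [CommRing R] [Field E] [Algebra R E]

/-- **the regular coordinates of a two-branch closed point, in the chart.** -/
theorem exists_reg_coords (π : R) (B : Subalgebra R E) (O1 O2 : ValuationSubring E)
    (hreg : NodeRegAt π B O1 O2) (𝔪 : Ideal B) (h𝔪 : 𝔪.IsMaximal)
    (hπ : algebraMap R B π ∈ 𝔪) (h1 : ¬ OffBranch π B O1 𝔪) (h2 : ¬ OffBranch π B O2 𝔪) :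
    ∃ x y e : B, x * y = algebraMap R B π * e ∧ e ∉ 𝔪 ∧ x ∈ 𝔪 ∧ y ∈ 𝔪 ∧
      (¬ ∃ o ∈ O1, (x : E) = algebraMap R E π * o) ∧ (∃ o ∈ O1, (y : E) = algebraMap R E π * o) ∧
      (∃ o ∈ O2, (x : E) = algebraMap R E π * o) ∧ (¬ ∃ o ∈ O2, (y : E) = algebraMap R E π * o) ∧
      ∀ f ∈ 𝔪, ∃ d a b : B, d ∉ 𝔪 ∧ d * f = a * x + b * y := by
  haveI := h𝔪.isPrime
  obtain ⟨x, y, e, hxy, -, -, hmax, hxp, hyp, hxy', hyx', hO2, hO1, he⟩ := hreg 𝔪 h𝔪 hπ h1 h2
  have h1𝔪 : (1 : B) ∉ 𝔪 := fun h => h𝔪.ne_top ((Ideal.eq_top_iff_one 𝔪).mpr h)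
  refine ⟨x, y, e, hxy, he, ?_, ?_, ?_, ?_, ?_, ?_, ?_⟩
  · exact num_mem_of_not_isUnit B 𝔪 hxp.not_isUnit h1𝔪 (a := x) (d := 1)
      (by rw [coe_algebraMap_loc]; simp)
  · exact num_mem_of_not_isUnit B 𝔪 hyp.not_isUnit h1𝔪 (a := y) (d := 1)
      (by rw [coe_algebraMap_loc]; simp)
  · intro hx
    exact hyx' ((hO1 (algebraMap ↥B ↥(locSub B 𝔪) x)).mp hx)
  · exact (hO1 (algebraMap ↥B ↥(locSub B 𝔪) y)).mpr dvd_rfl
  · exact (hO2 (algebraMap ↥B ↥(locSub B 𝔪) x)).mpr dvd_rfl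
  · intro hy
    exact hxy' ((hO2 (algebraMap ↥B ↥(locSub B 𝔪) y)).mp hy)
  · intro f hf
    have hfm : algebraMap ↥B ↥(locSub B 𝔪) f ∈ maximalIdeal ↥(locSub B 𝔪) := by
      rw [mem_maximalIdeal, mem_nonunits_iff]
      exact not_isUnit_of_mem B 𝔪 hf
    rw [hmax, Ideal.mem_span_pair] at hfm
    obtain ⟨a', b', hab⟩ := hfm
    obtain ⟨a₁, d₁, hd₁, ha⟩ := a'.2
    obtain ⟨b₁, d₂, hd₂, hb⟩ := b'.2
    refine ⟨d₁ * d₂, a₁ * d₂, b₁ * d₁, fun h => (h𝔪.isPrime.mem_or_mem h).elim hd₁ hd₂, ?_⟩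
    apply Subtype.ext
    have hE : (a' : E) * (x : E) + (b' : E) * (y : E) = (f : E) :=
      congrArg (fun z : ↥(locSub B 𝔪) => (z : E)) hab
    push_cast
    rw [← hE, ← ha, ← hb]
    ring

end Fermat.Agent.MP.TH.RegLevel7
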