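/-
Programme MP (row 38 via S44), chapter TH (helper7), plan TH-REG, brick (R-a), concrete half:
**regular coordinates at a two-branch closed point of the chart `t ≠ ∞` of the N34 model of `X₀(M' p)`.**

For a closed point `χ₀` of `chart A t` (`t = tB p M' h4`) lying on both components and with
`χ₀(t) ^ pⁿ = χ₀(t)` there are `X Y E D a b ∈ chart A t` with

* `X Y = p E`, `χ₀ E ≠ 0`, `χ₀ X = χ₀ Y = 0`;
* `red₁ X ≠ 0`, `red₁ Y = 0`, `red₂ X = 0`, `red₂ Y ≠ 0`;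
* `D (t ^ pⁿ - t) = a X + b Y`, `χ₀ D ≠ 0`;
* `X`, as an element of `ℚ̄ · F_{M' p}`, is fixed by the inertia group of `A`.

Source: chapter REG of Program P (`NodeRegAt10.NodeRegItems` over an INERTIAL number field `K ∋ ζ_{M'}`,
uniformiser `p`), unpacked by `RegLevel7.exists_reg_coords` and transported by `baseChangeHom`.
-/
import Mathlib
import Fermat.Agent.MP.TH.RegLevel7
import Fermat.Agent.ORD.IFACEN.BadInstTwo8
import Fermat.Agent.ES.P36.EisFinal4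
import Fermat.Agent.ES.P36.RegDone21
import Fermat.Agent.ES.P36.RegNode21
import Fermat.Agent.ES.P36.NumAsmP12
import Fermat.Agent.ES.N34.GalRational1
import Fermat.Agent.ORD.IFACEN.ResidueFacts7

set_option autoImplicit false
set_option linter.unusedSectionVars false
set_option linter.unusedVariables false
set_option linter.style.longLine false
set_option linter.style.haveILetI false
set_option synthInstance.maxHeartbeats 400000

open HahnSeries ModularCurve Polynomial AlgebraicCurve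

noncomputable section

namespace Fermat.Agent.MP.TH.RegCoord7

open Fermat.Agent.RED.Interface4 Fermat.Agent.RED.DESC.PlaceExtend27
  Fermat.Agent.RED.DESC Fermat.Agent.RED.NumInst4
  Fermat.Agent.RED.PUR.GaussGen8 Fermat.Agent.RED.PUR.GaussBridge10
  Fermat.Agent.RED.PUR.ChartGeneric22
  Fermat.Agent.RED.DESC.NumberFieldDVR27
  Fermat.Agent.RED.BASE.Interface12 Fermat.Agent.RED.BASE.EtaQuot12
  Fermat.Agent.ES.RED.ChartIntegralA1 Fermat.Agent.ES.RED.GaussUnit25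
  Fermat.Agent.ES.N34.ModelDefs9 Fermat.Agent.ES.N34.NumData13
  Fermat.Agent.ES.N34.NodalCore13 Fermat.Agent.ES.N34.NodalSmooth13
  Fermat.Agent.ES.P36.NodeRegAt10
  Fermat.Agent.ORD.ANN.Side3
  Fermat.Agent.ORD.IFACEN.GaussBad1 Fermat.Agent.ORD.IFACEN.SideOne1
  Fermat.Agent.ORD.IFACEN.SideTwo1
  Fermat.Agent.ORD.IFACEN.BadLevelOne8 Fermat.Agent.ORD.IFACEN.BadFamily8
  Fermat.Agent.ORD.IFACEN.BadInstTwo8

/-- fast instance (the canonical search costs seconds). -/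
local instance (priority := 100000) algKF (A : ValuationSubring Qbar) (M : ℕ) [NeZero M] :
    Algebra (kA A) ↥(modularFunctionFieldFullC (kA A) M) := inferInstance

/-- shortcut instance (typeclass search takes seconds to find it). -/
local instance (priority := high) algAKFK (A : ValuationSubring Qbar) (M : ℕ)
    (K : IntermediateField ℚ Qbar) : Algebra ↥(AK A K) ↥(FK M K) := inferInstance

variable (p M' : ℕ) [Fact p.Prime] [NeZero M'] (A : ValuationSubring Qbar)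
  (hA : A.LiesOverPrime p) (hpM : ¬ p ∣ M') (h4 : 4 ∣ M')

/-- the bottom field is fixed by inertia. -/
theorem inertFixed_bot : Fermat.Agent.ES.P36.InertField27.InertFixed A ⊥ := by
  intro τ _ x hx
  obtain ⟨r, rfl⟩ := IntermediateField.mem_bot.mp hx
  exact τ.commutes r

include hA hpM in
/-- **a ready level**: an inertial number field containing `ζ_{M'}`. -/
theorem exists_ready : ∃ K : IntermediateField ℚ Qbar, FiniteDimensional ℚ K ∧
    Fermat.Agent.ES.P36.NumAsmP12.ReadyP p M' A K := by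
  have hp : p.Prime := Fact.out
  obtain ⟨K, hfin, -, hK⟩ := Fermat.Agent.ES.P36.NumAsmP12.exists_readyP_ge hp hpM hA ⊥
    (inferInstance : FiniteDimensional ℚ (⊥ : IntermediateField ℚ Qbar)) (inertFixed_bot A)
  exact ⟨K, hfin, hK⟩

include hA in
/-- every element of the residue field of `A` is fixed by a power of the Frobenius. -/
theorem exists_frob_pow_eq_self (c : kA A) : ∃ n : ℕ, 0 < n ∧ c ^ p ^ n = c := by
  have hp : p.Prime := Fact.out
  obtain ⟨K₁, hfin, -, H⟩ := Fermat.Agent.ES.RED.ResidueUnion1.exists_residue_descent A ⊥ c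
  haveI := hfin
  obtain ⟨c₀, rfl⟩ := H K₁ le_rfl
  haveI : Finite (IsLocalRing.ResidueField ↥(AK A K₁)) :=
    finite_residueField_AK A K₁ hp.ne_zero hA
  letI := Fintype.ofFinite (IsLocalRing.ResidueField ↥(AK A K₁))
  haveI : CharP (IsLocalRing.ResidueField ↥(AK A K₁)) p := charP_residueField_AK A K₁ hp hA
  obtain ⟨n, -, hn⟩ := FiniteField.card (IsLocalRing.ResidueField ↥(AK A K₁)) p
  refine ⟨n, n.pos, ?_⟩
  rw [← map_pow, ← hn, FiniteField.pow_card]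

set_option maxHeartbeats 1600000 in
/-- **regular coordinates at a two-branch closed point of the chart `t ≠ ∞`.** -/
theorem exists_coords (hp2 : p ≠ 2) (n : ℕ) (χ₀ : ↥(chart ↥A (tB p M' h4)) →+* kA A)
    (hon₁ : ∀ b : ↥(chart ↥A (tB p M' h4)),
      red1 p M' A hA hpM h4 ⟨(b : ↥(Fbar (M' * p))), chart0_le_G1 p M' A hA hpM h4 b.2⟩ = 0 →
        χ₀ b = 0)
    (hon₂ : ∀ b : ↥(chart ↥A (tB p M' h4)),
      red2 p M' A hA hpM h4 ⟨(b : ↥(Fbar (M' * p))), chart0_le_G2 p M' A hA hpM h4 b.2⟩ = 0 →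
        χ₀ b = 0)
    (hc : χ₀ ⟨tB p M' h4, self_mem_chart _⟩ ^ p ^ n = χ₀ ⟨tB p M' h4, self_mem_chart _⟩) :
    ∃ X Y E D a b : ↥(chart ↥A (tB p M' h4)),
      X * Y = ((p : ℕ) : ↥(chart ↥A (tB p M' h4))) * E ∧ χ₀ E ≠ 0 ∧ χ₀ X = 0 ∧ χ₀ Y = 0 ∧
      red1 p M' A hA hpM h4 ⟨(X : ↥(Fbar (M' * p))), chart0_le_G1 p M' A hA hpM h4 X.2⟩ ≠ 0 ∧
      red1 p M' A hA hpM h4 ⟨(Y : ↥(Fbar (M' * p))), chart0_le_G1 p M' A hA hpM h4 Y.2⟩ = 0 ∧
      red2 p M' A hA hpM h4 ⟨(X : ↥(Fbar (M' * p))), chart0_le_G2 p M' A hA hpM h4 X.2⟩ = 0 ∧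
      red2 p M' A hA hpM h4 ⟨(Y : ↥(Fbar (M' * p))), chart0_le_G2 p M' A hA hpM h4 Y.2⟩ ≠ 0 ∧
      χ₀ D ≠ 0 ∧
      D * ((⟨tB p M' h4, self_mem_chart _⟩ : ↥(chart ↥A (tB p M' h4))) ^ p ^ n -
        ⟨tB p M' h4, self_mem_chart _⟩) = a * X + b * Y ∧
      ∀ γ ∈ A.inertiaSubgroupIn ℚ,
        arithmeticGalois (modularFunctionFieldFull (M' * p)) γ • (X : ↥(Fbar (M' * p))) =
          (X : ↥(Fbar (M' * p))) := by
  have hp : p.Prime := Fact.out
  haveI : NeZero p := ⟨hp.ne_zero⟩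
  obtain ⟨K, hfin, hK⟩ := exists_ready p M' A hA hpM
  haveI := hfin
  have hF := Fermat.Agent.ES.P36.ModelInert4.frobInvAt_of_isInertial hK.1 hp hA
  have hreg : NodeRegItems 4 8 p M' A K :=
    Fermat.Agent.ES.P36.EisFinal4.nodeRegItems_four hp hp2 hpM h4 hA hK.1 hK.2
      (Fermat.Agent.ES.P36.RegNode21.twoGenItems10_of
        (Fermat.Agent.ES.P36.RegDone21.twoGenItems_four hp hp2 hpM h4 hA hK.2 hF hK.1.1))
  obtain ⟨ht, hE, -⟩ :=
    Fermat.Agent.ES.P36.ModelInert4.nodalNumData_four_inertial hp hp2 hpM h4 hA hK.1 hK.2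
  have hπ : IsUnif (AK A K) ((p : ℕ) : ↥(AK A K)) :=
    Fermat.Agent.ES.P36.UnrFixed1.isUnif_natCast A hp hA K hK.1.1
  have hreg0 := (hreg ht hE _ hπ).1
  -- the level map
  set jB : ↥(B0 A p ht) →+* ↥(chart ↥A (tB p M' h4)) :=
    ((baseChangeHom (M' * p) K).comp (B0 A p ht).val.toRingHom).codRestrict
      (chart ↥A (tB p M' h4)).toSubring
      (fun b => baseChangeHom_mem_chart0 p M' A h4 K ht b.2) with hjB
  set φ : ↥(B0 A p ht) →+* kA A := χ₀.comp jB with hφ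
  have h𝔪 : (RingHom.ker φ).IsMaximal := isMaxK p A hA φ
  have hmemO1 : ∀ b : ↥(B0 A p ht), (b : ↥(FK (M' * p) K)) ∈ O1 M' p hπ hE := fun b =>
    (on_iff_one p M' A hA hpM h4 K hπ hE b).1 (chart0_le_G1 p M' A hA hpM h4 (jB b).2)
  have hmemO2 : ∀ b : ↥(B0 A p ht), (b : ↥(FK (M' * p) K)) ∈ O2 M' p hπ hE := fun b =>
    (on_iff_two p M' A hA hpM h4 K hπ hE b).1 (chart0_le_G2 p M' A hA hpM h4 (jB b).2)
  have h1 : ¬ OffBranch ((p : ℕ) : ↥(AK A K)) (B0 A p ht) (O1 M' p hπ hE) (RingHom.ker φ) := by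
    rintro ⟨e, he, c, hcO, hec⟩
    apply he
    rw [RingHom.mem_ker]
    show χ₀ (jB e) = 0
    apply hon₁
    exact (on_zero_iff_one p M' A hA hpM h4 K hπ hE e (hmemO1 e)).2 ⟨c, hcO, hec⟩
  have h2 : ¬ OffBranch ((p : ℕ) : ↥(AK A K)) (B0 A p ht) (O2 M' p hπ hE) (RingHom.ker φ) := by
    rintro ⟨e, he, c, hcO, hec⟩
    apply he
    rw [RingHom.mem_ker]
    show χ₀ (jB e) = 0
    apply hon₂
    exact (on_zero_iff_two p M' A hA hpM h4 K hπ hE e (hmemO2 e)).2 ⟨c, hcO, hec⟩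
  have hπ𝔪 : algebraMap ↥(AK A K) ↥(B0 A p ht) ((p : ℕ) : ↥(AK A K)) ∈ RingHom.ker φ := by
    rw [RingHom.mem_ker, map_natCast, map_natCast]
    haveI : CharP (kA A) p := Fermat.Agent.ORD.IFACEN.ResidueFacts7.charP_residueField A hp hA
    exact CharP.cast_eq_zero (kA A) p
  obtain ⟨x, y, e, hxy, he, hx𝔪, hy𝔪, hx1, hy1, hx2, hy2, hgen⟩ :=
    Fermat.Agent.MP.TH.RegLevel7.exists_reg_coords _ _ _ _ hreg0 _ h𝔪 hπ𝔪 h1 h2
  set tK : ↥(B0 A p ht) := ⟨tN p ht, self_mem_chart _⟩ with htKdef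
  have htK : jB tK = ⟨tB p M' h4, self_mem_chart _⟩ :=
    Subtype.ext (baseChangeHom_tN p M' h4 K ht)
  have hf𝔪 : tK ^ p ^ n - tK ∈ RingHom.ker φ := by
    rw [RingHom.mem_ker, map_sub, map_pow]
    show χ₀ (jB tK) ^ p ^ n - χ₀ (jB tK) = 0
    rw [htK, hc, sub_self]
  obtain ⟨d, a, b, hd, hdab⟩ := hgen _ hf𝔪
  refine ⟨jB x, jB y, jB e, jB d, jB a, jB b, ?_, ?_, ?_, ?_, ?_, ?_, ?_, ?_, ?_, ?_, ?_⟩
  · rw [← map_mul, hxy, map_mul, map_natCast, map_natCast]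
  · exact fun h => he (RingHom.mem_ker.mpr h)
  · exact RingHom.mem_ker.mp hx𝔪
  · exact RingHom.mem_ker.mp hy𝔪
  · exact fun h0 => hx1 ((on_zero_iff_one p M' A hA hpM h4 K hπ hE x (hmemO1 x)).1 h0)
  · exact (on_zero_iff_one p M' A hA hpM h4 K hπ hE y (hmemO1 y)).2 hy1
  · exact (on_zero_iff_two p M' A hA hpM h4 K hπ hE x (hmemO2 x)).2 hx2
  · exact fun h0 => hy2 ((on_zero_iff_two p M' A hA hpM h4 K hπ hE y (hmemO2 y)).1 h0)
  · exact fun h => hd (RingHom.mem_ker.mpr h)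
  · rw [← htK, ← map_pow, ← map_sub, ← map_mul, hdab, map_add, map_mul, map_mul]
  · intro γ hγ
    exact Fermat.Agent.ES.N34.GalRational1.smul_baseChangeHom_of_fixed (M' * p) K γ
      (fun a ha => hK.1.1 γ hγ a ha) (x : ↥(FK (M' * p) K))

end Fermat.Agent.MP.TH.RegCoord7
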