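/-
Programme MP (row 38 via S44), chapter TH (helper7), plan TH-REG, bricks (R-a) + (R-b):
**exact thickness (TH) and the node functions (R1') of `MainDatum6.datum`.**

* `thick_of_nodeSys` : a node system on the local ring of a two-branch closed point `χ₀` of the chart
  `t ≠ ∞` of the N34 model, at which the coordinate `T = red₁ t` is a uniformiser up to a constant
  (`ord_Q (T - c) = 1`), has thickness `|ϖ| = |p|`, and carries an
  inertia-fixed function `Φ ∈ G₁` without zeros and poles on the annulus with `ord_Q (red₁ Φ) = 1`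
  [`RegCoord7.exists_coords` + `RegAbs7`];
* `thick_of_pt` : the same for a closed point `pt = Sum.inl x₀` of the two-chart model;
* **`reg_datum`** : on `𝔻 = MainDatum6.datum hpM h4 hp2`, from
  (h0) every node is a point of the chart `t ≠ ∞`, and
  (h1) `∀ e, ∃ c, ord_{Qs e} (red₀ t - c) = 1`,
  the thickness `∀ e, |π_e| = |p|` and `Φ`, `Φ_fix` (for all of `I_p`), `Φ_ann`, `Φ_mem`, `Φ_ord` in the
  shapes of `T3Datum6.setting` / `T3Main6.t3_datum`.
-/
import Mathlib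
import Fermat.Agent.MP.TH.RegAbs7
import Fermat.Agent.MP.TH.RegCoord7
import Fermat.Agent.MP.FINAL.MainDatum6
import Fermat.Agent.MP.T3.Config2

set_option autoImplicit false
set_option linter.unusedSectionVars false
set_option linter.unusedVariables false
set_option linter.style.longLine false
set_option linter.style.haveILetI false
set_option synthInstance.maxHeartbeats 400000

open HahnSeries ModularCurve Polynomial AlgebraicCurve

noncomputable section

namespace Fermat.Agent.MP.TH.Reg7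

open Fermat.Agent.X0.FF Fermat.Agent.RR.LSpace
open Fermat.Agent.RED.Interface4 Fermat.Agent.RED.PUR.ChartGeneric22
  Fermat.Agent.ES.RED.ChartIntegralA1
  Fermat.Agent.ORD.ANN.Side3 Fermat.Agent.ORD.ANN.Node3
  Fermat.Agent.ORD.SEMIRED.SemiRedDatum9
  Fermat.Agent.ORD.IFACEN.GaussBad1 Fermat.Agent.ORD.IFACEN.SideOne1
  Fermat.Agent.ORD.IFACEN.SideTwo1
  Fermat.Agent.ORD.IFACEN.BadLevelOne8 Fermat.Agent.ORD.IFACEN.BadInstTwo8
  Fermat.Agent.ORD.IFACEN.LocAt8 Fermat.Agent.ORD.IFACEN.DiscPlaces8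
  Fermat.Agent.ORD.IFACEN.Centre8 Fermat.Agent.ORD.IFACEN.AtlasPts6
  Fermat.Agent.ORD.IFACEN.PtsDict3 Fermat.Agent.ORD.IFACEN.PtsAssembly3
  Fermat.Agent.ORD.IFACEN.TwoCompAssembly3 Fermat.Agent.ORD.IFACEN.TwoCompInst6
  Fermat.Agent.ORD.IFACEN.CoordOne9
  Fermat.Agent.ORD.NODE.NodeSys4
  Fermat.Agent.FF.BASE.Place2
  Fermat.Agent.MP.FINAL.MainDatum6 Fermat.Agent.MP.T3.Config2
  Fermat.Agent.MP.TH.RegAbs7 Fermat.Agent.MP.TH.RegCoord7

/-- fast instance (the canonical search costs seconds). -/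
local instance (priority := 100000) algKF (A : ValuationSubring Qbar) (M : ℕ) [NeZero M] :
    Algebra (kA A) ↥(modularFunctionFieldFullC (kA A) M) := inferInstance

/-- the `A`-algebra structure of `F` for the valuation ring of `SideOne1.base A`. -/
local instance (priority := 100000) algBaseF (A : ValuationSubring Qbar) (N : ℕ) :
    Algebra ↥(base A).A ↥(Fbar N) :=
  (inferInstance : Algebra ↥A ↥(Fbar N))

/-- the scalar tower `A → ℚ̄ → F` for the valuation ring of `SideOne1.base A`. -/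
local instance (priority := 100000) istBase (A : ValuationSubring Qbar) (N : ℕ) :
    @IsScalarTower ↥(base A).A Qbar ↥(Fbar N)
      (ValuationSubring.instAlgebraSubtypeMem (base A).A).toSMul _ (algBaseF A N).toSMul :=
  (inferInstance : IsScalarTower ↥A Qbar ↥(Fbar N))

section General

variable (p M' : ℕ) [Fact p.Prime] [NeZero M'] (A : ValuationSubring Qbar)
  (hA : A.LiesOverPrime p) (hpM : ¬ p ∣ M') (h4 : 4 ∣ M')

set_option maxHeartbeats 1600000 in
/-- **thickness and node function of a node system of the chart `t ≠ ∞`.** -/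
theorem thick_of_nodeSys (hp2 : p ≠ 2) (χ₀ : ↥(chart ↥A (tB p M' h4)) →+* kA A)
    {Q Q' : Place (kA A) ↥(modularFunctionFieldFullC (kA A) M')}
    {xn yn un : locC (chart ↥A (tB p M' h4)) χ₀} {ϖn : Qbar}
    (hN : NodeSys (base A) (side1 p M' A hA hpM h4) (side2 p M' A hA hpM h4)
      (locC (chart ↥A (tB p M' h4)) χ₀) (chiC (chart ↥A (tB p M' h4)) χ₀) Q Q' xn yn un ϖn)
    (HL : LHyp Qbar ↥(Fbar (M' * p))) (Hk : LHyp (kA A) ↥(modularFunctionFieldFullC (kA A) M'))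
    (c : kA A)
    (hord : Q.ord (red1 p M' A hA hpM h4
      ⟨tB p M' h4, chart0_le_G1 p M' A hA hpM h4 (self_mem_chart _)⟩ -
        algebraMap (kA A) ↥(modularFunctionFieldFullC (kA A) M') c) = 1) :
    (base A).A.valuation ϖn = (base A).A.valuation ((p : ℕ) : Qbar) ∧
    ∃ Φ : ↥(Fbar (M' * p)),
      (∀ γ ∈ A.inertiaSubgroupIn ℚ,
        arithmeticGalois (modularFunctionFieldFull (M' * p)) γ • Φ = Φ) ∧
      (∀ P : Place Qbar ↥(Fbar (M' * p)), InDisc (locC (chart ↥A (tB p M' h4)) χ₀) P →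
        P.ord Φ = 0) ∧
      ∃ hmem : Φ ∈ G1 p M' A hA hpM h4, Q.ord (red1 p M' A hA hpM h4 ⟨Φ, hmem⟩) = 1 := by
  have hp : p.Prime := Fact.out
  obtain ⟨n, hn, hc⟩ := exists_frob_pow_eq_self p A hA c
  have hb := hN.base
  have hs := hN.side
  have hs' := hN.side'
  haveI : CharP (kA A) p := Fermat.Agent.ORD.IFACEN.ResidueFacts7.charP_residueField A hp hA
  haveI : CharP ↥(modularFunctionFieldFullC (kA A) M') p :=
    charP_of_injective_algebraMap
      (algebraMap (kA A) ↥(modularFunctionFieldFullC (kA A) M')).injective p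
  -- the point lies on both components
  have hon₁ : ∀ b : ↥(chart ↥A (tB p M' h4)),
      red1 p M' A hA hpM h4 ⟨(b : ↥(Fbar (M' * p))), chart0_le_G1 p M' A hA hpM h4 b.2⟩ = 0 →
        χ₀ b = 0 := by
    intro b h0
    have := hs.chi_of_red (ofBA _ χ₀ b) h0
    rwa [chiC_ofBA] at this
  have hon₂ : ∀ b : ↥(chart ↥A (tB p M' h4)),
      red2 p M' A hA hpM h4 ⟨(b : ↥(Fbar (M' * p))), chart0_le_G2 p M' A hA hpM h4 b.2⟩ = 0 →
        χ₀ b = 0 := by
    intro b h0
    have := hs'.chi_of_red (ofBA _ χ₀ b) h0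
    rwa [chiC_ofBA] at this
  -- the value of `t` at the point
  set T : ↥(chart ↥A (tB p M' h4)) := ⟨tB p M' h4, self_mem_chart _⟩ with hT
  have hordT : Q.ord (hs.redC (ofBA _ χ₀ T) -
      algebraMap (kA A) ↥(modularFunctionFieldFullC (kA A) M') c) = 1 := hord
  have hTc : χ₀ T = c := by
    obtain ⟨a, ha⟩ := (base A).res_surj c
    have hr : hs.redC (ofBA _ χ₀ T - hb.const a) = hs.redC (ofBA _ χ₀ T) -
        algebraMap (kA A) ↥(modularFunctionFieldFullC (kA A) M') c := by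
      rw [map_sub, hs.redC_const hb, ha]
    have hpos : 0 < Q.ord (hs.redC (ofBA _ χ₀ T - hb.const a)) := by
      rw [hr, hordT]; exact one_pos
    have h0 := hs.chi_eq_zero_of_ord_pos hb hpos
    rw [map_sub, hb.chi_const', ha, chiC_ofBA, sub_eq_zero] at h0
    exact h0
  obtain ⟨X, Y, E, D, a, b, hXY, hE, hX0, hY0, hX1, hY1, hX2, hY2, hD, hgen, hfix⟩ :=
    exists_coords p M' A hA hpM h4 hp2 n χ₀ hon₁ hon₂ (by rw [← hT, hTc]; exact hc)
  -- the order of `red₁ X`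
  have hf : Q.ord (hs.redC (ofBA _ χ₀ (T ^ p ^ n - T))) = 1 := by
    have e : hs.redC (ofBA _ χ₀ (T ^ p ^ n - T)) =
        hs.redC (ofBA _ χ₀ T) ^ p ^ n - hs.redC (ofBA _ χ₀ T) := by
      rw [map_sub, map_pow, map_sub, map_pow]
    rw [e]
    exact ord_frob_sub Q _ c hn hc hordT
  have hgen' : ofBA _ χ₀ D * ofBA _ χ₀ (T ^ p ^ n - T) =
      ofBA _ χ₀ a * ofBA _ χ₀ X + ofBA _ χ₀ b * ofBA _ χ₀ Y := by
    rw [← map_mul, hgen, map_add, map_mul, map_mul]
  have hordX : Q.ord (hs.redC (ofBA _ χ₀ X)) = 1 :=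
    ord_redC_eq_one hs hb hgen' (by rw [chiC_ofBA]; exact hD) hY1 (by rw [chiC_ofBA]; exact hX0)
      hX1 hf
  -- the product formula in `F`
  have hϖ₀ : ((p : ℕ) : Qbar) ≠ 0 := Nat.cast_ne_zero.mpr hp.ne_zero
  have hmul : ((X : ↥(chart ↥A (tB p M' h4))) : ↥(Fbar (M' * p))) * (Y : ↥(Fbar (M' * p))) =
      algebraMap Qbar ↥(Fbar (M' * p)) ((p : ℕ) : Qbar) * (E : ↥(Fbar (M' * p))) := by
    have := congrArg (fun z : ↥(chart ↥A (tB p M' h4)) => (z : ↥(Fbar (M' * p)))) hXY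
    simp only [MulMemClass.coe_mul] at this
    rw [this, map_natCast]
    push_cast
    rfl
  have hEχ : chiC (chart ↥A (tB p M' h4)) χ₀ (ofBA _ χ₀ E) ≠ 0 := by rw [chiC_ofBA]; exact hE
  have hann : ∀ P : Place Qbar ↥(Fbar (M' * p)), InDisc (locC (chart ↥A (tB p M' h4)) χ₀) P →
      P.ord (X : ↥(Fbar (M' * p))) = 0 := fun P hP =>
    ord_eq_zero_of_mul hb (X := ofBA _ χ₀ X) (Y := ofBA _ χ₀ Y) (E := ofBA _ χ₀ E) hϖ₀ hmul hEχ hP
  refine ⟨?_, (X : ↥(Fbar (M' * p))), hfix, hann, chart0_le_G1 p M' A hA hpM h4 X.2, hordX⟩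
  exact val_pi_eq_sys hN HL Hk Hk (X := ofBA _ χ₀ X) (Y := ofBA _ χ₀ Y) (E := ofBA _ χ₀ E) hϖ₀ hmul
    hX1 hordX hY2 hEχ

/-- **thickness and node function at a closed point `Sum.inl x₀` of the two-chart model.** -/
theorem thick_of_pt (hp2 : p ≠ 2) (pt : PtsM p M' A h4)
    (x₀ : CPt (base A).res (B0 p M' A h4)) (hpt : pt = Sum.inl x₀)
    {Q Q' : Place (kA A) ↥(modularFunctionFieldFullC (kA A) M')}
    {xn yn un : ringPts pt} {ϖn : Qbar}
    (hN : NodeSys (base A) (S₁ p M' A hA hpM h4) (S₂ p M' A hA hpM h4)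
      (ringPts pt) (chiPts pt) Q Q' xn yn un ϖn)
    (HL : LHyp Qbar ↥(Fbar (M' * p))) (Hk : LHyp (kA A) ↥(modularFunctionFieldFullC (kA A) M'))
    (c : kA A)
    (hord : Q.ord (red1 p M' A hA hpM h4
      ⟨tB p M' h4, chart0_le_G1 p M' A hA hpM h4 (self_mem_chart _)⟩ -
        algebraMap (kA A) ↥(modularFunctionFieldFullC (kA A) M') c) = 1) :
    (base A).A.valuation ϖn = (base A).A.valuation ((p : ℕ) : Qbar) ∧
    ∃ Φ : ↥(Fbar (M' * p)),
      (∀ γ ∈ A.inertiaSubgroupIn ℚ,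
        arithmeticGalois (modularFunctionFieldFull (M' * p)) γ • Φ = Φ) ∧
      (∀ P : Place Qbar ↥(Fbar (M' * p)), InDisc (ringPts pt) P → P.ord Φ = 0) ∧
      ∃ hmem : Φ ∈ G1 p M' A hA hpM h4, Q.ord (red1 p M' A hA hpM h4 ⟨Φ, hmem⟩) = 1 := by
  subst hpt
  exact thick_of_nodeSys p M' A hA hpM h4 hp2 x₀.χ hN HL Hk c hord

end General

/-! ### the concrete datum -/

section Datum

variable {p M' : ℕ} [Fact p.Prime] [NeZero M'] (hpM : ¬ p ∣ M') (h4 : 4 ∣ M') (hp2 : p ≠ 2)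

/-- the Hauptmodul lies in the Gauss ring of the component through `∞`. -/
theorem tBad_mem : tBad p M' h4 ∈ (datum hpM h4 hp2).G 0 :=
  (t1 p M' (padicPlace p) (liesOverPrime (ℓ := p)) hpM h4).2

set_option maxHeartbeats 1600000 in
/-- **(TH) and (R1') at one node of the chart `t ≠ ∞`.** -/
theorem reg_node (e : Nodes hpM h4 hp2)
    (x₀ : CPt (base (padicPlace p)).res (B0 p M' (padicPlace p) h4)) (he : e.1 = Sum.inl x₀)
    (c : kA (padicPlace p))
    (hord : ((datum hpM h4 hp2).Qs e).ord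
      ((datum hpM h4 hp2).red 0 ⟨tBad p M' h4, tBad_mem hpM h4 hp2⟩ -
        algebraMap (kA (padicPlace p)) ↥(modularFunctionFieldFullC (kA (padicPlace p)) M') c) = 1) :
    absv (datum hpM h4 hp2) ((datum hpM h4 hp2).π e) =
        absv (datum hpM h4 hp2) ((p : ℕ) : Qbar) ∧
    ∃ Φ : ↥(Fbar (M' * p)),
      (∀ γ ∈ Iv p, arithmeticGalois (modularFunctionFieldFull (M' * p)) γ • Φ = Φ) ∧
      (∀ P : Place Qbar ↥(Fbar (M' * p)), (datum hpM h4 hp2).r P = Sum.inr e → P.ord Φ = 0) ∧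
      ∃ hmem : Φ ∈ (datum hpM h4 hp2).G ((datum hpM h4 hp2).src e),
        ((datum hpM h4 hp2).Qs e).ord
          ((datum hpM h4 hp2).red ((datum hpM h4 hp2).src e) ⟨Φ, hmem⟩) = 1 := by
  set 𝔓 := (hypMain hpM h4 hp2).ptsData (lHyp_bad (M' * p))
    (lHyp_good p M' (padicPlace p) (liesOverPrime (ℓ := p)) hpM h4) with h𝔓
  have hpt : 𝔓.e.symm (Sum.inr e) = Sum.inl x₀ :=
    (Fermat.Agent.ORD.IFACEN.AtlasSplit6.splitEquiv_symm_inr _ e).trans he
  obtain ⟨hth, Φ, hfix, hann, hmem, hΦ⟩ :=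
    thick_of_pt p M' (padicPlace p) (liesOverPrime (ℓ := p)) hpM h4 hp2 _ x₀ hpt (𝔓.nsys' e)
      𝔓.HL 𝔓.Hk c hord
  refine ⟨hth, Φ, hfix, ?_, hmem, hΦ⟩
  intro P hP
  exact hann P ((𝔓.mem_node_ann e P).mp (((datum hpM h4 hp2).r_ann e P).mpr hP))

/-- hypothesis (h0) : **every node is a closed point of the chart `t ≠ ∞`** (no node at `t = ∞`). -/
def NodesFinite : Prop :=
  ∀ e : Nodes hpM h4 hp2, ∃ x₀ : CPt (base (padicPlace p)).res (B0 p M' (padicPlace p) h4),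
    e.1 = Sum.inl x₀

/-- hypothesis (h1) : **at every node the coordinate `T = red₀ t` of the component through `∞` is
unramified** : `ord_{Qs e} (T - c) = 1` for some constant `c`. -/
def NodesEtale : Prop :=
  ∀ e : Nodes hpM h4 hp2, ∃ c : kA (padicPlace p),
    ((datum hpM h4 hp2).Qs e).ord
      ((datum hpM h4 hp2).red 0 ⟨tBad p M' h4, tBad_mem hpM h4 hp2⟩ -
        algebraMap (kA (padicPlace p)) ↥(modularFunctionFieldFullC (kA (padicPlace p)) M') c) = 1

/-- **(TH) + (R1') on the concrete datum**, in the shapes of `T3Datum6.setting` /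
`T3Main6.t3_datum` (`Φ_fix` for the whole inertia group `I_p ⊇ Γ_L`). -/
theorem reg_datum (h0 : NodesFinite hpM h4 hp2) (h1 : NodesEtale hpM h4 hp2) :
    (∀ e, absv (datum hpM h4 hp2) ((datum hpM h4 hp2).π e) =
      absv (datum hpM h4 hp2) ((p : ℕ) : Qbar)) ∧
    ∃ Φ : Nodes hpM h4 hp2 → ↥(Fbar (M' * p)),
      (∀ γ ∈ Iv p, ∀ e, arithmeticGalois (modularFunctionFieldFull (M' * p)) γ • Φ e = Φ e) ∧
      (∀ e (P : Place Qbar ↥(Fbar (M' * p))), (datum hpM h4 hp2).r P = Sum.inr e →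
        P.ord (Φ e) = 0) ∧
      ∃ Φ_mem : ∀ e, Φ e ∈ (datum hpM h4 hp2).G ((datum hpM h4 hp2).src e),
        ∀ e, ((datum hpM h4 hp2).Qs e).ord
          ((datum hpM h4 hp2).red ((datum hpM h4 hp2).src e) ⟨Φ e, Φ_mem e⟩) = 1 := by
  have key : ∀ e : Nodes hpM h4 hp2,
      absv (datum hpM h4 hp2) ((datum hpM h4 hp2).π e) =
          absv (datum hpM h4 hp2) ((p : ℕ) : Qbar) ∧
      ∃ Φ : ↥(Fbar (M' * p)),
        (∀ γ ∈ Iv p, arithmeticGalois (modularFunctionFieldFull (M' * p)) γ • Φ = Φ) ∧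
        (∀ P : Place Qbar ↥(Fbar (M' * p)), (datum hpM h4 hp2).r P = Sum.inr e → P.ord Φ = 0) ∧
        ∃ hmem : Φ ∈ (datum hpM h4 hp2).G ((datum hpM h4 hp2).src e),
          ((datum hpM h4 hp2).Qs e).ord
            ((datum hpM h4 hp2).red ((datum hpM h4 hp2).src e) ⟨Φ, hmem⟩) = 1 := by
    intro e
    obtain ⟨x₀, he⟩ := h0 e
    obtain ⟨c, hord⟩ := h1 e
    exact reg_node hpM h4 hp2 e x₀ he c hord
  refine ⟨fun e => (key e).1, fun e => (key e).2.choose,
    fun γ hγ e => (key e).2.choose_spec.1 γ hγ,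
    fun e P hP => (key e).2.choose_spec.2.1 P hP,
    fun e => (key e).2.choose_spec.2.2.choose,
    fun e => (key e).2.choose_spec.2.2.choose_spec⟩

end Datum

end Fermat.Agent.MP.TH.Reg7
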