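/-
Programme MP (row 38 via S44), chapter TH, TOP (helper6): **the input `hTH` of
`S44Eight6.s44_of_four8`** : `S44Main6.THOut hpM h4 hp2 ζ` on the concrete datum, from helper7's
`Reg7.reg_datum` and helper2's `Cusp2.h0`, `Cusp2.h1`.
-/
import Mathlib
import Fermat.Agent.MP.TH.Reg7
import Fermat.Agent.MP.TH.Cusp2
import Fermat.Agent.MP.FINAL.S44Main6

set_option autoImplicit false
set_option linter.unusedSectionVars false
set_option linter.unusedVariables false
set_option linter.style.longLine false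
set_option linter.style.haveILetI false
set_option synthInstance.maxHeartbeats 400000
set_option maxHeartbeats 1000000

open AlgebraicCurve ModularCurve

noncomputable section

namespace Fermat.Agent.MP.TH.THOut6

open Fermat.Agent.X0.FF
open Fermat.Agent.ES.RED.ChartIntegralA1
open Fermat.Agent.TW.FLAT.FlatModule6
open Fermat.Agent.MP.FINAL.MainDatum6 Fermat.Agent.MP.FINAL.S44Main6
open Fermat.Agent.MP.T3.Break7

/-- fast instance (the canonical search costs seconds). -/
local instance (priority := 100000) algKF6th (A : ValuationSubring Qb) (M : ℕ) [NeZero M] :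
    Algebra (kA A) ↥(modularFunctionFieldFullC (kA A) M) := inferInstance

variable {p M₀ : ℕ} [Fact p.Prime] [NeZero M₀] (hpM : ¬ p ∣ M₀) (h4 : 4 ∣ M₀) (hp2 : p ≠ 2)

/-- **the output of chapter TH on the concrete datum.** -/
theorem thOut (ζ : Qb) : THOut hpM h4 hp2 ζ := by
  obtain ⟨hthick, Φ, Φ_fix, Φ_ann, Φ_mem, Φ_ord⟩ :=
    Fermat.Agent.MP.TH.Reg7.reg_datum hpM h4 hp2
      (fun e => Fermat.Agent.MP.TH.Cusp2.h0 hpM h4 hp2 e)
      (fun e => Fermat.Agent.MP.TH.Cusp2.h1 hpM h4 hp2 e _)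
  exact ⟨hthick, Φ, Φ_mem, fun γ hγ e => Φ_fix γ (GamL_le_Iv ζ hγ) e, Φ_ann, Φ_ord⟩

end Fermat.Agent.MP.TH.THOut6
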