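/-
Programme MP (row 38 via S44), chapter TH, brick (R-c) of "TH-REG" (helper4):
**the nodes of the semistable datum `MainDatum6.datum` of `X₀(M' p)` are not cusp reductions, and
the Kronecker congruence `c̄ ^ (p ^ 2) = c̄` at the nodes.**

K-level (one level `i : Lvl (K0 MI)` of the tower with `ζ_{M'} ∈ i.K`; inputs: Program P's (R4)
`CuspThirdK16` / `CuspIntK16`, discharged as in `CuspOffAsm21.cuspOffItems_at`):
* `LevelKron` / `levelKron` : `yN ∈ B0`, `yN⁻¹ ∈ B1` and the four Kronecker congruences;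
* `tN_inv_notMem_level`, `ival_tN_notMem_level`, `kron_mem_level`, `cusp_notMem_level`.

`ℚ̄`-level (closed points `χ₀` of the charts `chart A t`, `chart A t⁻¹` lying on both components):
* `tinv_ne_zero_of_on_both` : a two-branch closed point of `chart A t⁻¹` has `χ₀ t⁻¹ ≠ 0`;
* `ival_ne_zero_of_on_both` : at a two-branch closed point of `chart A t`: `D0(χ₀ t) ≠ 0` for every
  primitive `JFrac` denominator `D0`;
* `pow_eq_self_of_on_both` : `(χ₀ t) ^ (p ^ 2) = χ₀ t`;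
* `ne_cusp_of_on_both` : `χ₀ t ≠ res c` for every finite cusp value `c ∈ A`.

The datum (`A = padicPlace p`):
* `node_inl` : every node is a closed point of chart `0`; `nodePt`, `tval e` (`= c̄ = χ_e(t)`);
* `ival_tval_ne_zero`, `eval_tval_ne_zero`, `tval_pow`, `tval_ne_cusp`.
-/
import Mathlib
import Fermat.Agent.MP.FINAL.MainDatum6
import Fermat.Agent.ES.P36.CuspFinal16
import Fermat.Agent.ES.P36.ModelQAt4
import Fermat.Agent.ES.P36.LevelMAt4
import Fermat.Agent.ORD.IFACEN.BadNodes2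

set_option autoImplicit false
set_option linter.unusedSectionVars false
set_option linter.unusedVariables false
set_option linter.style.longLine false
set_option synthInstance.maxHeartbeats 400000

open HahnSeries ModularCurve Polynomial AlgebraicCurve IntermediateField
open scoped MatrixGroups

noncomputable section

namespace Fermat.Agent.MP.TH.Cusp4

open Fermat.Agent.X0 Fermat.Agent.RED.Interface4 Fermat.Agent.RED.DESC.PlaceExtend27
  Fermat.Agent.RED.DESC Fermat.Agent.RED.NumInst4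
  Fermat.Agent.RED.PUR.GaussGen8 Fermat.Agent.RED.PUR.GaussBridge10
  Fermat.Agent.RED.PUR.ChartGeneric22
  Fermat.Agent.RED.DESC.NumberFieldDVR27
  Fermat.Agent.RED.BASE.Interface12 Fermat.Agent.RED.BASE.EtaQuot12
  Fermat.Agent.RED.BASE.Hauptmodul12 Fermat.Agent.RED.ModelTargets4
  Fermat.Agent.ES.RED.ChartIntegralA1 Fermat.Agent.ES.RED.GaussUnit25
  Fermat.Agent.ES.N34.ModelDefs9 Fermat.Agent.ES.N34.ModelInput13 Fermat.Agent.ES.N34.NumData13
  Fermat.Agent.ES.N34.NodalCore13 Fermat.Agent.ES.N34.ModelN4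
  Fermat.Agent.ES.N34.LevelM20 Fermat.Agent.ES.N34.PrinItems12
  Fermat.Agent.ES.N34.FrickeFK8 Fermat.Agent.ES.N34.KronChart15
  Fermat.Agent.ES.P36.ModelQAt4
  Fermat.Agent.ES.P36.CuspPoly16 Fermat.Agent.ES.P36.CuspThirdK16 Fermat.Agent.ES.P36.JFracInst16
  Fermat.Agent.ES.P36.CuspUnit16 Fermat.Agent.ES.P36.CuspIntK16
  Fermat.Agent.ORD.ANN.Side3
  Fermat.Agent.ORD.IFACEN.GaussBad1 Fermat.Agent.ORD.IFACEN.SideOne1
  Fermat.Agent.ORD.IFACEN.SideTwo1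
  Fermat.Agent.ORD.IFACEN.BadLevelOne8 Fermat.Agent.ORD.IFACEN.BadFamily8
  Fermat.Agent.ORD.IFACEN.BadInst8 Fermat.Agent.ORD.IFACEN.BadInstTwo8
  Fermat.Agent.ORD.IFACEN.LevelFamily8 Fermat.Agent.ORD.IFACEN.LocAt8
  Fermat.Agent.ORD.NODE.NodeFamily2 Fermat.Agent.ORD.NODE.GoodFamily2
  Fermat.Agent.ORD.IFACEN.BadNodes2

/-- fast instance (the canonical search costs seconds). -/
local instance (priority := 100000) algKF4 (A : ValuationSubring Qbar) (M : ℕ) [NeZero M] :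
    Algebra (kA A) ↥(modularFunctionFieldFullC (kA A) M) := inferInstance

/-- shortcut instance (typeclass search takes seconds to find it). -/
local instance (priority := high) algAKFK4 (A : ValuationSubring Qbar) (M : ℕ)
    (K : IntermediateField ℚ Qbar) : Algebra ↥(AK A K) ↥(FK M K) := inferInstance

/-- the `A`-algebra structure of `F` for the valuation ring of `SideOne1.base A`. -/
local instance (priority := 100000) algBaseF4 (A : ValuationSubring Qbar) (N : ℕ) :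
    Algebra ↥(base A).A ↥(Fbar N) :=
  (inferInstance : Algebra ↥A ↥(Fbar N))

/-- the scalar tower `A → ℚ̄ → F` for the valuation ring of `SideOne1.base A`. -/
local instance (priority := 100000) istBase4 (A : ValuationSubring Qbar) (N : ℕ) :
    @IsScalarTower ↥(base A).A Qbar ↥(Fbar N)
      (ValuationSubring.instAlgebraSubtypeMem (base A).A).toSMul _ (algBaseF4 A N).toSMul :=
  (inferInstance : IsScalarTower ↥A Qbar ↥(Fbar N))

/-! ### generic: on both branches -/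

section Generic

variable {R F : Type*} [CommRing R] [Field F] [Algebra R F]

/-- an element of the chart in `π O_j` lies in every ideal through which the component `j` passes. -/
theorem mem_of_not_off (π : R) (B : Subalgebra R F) (Oj : ValuationSubring F)
    (𝔪 : Ideal ↥B) (h : ¬ OffBranch π B Oj 𝔪) (b : ↥B)
    (hb : ∃ c ∈ Oj, (b : F) = algebraMap R F π * c) : b ∈ 𝔪 := by
  by_contra hcon
  exact h ⟨b, hcon, hb⟩

end Generic

/-! ### one level of the tower -/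

section Level

variable (p M' : ℕ) [Fact p.Prime] [NeZero M'] (A : ValuationSubring Qbar)
  (hA : A.LiesOverPrime p) (hpM : ¬ p ∣ M') (h4 : 4 ∣ M')
  (MI : ModelInput 4 8 p M' A)

/-- **the Kronecker package at level `i`.** -/
structure LevelKron (i : Lvl (K0 MI)) : Prop where
  hy0 : yN p (htK MI i) ∈ B0 A p (htK MI i)
  hy1 : (yN p (htK MI i))⁻¹ ∈ B1 A p (htK MI i)
  hK1 : ∃ o ∈ O1 M' p (piK_unif hA MI i) (hEK MI i),
    yN p (htK MI i) - (tN p (htK MI i)) ^ p =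
      algebraMap ↥(AK A i.K) ↥(FK (M' * p) i.K) (piK hA MI i) * o
  hK2 : ∃ o ∈ O2 M' p (piK_unif hA MI i) (hEK MI i),
    tN p (htK MI i) - (yN p (htK MI i)) ^ p =
      algebraMap ↥(AK A i.K) ↥(FK (M' * p) i.K) (piK hA MI i) * o
  hK1' : ∃ o ∈ O1 M' p (piK_unif hA MI i) (hEK MI i),
    (yN p (htK MI i))⁻¹ - ((tN p (htK MI i))⁻¹) ^ p =
      algebraMap ↥(AK A i.K) ↥(FK (M' * p) i.K) (piK hA MI i) * o
  hK2' : ∃ o ∈ O2 M' p (piK_unif hA MI i) (hEK MI i),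
    (tN p (htK MI i))⁻¹ - ((yN p (htK MI i))⁻¹) ^ p =
      algebraMap ↥(AK A i.K) ↥(FK (M' * p) i.K) (piK hA MI i) * o

include hpM h4 in
set_option maxHeartbeats 4000000 in
/-- **the Kronecker package holds at every level containing `ζ_{M'}`** (`p` odd). -/
theorem levelKron (hp2 : p ≠ 2) (i : Lvl (K0 MI)) (hζ : zetaK M' ∈ i.K) :
    LevelKron p M' A hA MI i := by
  have hq : p.Prime := Fact.out
  have hF : FrobInvAt A i.K p := frobInvAt_of_normal hq hA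
  have hdvr : IsDiscreteValuationRing ↥(AK A i.K) :=
    Fermat.Agent.RED.DESC.NumberFieldDVR27.isDiscreteValuationRing_AK A i.K hq.ne_zero hA
  have hπ := piK_unif hA MI i
  have hirr : Irreducible (piK hA MI i) :=
    (IsDiscreteValuationRing.irreducible_iff_uniformizer _).mpr hπ.max_eq
  have : CharP (Res (AK A i.K)) p :=
    Fermat.Agent.RED.DESC.NumberFieldDVR27.charP_residueField_AK A i.K hq hA
  obtain ⟨-, -, hS2, -, -⟩ := items_four_at (K := i.K) hq hp2 hpM h4 hA hζ hF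
  have hL := Fermat.Agent.ES.P36.LevelMAt4.levelItems_four_at (K := i.K) hq hpM h4 hA hζ
  obtain ⟨_, -, hLM⟩ := hL
  obtain ⟨L0, L1⟩ := hLM (piK hA MI i) hirr
  have L0' : LevelM (AK A i.K) (FK M' i.K) (piK hA MI i) (tM (htK MI i)) := L0
  have L1' : LevelM (AK A i.K) (FK M' i.K) (piK hA MI i) (tM (htK MI i))⁻¹ := L1
  obtain ⟨hy0, hy1⟩ := hS2 (htK MI i)
  obtain ⟨ψ, hψO, hψ⟩ := hF
  have hiso : ∀ x : FK M' i.K, (x : LaurentSeries ↥i.K) ∈ gaussRing (AK A i.K) →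
      ((frickeFK M' i.K x : FK M' i.K) : LaurentSeries ↥i.K) ∈ gaussRing (AK A i.K) :=
    fun x hx => (Fermat.Agent.ES.N34.IsoM25.isoM A i.K M' p hirr hpM x).mp hx
  have hinvα : alpha i.K M' p (tM (htK MI i))⁻¹ = (tN p (htK MI i))⁻¹ :=
    map_inv₀ (alpha i.K M' p) (tM (htK MI i))
  have hinvβ : beta i.K M' p (tM (htK MI i))⁻¹ = (yN p (htK MI i))⁻¹ :=
    map_inv₀ (beta i.K M' p) (tM (htK MI i))
  have hs2 : iotaTwo M' i.K (tM (htK MI i)) ∈ gaussRing (AK A i.K) := hiso _ L0'.htM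
  have hs2' : iotaTwo M' i.K (tM (htK MI i))⁻¹ ∈ gaussRing (AK A i.K) := hiso _ L1'.htM
  have hgs : arithmeticRingAut (modularFunctionFieldFull M') ψ (tM (htK MI i)) = tM (htK MI i) :=
    gpsi_tM M' ψ (htK MI i)
  have hgs' : arithmeticRingAut (modularFunctionFieldFull M') ψ (tM (htK MI i))⁻¹ =
      (tM (htK MI i))⁻¹ := by
    rw [map_inv₀, gpsi_tM]
  refine ⟨hy0, hy1, ?_, ?_, ?_, ?_⟩
  · obtain ⟨o, ho, h⟩ := kron_one M' p hπ (hEK MI i) ψ hψO hψ (tM (htK MI i)) L0'.htM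
    rw [hgs] at h
    exact ⟨o, ho, h⟩
  · obtain ⟨o, ho, h⟩ := kron_two' M' p hπ (hEK MI i) ψ hψO hψ (tM (htK MI i)) hs2
    rw [hgs] at h
    exact ⟨o, ho, h⟩
  · obtain ⟨o, ho, h⟩ := kron_one M' p hπ (hEK MI i) ψ hψO hψ (tM (htK MI i))⁻¹ L1'.htM
    rw [hgs', hinvα, hinvβ] at h
    exact ⟨o, ho, h⟩
  · obtain ⟨o, ho, h⟩ := kron_two' M' p hπ (hEK MI i) ψ hψO hψ (tM (htK MI i))⁻¹ hs2'
    rw [hgs', hinvα, hinvβ] at h
    exact ⟨o, ho, h⟩

end Level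

/-! ### ideals of the level charts lying on both components -/

section LevelIdeal

variable {p M' : ℕ} [Fact p.Prime] [NeZero M'] {A : ValuationSubring Qbar}
  (hA : A.LiesOverPrime p) (hpM : ¬ p ∣ M') (h4 : 4 ∣ M')
  (MI : ModelInput 4 8 p M' A) (hp2 : p ≠ 2) (i : Lvl (K0 MI)) (hζ : zetaK M' ∈ i.K)

include hp2 in
theorem not_dvd_four : ¬ p ∣ 4 := by
  have hq : p.Prime := Fact.out
  intro h
  have h' : p ∣ 2 := hq.dvd_of_dvd_pow (show p ∣ 2 ^ 2 by simpa using h)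
  exact hp2 ((Nat.prime_dvd_prime_iff_eq hq Nat.prime_two).1 h')

include hpM h4 hp2 hζ in
set_option maxHeartbeats 4000000 in
/-- **chart `1`, the section `t = ∞`**: an ideal of `B1` lying on both components does not contain
`tN⁻¹`. -/
theorem tN_inv_notMem_level (𝔪 : Ideal ↥(B1 A p (htK MI i))) (h𝔪 : 𝔪 ≠ ⊤)
    (h1 : ¬ OffBranch (piK hA MI i) (B1 A p (htK MI i))
      (O1 M' p (piK_unif hA MI i) (hEK MI i)) 𝔪)
    (h2 : ¬ OffBranch (piK hA MI i) (B1 A p (htK MI i))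
      (O2 M' p (piK_unif hA MI i) (hEK MI i)) 𝔪) :
    (⟨(tN p (htK MI i))⁻¹, self_mem_chart (tN p (htK MI i))⁻¹⟩ : ↥(B1 A p (htK MI i))) ∉ 𝔪 := by
  have hq : p.Prime := Fact.out
  have LK := levelKron p M' A hA hpM h4 MI hp2 i hζ
  have D := nodalK p M' A hA MI i
  exact tN_inv_notMem_of_on_both A p baseHyp_four hq (not_dvd_four hp2) (htK MI i) (piK hA MI i)
    D.dvrR _ _ D.model.le_O1_1 D.model.le_O2_1 D.model.sat1 LK.hy1
    (D.model.le_O1_0 _ LK.hy0) (D.model.le_O2_0 _ LK.hy0) LK.hK1' LK.hK2' 𝔪 h𝔪 h1 h2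

include hpM h4 hp2 hζ in
set_option maxHeartbeats 4000000 in
/-- **chart `0`, the denominator of `j`**: an ideal of `B0` lying on both components does not
contain `D0(tN)`, for every primitive `JFrac` denominator `D0`. -/
theorem ival_tN_notMem_level (N : Kbar[X]) (D0 : ℤ[X]) (hprim : D0.IsPrimitive)
    (hND : JFrac 4 8 baseHyp_four N D0)
    (𝔪 : Ideal ↥(B0 A p (htK MI i))) (h𝔪 : 𝔪 ≠ ⊤)
    (h1 : ¬ OffBranch (piK hA MI i) (B0 A p (htK MI i))
      (O1 M' p (piK_unif hA MI i) (hEK MI i)) 𝔪)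
    (h2 : ¬ OffBranch (piK hA MI i) (B0 A p (htK MI i))
      (O2 M' p (piK_unif hA MI i) (hEK MI i)) 𝔪) :
    (⟨ival D0 (tN p (htK MI i)),
      ival_mem_subalgebra (B0 A p (htK MI i)) (self_mem_chart (tN p (htK MI i))) D0⟩ :
      ↥(B0 A p (htK MI i))) ∉ 𝔪 := by
  have hq : p.Prime := Fact.out
  have hqn := not_dvd_four (p := p) hp2
  have LK := levelKron p M' A hA hpM h4 MI hp2 i hζ
  have D := nodalK p M' A hA MI i
  have hdvr : IsDiscreteValuationRing ↥(AK A i.K) :=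
    Fermat.Agent.RED.DESC.NumberFieldDVR27.isDiscreteValuationRing_AK A i.K hq.ne_zero hA
  have hπ := piK_unif hA MI i
  have hirr : Irreducible (piK hA MI i) :=
    (IsDiscreteValuationRing.irreducible_iff_uniformizer _).mpr hπ.max_eq
  have : CharP (Res (AK A i.K)) p :=
    Fermat.Agent.RED.DESC.NumberFieldDVR27.charP_residueField_AK A i.K hq hA
  have hqπ : piK hA MI i ∣ (p : ↥(AK A i.K)) :=
    Fermat.Agent.ES.P36.CuspFinal16.pi_dvd_q A p hA hirr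
  have hDt1 := ival_tN_inv_mem_O1 M' p hπ (hEK MI i) hq (htK MI i) hprim
  have hD2 := ival_yN_inv_mem_O2 M' p hπ (hEK MI i) hq
    (fun x => Fermat.Agent.ES.N34.IsoM25.isoM A i.K M' p hirr hpM x) (htK MI i) hprim
  have hR1 : ∀ r : ↥(AK A i.K), algebraMap ↥(AK A i.K) ↥(FK (M' * p) i.K) r ∈
      O1 M' p hπ (hEK MI i) :=
    fun r => D.model.le_O1_0 _ ((B0 A p (htK MI i)).algebraMap_mem r)
  have hD1 : (ival D0 (yN p (htK MI i)))⁻¹ ∈ O1 M' p hπ (hEK MI i) :=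
    ival_inv_mem_of_kron (piK hA MI i) p hq hqπ _ hR1 D.model.pi_nonunit1
      (D.model.le_O1_0 _ LK.hy0) (D.model.le_O1_0 _ D.model.t_mem) LK.hK1 D0 hDt1
      (Fermat.Agent.ES.P36.CuspFinal16.ival_tN_ne_zero p (htK MI i) D0 hND.2.1)
  exact ival_tN_notMem_of_on_both A p baseHyp_four hq hqn (htK MI i) (piK hA MI i) D.dvrR hqπ _ _
    D.model.le_O1_0 D.model.le_O2_0 D.model.sat0 LK.hy0 N D0 hND (jDict 4 hq hqn) hD1 hD2
    LK.hK1 LK.hK2 𝔪 h𝔪 h1 h2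

include hpM h4 hp2 hζ in
/-- **Kronecker at an ideal of `B0` lying on both components**: it contains `yN - tN ^ p` and
`tN - yN ^ p`. -/
theorem kron_mem_level (𝔪 : Ideal ↥(B0 A p (htK MI i)))
    (h1 : ¬ OffBranch (piK hA MI i) (B0 A p (htK MI i))
      (O1 M' p (piK_unif hA MI i) (hEK MI i)) 𝔪)
    (h2 : ¬ OffBranch (piK hA MI i) (B0 A p (htK MI i))
      (O2 M' p (piK_unif hA MI i) (hEK MI i)) 𝔪) :
    ∃ y : ↥(B0 A p (htK MI i)), (y : ↥(FK (M' * p) i.K)) = yN p (htK MI i) ∧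
      y - (⟨tN p (htK MI i), self_mem_chart _⟩ : ↥(B0 A p (htK MI i))) ^ p ∈ 𝔪 ∧
      (⟨tN p (htK MI i), self_mem_chart _⟩ : ↥(B0 A p (htK MI i))) - y ^ p ∈ 𝔪 := by
  have LK := levelKron p M' A hA hpM h4 MI hp2 i hζ
  refine ⟨⟨yN p (htK MI i), LK.hy0⟩, rfl, ?_, ?_⟩
  · refine mem_of_not_off _ _ _ 𝔪 h1 _ ?_
    obtain ⟨o, ho, h⟩ := LK.hK1
    exact ⟨o, ho, h⟩
  · refine mem_of_not_off _ _ _ 𝔪 h2 _ ?_
    obtain ⟨o, ho, h⟩ := LK.hK2
    exact ⟨o, ho, h⟩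

end LevelIdeal

/-! ### closed points of the `ℚ̄`-charts lying on both components -/

section QbarLevel

variable (p M' : ℕ) [Fact p.Prime] [NeZero M'] (A : ValuationSubring Qbar)
  (hA : A.LiesOverPrime p) (hpM : ¬ p ∣ M') (h4 : 4 ∣ M')
  (MI : ModelInput 4 8 p M' A) (hp2 : p ≠ 2)

/-- a level of the tower containing `ζ_{M'}`. -/
theorem exists_level_zeta : ∃ i : Lvl (K0 MI), zetaK M' ∈ i.K := by
  have halg : Algebra.IsAlgebraic ℚ Qbar := NumberFieldDVR27.isAlgebraic_Qbar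
  have hint : IsIntegral ℚ (zetaK M') := (halg.isAlgebraic _).isIntegral
  have h1 : FiniteDimensional ℚ ↥ℚ⟮zetaK M'⟯ := IntermediateField.adjoin.finiteDimensional hint
  have hfd : FiniteDimensional ℚ ↥(K0 MI ⊔ ℚ⟮zetaK M'⟯) :=
    IntermediateField.finiteDimensional_sup _ _
  obtain ⟨i, hi⟩ := exists_lvl_ge (K0 MI) (K0 MI ⊔ ℚ⟮zetaK M'⟯) le_sup_left
  exact ⟨i, hi ((le_sup_right : ℚ⟮zetaK M'⟯ ≤ K0 MI ⊔ ℚ⟮zetaK M'⟯)
    (IntermediateField.mem_adjoin_simple_self ℚ _))⟩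

section One

variable (χ₀ : ↥(chart ↥A (tB p M' h4)⁻¹) →+* kA A)

theorem mem_xK1_iff (i : Lvl (K0 MI)) (b : ↥(B1 A p (htK MI i))) :
    b ∈ xK1 p M' A h4 MI χ₀ i ↔
      χ₀ ⟨baseChangeHom (M' * p) i.K (b : ↥(FK (M' * p) i.K)),
        baseChangeHom_mem_chart1 p M' A h4 i.K (htK MI i) b.2⟩ = 0 := Iff.rfl

theorem xK1_ne_top (i : Lvl (K0 MI)) : xK1 p M' A h4 MI χ₀ i ≠ ⊤ := RingHom.ker_ne_top _

/-- **the closed point of level `i` below a two-branch closed point of `chart A t⁻¹` lies on both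
components.** -/
theorem not_off_xK1
    (hon₁ : ∀ b : ↥(chart ↥A (tB p M' h4)⁻¹),
      red1 p M' A hA hpM h4 ⟨(b : ↥(Fbar (M' * p))), chart1_le_G1 p M' A hA hpM h4 b.2⟩ = 0 →
        χ₀ b = 0)
    (hon₂ : ∀ b : ↥(chart ↥A (tB p M' h4)⁻¹),
      red2 p M' A hA hpM h4 ⟨(b : ↥(Fbar (M' * p))), chart1_le_G2 p M' A hA hpM h4 b.2⟩ = 0 →
        χ₀ b = 0) (i : Lvl (K0 MI)) :
    ¬ OffBranch (piK hA MI i) (B1 A p (htK MI i)) (O1 M' p (piK_unif hA MI i) (hEK MI i))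
        (xK1 p M' A h4 MI χ₀ i) ∧
      ¬ OffBranch (piK hA MI i) (B1 A p (htK MI i)) (O2 M' p (piK_unif hA MI i) (hEK MI i))
        (xK1 p M' A h4 MI χ₀ i) := by
  have H₁ := lf11 p M' A hA hpM h4 MI
  have H₂ := lf21 p M' A hA hpM h4 MI
  constructor
  · rintro ⟨e, he, hc⟩
    apply he
    rw [mem_xK1_iff]
    apply hon₁
    exact (H₁.on_zero_iff i _ (H₁.le_on i _ e.2)).mpr hc
  · rintro ⟨e, he, hc⟩
    apply he
    rw [mem_xK1_iff]
    apply hon₂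
    exact (H₂.on_zero_iff i _ (H₂.le_on i _ e.2)).mpr hc

include MI hp2 in
set_option maxHeartbeats 1000000 in
/-- **a closed point of `chart A t⁻¹` lying on both components is not at `t = ∞`.** -/
theorem tinv_ne_zero_of_on_both
    (hon₁ : ∀ b : ↥(chart ↥A (tB p M' h4)⁻¹),
      red1 p M' A hA hpM h4 ⟨(b : ↥(Fbar (M' * p))), chart1_le_G1 p M' A hA hpM h4 b.2⟩ = 0 →
        χ₀ b = 0)
    (hon₂ : ∀ b : ↥(chart ↥A (tB p M' h4)⁻¹),
      red2 p M' A hA hpM h4 ⟨(b : ↥(Fbar (M' * p))), chart1_le_G2 p M' A hA hpM h4 b.2⟩ = 0 →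
        χ₀ b = 0) :
    χ₀ ⟨(tB p M' h4)⁻¹, self_mem_chart _⟩ ≠ 0 := by
  obtain ⟨i, hζ⟩ := exists_level_zeta p M' A MI
  obtain ⟨h1, h2⟩ := not_off_xK1 p M' A hA hpM h4 MI χ₀ hon₁ hon₂ i
  have h := tN_inv_notMem_level hA hpM h4 MI hp2 i hζ (xK1 p M' A h4 MI χ₀ i)
    (xK1_ne_top p M' A h4 MI χ₀ i) h1 h2
  intro h0
  apply h
  rw [mem_xK1_iff]
  have e : (⟨baseChangeHom (M' * p) i.K (tN p (htK MI i))⁻¹,
      baseChangeHom_mem_chart1 p M' A h4 i.K (htK MI i)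
        (self_mem_chart (tN p (htK MI i))⁻¹)⟩ : ↥(chart ↥A (tB p M' h4)⁻¹)) =
      ⟨(tB p M' h4)⁻¹, self_mem_chart _⟩ :=
    Subtype.ext (by
      show baseChangeHom (M' * p) i.K (tN p (htK MI i))⁻¹ = (tB p M' h4)⁻¹
      rw [map_inv₀, baseChangeHom_tN p M' h4 i.K (htK MI i)])
  exact (congrArg χ₀ e).trans h0

end One

section Zero

variable (χ₀ : ↥(chart ↥A (tB p M' h4)) →+* kA A)

theorem mem_xK0_iff (i : Lvl (K0 MI)) (b : ↥(B0 A p (htK MI i))) :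
    b ∈ xK0 p M' A h4 MI χ₀ i ↔
      χ₀ ⟨baseChangeHom (M' * p) i.K (b : ↥(FK (M' * p) i.K)),
        baseChangeHom_mem_chart0 p M' A h4 i.K (htK MI i) b.2⟩ = 0 := Iff.rfl

theorem xK0_ne_top (i : Lvl (K0 MI)) : xK0 p M' A h4 MI χ₀ i ≠ ⊤ := RingHom.ker_ne_top _

include hA in
theorem xK0_isMaximal (i : Lvl (K0 MI)) : (xK0 p M' A h4 MI χ₀ i).IsMaximal :=
  isMaxK p A hA _

/-- **the closed point of level `i` below a two-branch closed point of `chart A t` lies on both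
components.** -/
theorem not_off_xK0
    (hon₁ : ∀ b : ↥(chart ↥A (tB p M' h4)),
      red1 p M' A hA hpM h4 ⟨(b : ↥(Fbar (M' * p))), chart0_le_G1 p M' A hA hpM h4 b.2⟩ = 0 →
        χ₀ b = 0)
    (hon₂ : ∀ b : ↥(chart ↥A (tB p M' h4)),
      red2 p M' A hA hpM h4 ⟨(b : ↥(Fbar (M' * p))), chart0_le_G2 p M' A hA hpM h4 b.2⟩ = 0 →
        χ₀ b = 0) (i : Lvl (K0 MI)) :
    ¬ OffBranch (piK hA MI i) (B0 A p (htK MI i)) (O1 M' p (piK_unif hA MI i) (hEK MI i))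
        (xK0 p M' A h4 MI χ₀ i) ∧
      ¬ OffBranch (piK hA MI i) (B0 A p (htK MI i)) (O2 M' p (piK_unif hA MI i) (hEK MI i))
        (xK0 p M' A h4 MI χ₀ i) := by
  have H₁ := lf10 p M' A hA hpM h4 MI
  have H₂ := lf20 p M' A hA hpM h4 MI
  constructor
  · rintro ⟨e, he, hc⟩
    apply he
    rw [mem_xK0_iff]
    apply hon₁
    exact (H₁.on_zero_iff i _ (H₁.le_on i _ e.2)).mpr hc
  · rintro ⟨e, he, hc⟩
    apply he
    rw [mem_xK0_iff]
    apply hon₂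
    exact (H₂.on_zero_iff i _ (H₂.le_on i _ e.2)).mpr hc

include MI hp2 in
set_option maxHeartbeats 1000000 in
/-- **(NC) a closed point of `chart A t` lying on both components is not a cusp reduction**:
`D0(χ₀ t) ≠ 0` for every primitive denominator `D0 ∈ ℤ[X]` of `j = N(t) / D0(t)`. -/
theorem ival_ne_zero_of_on_both
    (hon₁ : ∀ b : ↥(chart ↥A (tB p M' h4)),
      red1 p M' A hA hpM h4 ⟨(b : ↥(Fbar (M' * p))), chart0_le_G1 p M' A hA hpM h4 b.2⟩ = 0 →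
        χ₀ b = 0)
    (hon₂ : ∀ b : ↥(chart ↥A (tB p M' h4)),
      red2 p M' A hA hpM h4 ⟨(b : ↥(Fbar (M' * p))), chart0_le_G2 p M' A hA hpM h4 b.2⟩ = 0 →
        χ₀ b = 0)
    (N : Kbar[X]) (D0 : ℤ[X]) (hprim : D0.IsPrimitive) (hND : JFrac 4 8 baseHyp_four N D0) :
    ival D0 (χ₀ ⟨tB p M' h4, self_mem_chart _⟩) ≠ 0 := by
  obtain ⟨i, hζ⟩ := exists_level_zeta p M' A MI
  obtain ⟨h1, h2⟩ := not_off_xK0 p M' A hA hpM h4 MI χ₀ hon₁ hon₂ i
  have h := ival_tN_notMem_level hA hpM h4 MI hp2 i hζ N D0 hprim hND (xK0 p M' A h4 MI χ₀ i)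
    (xK0_ne_top p M' A h4 MI χ₀ i) h1 h2
  intro h0
  apply h
  rw [mem_xK0_iff]
  have e : (⟨baseChangeHom (M' * p) i.K (ival D0 (tN p (htK MI i))),
      baseChangeHom_mem_chart0 p M' A h4 i.K (htK MI i)
        (ival_mem_subalgebra (B0 A p (htK MI i)) (self_mem_chart (tN p (htK MI i))) D0)⟩ :
        ↥(chart ↥A (tB p M' h4))) =
      ival D0 (⟨tB p M' h4, self_mem_chart _⟩ : ↥(chart ↥A (tB p M' h4))) :=
    Subtype.ext (by
      show baseChangeHom (M' * p) i.K (ival D0 (tN p (htK MI i))) =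
        (chart ↥A (tB p M' h4)).val.toRingHom
          (ival D0 (⟨tB p M' h4, self_mem_chart _⟩ : ↥(chart ↥A (tB p M' h4))))
      rw [map_ival, map_ival, baseChangeHom_tN p M' h4 i.K (htK MI i)]
      rfl)
  exact (congrArg χ₀ e).trans ((map_ival χ₀ _ D0).trans h0)

include MI hp2 in
set_option maxHeartbeats 1000000 in
/-- **Kronecker at a closed point of `chart A t` lying on both components**:
`(χ₀ t) ^ (p ^ 2) = χ₀ t`. -/
theorem pow_eq_self_of_on_both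
    (hon₁ : ∀ b : ↥(chart ↥A (tB p M' h4)),
      red1 p M' A hA hpM h4 ⟨(b : ↥(Fbar (M' * p))), chart0_le_G1 p M' A hA hpM h4 b.2⟩ = 0 →
        χ₀ b = 0)
    (hon₂ : ∀ b : ↥(chart ↥A (tB p M' h4)),
      red2 p M' A hA hpM h4 ⟨(b : ↥(Fbar (M' * p))), chart0_le_G2 p M' A hA hpM h4 b.2⟩ = 0 →
        χ₀ b = 0) :
    (χ₀ ⟨tB p M' h4, self_mem_chart _⟩) ^ (p ^ 2) = χ₀ ⟨tB p M' h4, self_mem_chart _⟩ := by
  obtain ⟨i, hζ⟩ := exists_level_zeta p M' A MI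
  obtain ⟨h1, h2⟩ := not_off_xK0 p M' A hA hpM h4 MI χ₀ hon₁ hon₂ i
  obtain ⟨y, -, hm1, hm2⟩ := kron_mem_level hA hpM h4 MI hp2 i hζ (xK0 p M' A h4 MI χ₀ i) h1 h2
  set φ : ↥(B0 A p (htK MI i)) →+* kA A :=
    χ₀.comp (((baseChangeHom (M' * p) i.K).comp (B0 A p (htK MI i)).val.toRingHom).codRestrict
      (chart ↥A (tB p M' h4)).toSubring
      (fun b => baseChangeHom_mem_chart0 p M' A h4 i.K (htK MI i) b.2)) with hφ
  have e1 : φ y = φ ⟨tN p (htK MI i), self_mem_chart _⟩ ^ p := by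
    have h : φ (y - ⟨tN p (htK MI i), self_mem_chart _⟩ ^ p) = 0 := RingHom.mem_ker.mp hm1
    rwa [map_sub, map_pow, sub_eq_zero] at h
  have e2 : φ ⟨tN p (htK MI i), self_mem_chart _⟩ = φ y ^ p := by
    have h : φ (⟨tN p (htK MI i), self_mem_chart _⟩ - y ^ p) = 0 := RingHom.mem_ker.mp hm2
    rwa [map_sub, map_pow, sub_eq_zero] at h
  have e3 : φ ⟨tN p (htK MI i), self_mem_chart _⟩ = χ₀ ⟨tB p M' h4, self_mem_chart _⟩ := by
    show χ₀ _ = χ₀ _
    congr 1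
    exact Subtype.ext (baseChangeHom_tN p M' h4 i.K (htK MI i))
  rw [← e3, pow_two, pow_mul, ← e1, ← e2]

include MI hp2 in
/-- **(NC), cusp form**: `χ₀ t` is not the reduction of a finite cusp value. -/
theorem ne_cusp_of_on_both
    (hon₁ : ∀ b : ↥(chart ↥A (tB p M' h4)),
      red1 p M' A hA hpM h4 ⟨(b : ↥(Fbar (M' * p))), chart0_le_G1 p M' A hA hpM h4 b.2⟩ = 0 →
        χ₀ b = 0)
    (hon₂ : ∀ b : ↥(chart ↥A (tB p M' h4)),
      red2 p M' A hA hpM h4 ⟨(b : ↥(Fbar (M' * p))), chart0_le_G2 p M' A hA hpM h4 b.2⟩ = 0 →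
        χ₀ b = 0)
    {M : ℕ} [NeZero M] (h4M : 4 ∣ M) (cv : SL(2, ℤ) → Option Kbar) (hcv : CuspExp 4 8 M cv)
    (c : ↥A) (hc : ∃ γ, cv γ = some (c : Qbar)) :
    χ₀ ⟨tB p M' h4, self_mem_chart _⟩ ≠ IsLocalRing.residue ↥A c := by
  obtain ⟨N, D0, hprim, hND⟩ := exists_jFrac 4 8 baseHyp_four
  have h := ival_ne_zero_of_on_both p M' A hA hpM h4 MI hp2 χ₀ hon₁ hon₂ N D0 hprim hND
  intro heq
  apply h
  obtain ⟨γ, hγ⟩ := hc
  have h0 := Fermat.Agent.ES.P36.JDenom16.eval_cusp_eq_zero h4M cv hcv (tMem baseHyp_four) N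
    (D0.map (Int.castRingHom Kbar)) (by rw [aeval_map_int]; exact hND.2.2) γ _ hγ
  rw [Polynomial.eval_map] at h0
  have h1 : ival D0 c = 0 := by
    apply Subtype.val_injective
    have := map_ival A.subtype c D0
    rw [show ((ival D0 c : ↥A) : Qbar) = A.subtype (ival D0 c) from rfl, this]
    exact h0
  rw [heq, ← map_ival, h1, map_zero]

end Zero

end QbarLevel

/-! ### the nodes of the datum `MainDatum6.datum` -/

section Datum

open Fermat.Agent.MP.FINAL.MainDatum6 Fermat.Agent.FF.BASE.Place2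
  Fermat.Agent.ORD.FINAL.LevelOrd0 Fermat.Agent.ORD.FINAL.FinalOrd6
  Fermat.Agent.ORD.IFACEN.Centre8 Fermat.Agent.ORD.IFACEN.AtlasPts6
  Fermat.Agent.ORD.IFACEN.PtsDict3 Fermat.Agent.ORD.IFACEN.TwoCompAssembly3

variable {p M' : ℕ} [Fact p.Prime] [NeZero M'] (hpM : ¬ p ∣ M') (h4 : 4 ∣ M') (hp2 : p ≠ 2)

/-- the closed points of the chart `t ≠ ∞` of the model along `padicPlace p`. -/
abbrev Pt0 (p M' : ℕ) [Fact p.Prime] [NeZero M'] (h4 : 4 ∣ M') : Type :=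
  CPt (base (padicPlace p)).res (Fermat.Agent.ORD.IFACEN.TwoCompInst6.B0 p M' (padicPlace p) h4)

/-- **every node of the datum is a closed point of the chart `t ≠ ∞`** (the points at `t = ∞` lie on
one component only). -/
theorem node_cases (e : Nodes hpM h4 hp2) :
    ∃ (x₀ : Pt0 p M' h4) (h : (hypMain hpM h4 hp2).IsNode (Sum.inl x₀)),
      e = ⟨Sum.inl x₀, h⟩ := by
  obtain ⟨x, h⟩ := e
  rcases x with x₀ | y₀
  · exact ⟨x₀, h, rfl⟩
  · exfalso
    exact tinv_ne_zero_of_on_both p M' (padicPlace p) (liesOverPrime (ℓ := p)) hpM h4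
      (modelInput hpM h4 hp2) hp2 y₀.1.χ h.1 h.2 y₀.2

/-- **the value `c̄ = χ_e(t)` of the Hauptmodul at the node `e`.** -/
def tval (e : Nodes hpM h4 hp2) : kA (padicPlace p) :=
  Sum.elim (fun x₀ : Pt0 p M' h4 => x₀.χ ⟨tB p M' h4, self_mem_chart _⟩) (fun _ => 0) e.1

theorem tval_mk (x₀ : Pt0 p M' h4) (h : (hypMain hpM h4 hp2).IsNode (Sum.inl x₀)) :
    tval hpM h4 hp2 ⟨Sum.inl x₀, h⟩ = x₀.χ ⟨tB p M' h4, self_mem_chart _⟩ := rfl

/-- the Hauptmodul lies in the local ring of every node. -/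
theorem tB_mem_ringPts (e : Nodes hpM h4 hp2) : tB p M' h4 ∈ ringPts e.1 := by
  obtain ⟨x₀, h, rfl⟩ := node_cases hpM h4 hp2 e
  exact le_locC _ x₀.χ (self_mem_chart _)

/-- `tval e` is the value of the residue map of the local ring of the node at `t`. -/
theorem chiPts_tB (e : Nodes hpM h4 hp2) :
    chiPts e.1 ⟨tB p M' h4, tB_mem_ringPts hpM h4 hp2 e⟩ = tval hpM h4 hp2 e := by
  obtain ⟨x₀, h, rfl⟩ := node_cases hpM h4 hp2 e
  exact chiC_ofBA _ x₀.χ ⟨tB p M' h4, self_mem_chart _⟩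

/-- **(NC)** the nodes are not cusp reductions: `D0(c̄) ≠ 0` for every primitive denominator
`D0 ∈ ℤ[X]` of `j = N(t) / D0(t)` (`JFracInst16.exists_jFrac`). -/
theorem ival_tval_ne_zero (e : Nodes hpM h4 hp2) (N : Kbar[X]) (D0 : ℤ[X])
    (hprim : D0.IsPrimitive) (hND : JFrac 4 8 baseHyp_four N D0) :
    ival D0 (tval hpM h4 hp2 e) ≠ 0 := by
  obtain ⟨x₀, h, rfl⟩ := node_cases hpM h4 hp2 e
  exact ival_ne_zero_of_on_both p M' (padicPlace p) (liesOverPrime (ℓ := p)) hpM h4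
    (modelInput hpM h4 hp2) hp2 x₀.χ h.1 h.2 N D0 hprim hND

/-- **(NC)**, `Polynomial.eval` form. -/
theorem eval_tval_ne_zero (e : Nodes hpM h4 hp2) (N : Kbar[X]) (D0 : ℤ[X])
    (hprim : D0.IsPrimitive) (hND : JFrac 4 8 baseHyp_four N D0) :
    (D0.map (Int.castRingHom (kA (padicPlace p)))).eval (tval hpM h4 hp2 e) ≠ 0 := by
  rw [Polynomial.eval_map]
  exact ival_tval_ne_zero hpM h4 hp2 e N D0 hprim hND

/-- **(NC)**, existential form: there is a primitive `D0 ∈ ℤ[X]`, denominator of `j` in `t`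
(hence vanishing at every finite cusp value), with `D0(c̄) ≠ 0` at every node. -/
theorem exists_denominator :
    ∃ (N : Kbar[X]) (D0 : ℤ[X]), D0.IsPrimitive ∧ JFrac 4 8 baseHyp_four N D0 ∧
      ∀ e : Nodes hpM h4 hp2, ival D0 (tval hpM h4 hp2 e) ≠ 0 := by
  obtain ⟨N, D0, hprim, hND⟩ := exists_jFrac 4 8 baseHyp_four
  exact ⟨N, D0, hprim, hND, fun e => ival_tval_ne_zero hpM h4 hp2 e N D0 hprim hND⟩

/-- **Kronecker at the nodes**: `c̄ ^ (p ^ 2) = c̄` (the nodes are `𝔽_{p²}`-rational in `t`). -/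
theorem tval_pow (e : Nodes hpM h4 hp2) :
    tval hpM h4 hp2 e ^ (p ^ 2) = tval hpM h4 hp2 e := by
  obtain ⟨x₀, h, rfl⟩ := node_cases hpM h4 hp2 e
  exact pow_eq_self_of_on_both p M' (padicPlace p) (liesOverPrime (ℓ := p)) hpM h4
    (modelInput hpM h4 hp2) hp2 x₀.χ h.1 h.2

/-- **(NC)**, cusp form: `c̄` is not the reduction of a finite cusp value. -/
theorem tval_ne_cusp (e : Nodes hpM h4 hp2)
    {M : ℕ} [NeZero M] (h4M : 4 ∣ M) (cv : SL(2, ℤ) → Option Kbar) (hcv : CuspExp 4 8 M cv)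
    (c : ↥(padicPlace p)) (hc : ∃ γ, cv γ = some (c : Qbar)) :
    tval hpM h4 hp2 e ≠ IsLocalRing.residue ↥(padicPlace p) c := by
  obtain ⟨x₀, h, rfl⟩ := node_cases hpM h4 hp2 e
  exact ne_cusp_of_on_both p M' (padicPlace p) (liesOverPrime (ℓ := p)) hpM h4
    (modelInput hpM h4 hp2) hp2 x₀.χ h.1 h.2 h4M cv hcv c hc

end Datum

end Fermat.Agent.MP.TH.Cusp4
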