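/-
Programme MP (S44), chapter TH, brick (R-c) (helper2): **K-level input of `MP/TH/Cusp2`.**

`ival_tN_notMem_at` : at a maximal ideal `x1` of the chart `B0` of level `M' q` (over `A ∩ K`) lying on
both vertical components, `D0(tN) ∉ x1`, where `j = N(t)/D0(t)` (`JFrac`) — the chart-`0` half of
`JReg21.jRegItems_at` with the denominator explicit.
-/
import Mathlib
import Fermat.Agent.ES.P36.JReg21

set_option autoImplicit false
set_option synthInstance.maxHeartbeats 400000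
set_option linter.style.haveILetI false
set_option linter.unusedSectionVars false
set_option linter.unusedVariables false
set_option linter.style.longLine false

noncomputable section

open HahnSeries ModularCurve IntermediateField Polynomial AlgebraicCurve
open scoped MatrixGroups

namespace Fermat.Agent.MP.TH.CuspK2

/-! ### K-level: the denominator of `j` at the two-branch points of chart `0` -/

section KLevel

open Fermat.Agent.X0 Fermat.Agent.RED.Interface4 Fermat.Agent.RED.PUR.GaussGen8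
  Fermat.Agent.RED.BASE.Interface12 Fermat.Agent.RED.BASE.Hauptmodul12
  Fermat.Agent.RED.BASE.EtaQuot12 Fermat.Agent.RED.ModelTargets4
  Fermat.Agent.RED.PUR.ChartGeneric22 Fermat.Agent.RED.PUR.G1Package8
  Fermat.Agent.ES.N34.ModelDefs9 Fermat.Agent.ES.N34.ModelN4 Fermat.Agent.ES.N34.NodalCore13
  Fermat.Agent.ES.N34.NumData13 Fermat.Agent.ES.N34.LevelM20 Fermat.Agent.ES.N34.PrinItems12
  Fermat.Agent.ES.N34.FrickeFK8 Fermat.Agent.ES.N34.KronChart15 Fermat.Agent.ES.N34.ModEq23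
  Fermat.Agent.ES.P36.ModelQAt4 Fermat.Agent.ES.P36.RegInst21 Fermat.Agent.ES.P36.RegExpAsm21
  Fermat.Agent.ES.P36.CuspPoly16 Fermat.Agent.ES.P36.CuspThirdK16
  Fermat.Agent.ES.P36.JFracInst16 Fermat.Agent.ES.P36.CuspUnit16 Fermat.Agent.ES.P36.CuspFinal16
  Fermat.Agent.ES.P36.CuspOffAsm21

variable {n e q M' : ℕ} [NeZero n] [NeZero M'] [NeZero q] {A : ValuationSubring Qbar}
  {K : IntermediateField ℚ Qbar}

set_option maxHeartbeats 4000000 in
/-- **`D0(tN) ∉ x1`** for a maximal ideal `x1` of the chart `B0` of level `M' q` lying on both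
vertical components (the chart-`0` half of `JReg21.jRegItems_at`, with the denominator explicit). -/
theorem ival_tN_notMem_at (hb : BaseHyp n e) (hq : q.Prime) (hqn : ¬ q ∣ n) (hqM : ¬ q ∣ M')
    (hA : A.LiesOverPrime q) [FiniteDimensional ℚ K] (hF : FrobInvAt A K q)
    (hL : LevelItems n e M' A K) (hS2 : ModEqItems n e q M' A K)
    (N : Kbar[X]) (D0 : ℤ[X]) (hprim : D0.IsPrimitive) (hND : JFrac n e hb N D0)
    (ht : tq (↥K) n e ∈ FK M' K) (hE : FK (M' * q) K ≤ fracField (AK A K))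
    (π : ↥(AK A K)) (hπ : IsUnif (AK A K) π)
    (D : NodalNumData ↥(AK A K) ↥K ↥(FK (M' * q) K) π (tN q ht) (B0 A q ht) (B1 A q ht)
          (O1 M' q hπ hE) (O2 M' q hπ hE))
    (x1 : Ideal ↥(B0 A q ht)) (hx1 : x1.IsMaximal)
    (hon1 : OnBranch π (B0 A q ht) (O1 M' q hπ hE) x1)
    (hon2 : OnBranch π (B0 A q ht) (O2 M' q hπ hE) x1) :
    (⟨ival D0 (tN q ht), ival_mem_subalgebra (B0 A q ht) (self_mem_chart (tN q ht)) D0⟩ :
      ↥(B0 A q ht)) ∉ x1 := by
  haveI hdvr : IsDiscreteValuationRing ↥(AK A K) :=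
    Fermat.Agent.RED.DESC.NumberFieldDVR27.isDiscreteValuationRing_AK A K hq.ne_zero hA
  have hirr : Irreducible π := (IsDiscreteValuationRing.irreducible_iff_uniformizer π).mpr hπ.max_eq
  haveI : Fact q.Prime := ⟨hq⟩
  haveI : CharP (Res (AK A K)) q :=
    Fermat.Agent.RED.DESC.NumberFieldDVR27.charP_residueField_AK A K hq hA
  obtain ⟨_, -, hLM⟩ := hL
  obtain ⟨L0, L1⟩ := hLM π hirr
  have L0' : LevelM (AK A K) (FK M' K) π (tM ht) := L0
  obtain ⟨hy0, hy1⟩ := hS2 ht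
  obtain ⟨ψ, hψO, hψ⟩ := hF
  have hiso : ∀ x : FK M' K, (x : LaurentSeries ↥K) ∈ gaussRing (AK A K) →
      ((frickeFK M' K x : FK M' K) : LaurentSeries ↥K) ∈ gaussRing (AK A K) :=
    fun x hx => (Fermat.Agent.ES.N34.IsoM25.isoM A K M' q hirr hqM x).mp hx
  have hs2 : iotaTwo M' K (tM ht) ∈ gaussRing (AK A K) := hiso _ L0'.htM
  have hgs : arithmeticRingAut (modularFunctionFieldFull M') ψ (tM ht) = tM ht :=
    gpsi_tM M' ψ ht
  have hK1 : ∃ o ∈ O1 M' q hπ hE, yN q ht - (tN q ht) ^ q =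
      algebraMap ↥(AK A K) ↥(FK (M' * q) K) π * o := by
    obtain ⟨o, ho, h⟩ := kron_one M' q hπ hE ψ hψO hψ (tM ht) L0'.htM
    rw [hgs] at h
    exact ⟨o, ho, h⟩
  have hK2 : ∃ o ∈ O2 M' q hπ hE, tN q ht - (yN q ht) ^ q =
      algebraMap ↥(AK A K) ↥(FK (M' * q) K) π * o := by
    obtain ⟨o, ho, h⟩ := kron_two' M' q hπ hE ψ hψO hψ (tM ht) hs2
    rw [hgs] at h
    exact ⟨o, ho, h⟩
  have hqπ : π ∣ (q : ↥(AK A K)) := pi_dvd_q A q hA hirr
  have hDt1 := ival_tN_inv_mem_O1 M' q hπ hE hq ht hprim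
  have hD2 := ival_yN_inv_mem_O2 M' q hπ hE hq
    (fun x => Fermat.Agent.ES.N34.IsoM25.isoM A K M' q hirr hqM x) ht hprim
  have model := D.model
  have hR1 : ∀ r : ↥(AK A K), algebraMap ↥(AK A K) ↥(FK (M' * q) K) r ∈ O1 M' q hπ hE :=
    fun r => model.le_O1_0 _ ((B0 A q ht).algebraMap_mem r)
  have hD1 : (ival D0 (yN q ht))⁻¹ ∈ O1 M' q hπ hE :=
    ival_inv_mem_of_kron π q hq hqπ (O1 M' q hπ hE) hR1 model.pi_nonunit1
      (model.le_O1_0 _ hy0) (model.le_O1_0 _ model.t_mem) hK1 D0 hDt1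
      (ival_tN_ne_zero q ht D0 hND.2.1)
  exact ival_tN_notMem_of_on_both A q hb hq hqn ht π D.dvrR hqπ (O1 M' q hπ hE)
    (O2 M' q hπ hE) model.le_O1_0 model.le_O2_0 model.sat0 hy0 N D0 hND (jDict n hq hqn) hD1 hD2
    hK1 hK2 x1 hx1.ne_top (not_off_of_on π _ _ x1 hon1) (not_off_of_on π _ _ x1 hon2)

end KLevel

end Fermat.Agent.MP.TH.CuspK2
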