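/-
Programme MP (row 38 via S44), chapter TH (helper7), plan TH-REG: **(TH) and (R1') on
`MainDatum6.datum`, UNCONDITIONALLY.**

`Reg7.reg_datum` with its two hypotheses discharged by helper2's `Cusp2.h0` (no node over `t = ∞`) and
`Cusp2.h1` (the reduced Hauptmodul is unramified at the branch `Qs e` of every node):

* `nodesFinite`, `nodesEtale`;
* **`reg_main hpM h4 hp2`** : `(∀ e, |π_e| = |p|) ∧ ∃ Φ, Φ_fix (all of I_p) ∧ Φ_ann ∧ ∃ Φ_mem, Φ_ord`;
* `thick_main`, and the `Γ_L`-form **`r1_main ζ`** in the literal shape of the field `r1` of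
  `S44Main6.THOut` (`∃ Φ Φ_mem, Φ_fix ∧ Φ_ann ∧ Φ_ord`).
-/
import Mathlib
import Fermat.Agent.MP.TH.Reg7
import Fermat.Agent.MP.TH.Cusp2
import Fermat.Agent.MP.T3.Break7

set_option autoImplicit false
set_option linter.unusedSectionVars false
set_option linter.unusedVariables false
set_option linter.style.longLine false
set_option synthInstance.maxHeartbeats 400000

open HahnSeries ModularCurve Polynomial AlgebraicCurve

noncomputable section

namespace Fermat.Agent.MP.TH.RegMain7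

open Fermat.Agent.X0.FF Fermat.Agent.RR.LSpace
open Fermat.Agent.RED.Interface4 Fermat.Agent.ES.RED.ChartIntegralA1
  Fermat.Agent.ORD.SEMIRED.SemiRedDatum9
  Fermat.Agent.ORD.IFACEN.CoordOne9
  Fermat.Agent.FF.BASE.Place2 Fermat.Agent.FF.FINAL.Final0 GaloisRep
  Fermat.Agent.MP.FINAL.MainDatum6 Fermat.Agent.MP.T3.Config2 Fermat.Agent.MP.T3.Break7
  Fermat.Agent.MP.TH.Reg7

/-- fast instance (the canonical search costs seconds). -/
local instance (priority := 100000) algKF (A : ValuationSubring Qbar) (M : ℕ) [NeZero M] :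
    Algebra (kA A) ↥(modularFunctionFieldFullC (kA A) M) := inferInstance

variable {p M' : ℕ} [Fact p.Prime] [NeZero M'] (hpM : ¬ p ∣ M') (h4 : 4 ∣ M') (hp2 : p ≠ 2)

/-- (h0) : no node over `t = ∞` (helper2). -/
theorem nodesFinite : NodesFinite hpM h4 hp2 :=
  fun e => Fermat.Agent.MP.TH.Cusp2.h0 hpM h4 hp2 e

/-- (h1) : the reduced Hauptmodul is unramified at the branches of the nodes (helper2 + lead's (ET)). -/
theorem nodesEtale : NodesEtale hpM h4 hp2 :=
  fun e => Fermat.Agent.MP.TH.Cusp2.h1 hpM h4 hp2 e (tBad_mem hpM h4 hp2)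

/-- **(TH) + (R1') on the concrete datum, unconditionally.** -/
theorem reg_main :
    (∀ e, absv (datum hpM h4 hp2) ((datum hpM h4 hp2).π e) =
      absv (datum hpM h4 hp2) ((p : ℕ) : Qbar)) ∧
    ∃ Φ : Nodes hpM h4 hp2 → ↥(Fbar (M' * p)),
      (∀ γ ∈ Iv p, ∀ e, arithmeticGalois (modularFunctionFieldFull (M' * p)) γ • Φ e = Φ e) ∧
      (∀ e (P : Place Qbar ↥(Fbar (M' * p))), (datum hpM h4 hp2).r P = Sum.inr e →
        P.ord (Φ e) = 0) ∧
      ∃ Φ_mem : ∀ e, Φ e ∈ (datum hpM h4 hp2).G ((datum hpM h4 hp2).src e),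
        ∀ e, ((datum hpM h4 hp2).Qs e).ord
          ((datum hpM h4 hp2).red ((datum hpM h4 hp2).src e) ⟨Φ e, Φ_mem e⟩) = 1 :=
  reg_datum hpM h4 hp2 (nodesFinite hpM h4 hp2) (nodesEtale hpM h4 hp2)

/-- **(TH)** : every node of the datum has thickness exactly `|p|`. -/
theorem thick_main (e : Nodes hpM h4 hp2) :
    absv (datum hpM h4 hp2) ((datum hpM h4 hp2).π e) =
      absv (datum hpM h4 hp2) ((p : ℕ) : Qbar) :=
  (reg_main hpM h4 hp2).1 e

/-- **(R1')**, in the literal shape of the field `r1` of `S44Main6.THOut`. -/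
theorem r1_main (ζ : Qbar) :
    ∃ (Φ : Nodes hpM h4 hp2 → ↥(Fbar (M' * p)))
      (Φ_mem : ∀ e, Φ e ∈ (datum hpM h4 hp2).G ((datum hpM h4 hp2).src e)),
    (∀ γ ∈ GamL p ζ, ∀ e, arithmeticGalois (modularFunctionFieldFull (M' * p)) γ • Φ e = Φ e) ∧
    (∀ e (Q : Place Qbar ↥(Fbar (M' * p))), (datum hpM h4 hp2).r Q = Sum.inr e →
      Q.ord (Φ e) = 0) ∧
    (∀ e, ((datum hpM h4 hp2).Qs e).ord
      ((datum hpM h4 hp2).red ((datum hpM h4 hp2).src e) ⟨Φ e, Φ_mem e⟩) = 1) := by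
  obtain ⟨-, Φ, hfix, hann, hmem, hord⟩ := reg_main hpM h4 hp2
  exact ⟨Φ, hmem, fun γ hγ e => hfix γ (GamL_le_Iv ζ hγ) e, hann, hord⟩

end Fermat.Agent.MP.TH.RegMain7
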