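/-
Programme MP (S44), chapter TH, brick (T-a) (helper2): **the regular node coordinates of Program P
(`NodeRegAt10.NodeRegAt`, thickness one) at the two-branch closed points of the `ℚ̄`-level model of
`X₀(M' p)`.**

For a closed point `χ₀` of `chart A t` lying on both components, and ANY finite inertial field
`K ∋ ζ_{M'}` (`Cusp2.exists_ready`, `exists_ready_ge`), `π := p` (a uniformiser of `A ∩ K`):

* `pi_mem_ker` : `p ∈ ker (phi0 χ₀)`; `not_off_one0`, `not_off_two0`;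
* **`exists_reg0`** : `x0 y0 e0 ∈ B0_K` with `x0 * y0 = p * e0`, `χ₀ (j e0) ≠ 0`, `χ₀ (j x0) = χ₀ (j y0) = 0`,
  `red₁ (j x0) ≠ 0`, `red₂ (j x0) = 0`, `red₁ (j y0) = 0`, `red₂ (j y0) ≠ 0`, and the GENERATION clause
  `∀ f ∈ B0_K, χ₀ (j f) = 0 → ∃ d a b ∈ B0_K, χ₀ (j d) ≠ 0 ∧ d * f = a * x0 + b * y0`.
-/
import Mathlib
import Fermat.Agent.MP.TH.Cusp2
import Fermat.Agent.ES.P36.EisFinal4
import Fermat.Agent.ES.P36.RegNode21
import Fermat.Agent.ES.P36.RegDone21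

set_option autoImplicit false
set_option synthInstance.maxHeartbeats 400000
set_option linter.style.haveILetI false
set_option linter.unusedSectionVars false
set_option linter.unusedVariables false
set_option linter.style.longLine false

noncomputable section

open HahnSeries ModularCurve IntermediateField Polynomial AlgebraicCurve
open scoped MatrixGroups

namespace Fermat.Agent.MP.TH.RegNode2

open Fermat.Agent.X0 Fermat.Agent.RED.Interface4 Fermat.Agent.RED.DESC.PlaceExtend27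
  Fermat.Agent.RED.DESC Fermat.Agent.RED.NumInst4
  Fermat.Agent.RED.PUR.GaussGen8 Fermat.Agent.RED.PUR.GaussBridge10
  Fermat.Agent.RED.PUR.ChartGeneric22
  Fermat.Agent.RED.DESC.NumberFieldDVR27
  Fermat.Agent.RED.BASE.Interface12 Fermat.Agent.RED.BASE.EtaQuot12
  Fermat.Agent.RED.BASE.Hauptmodul12
  Fermat.Agent.ES.RED.ChartIntegralA1 Fermat.Agent.ES.RED.GaussUnit25
  Fermat.Agent.ES.N34.ModelDefs9 Fermat.Agent.ES.N34.NumData13
  Fermat.Agent.ES.N34.NodalCore13 Fermat.Agent.ES.N34.NodalSmooth13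
  Fermat.Agent.ES.P36.ModelQAt4 Fermat.Agent.ES.P36.RegInst21
  Fermat.Agent.ES.P36.InertField27
  Fermat.Agent.ORD.ANN.Side3
  Fermat.Agent.ORD.IFACEN.GaussBad1 Fermat.Agent.ORD.IFACEN.SideOne1
  Fermat.Agent.ORD.IFACEN.SideTwo1
  Fermat.Agent.ORD.IFACEN.BadLevelOne8 Fermat.Agent.ORD.IFACEN.BadFamily8
  Fermat.Agent.ORD.IFACEN.BadInstTwo8
  Fermat.Agent.ORD.IFACEN.LocAt8
  Fermat.Agent.MP.TH.Cusp2

/-- fast instance (the canonical search costs seconds). -/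
local instance (priority := 100000) algKFr (A : ValuationSubring Qbar) (M : ℕ) [NeZero M] :
    Algebra (kA A) ↥(modularFunctionFieldFullC (kA A) M) := inferInstance

/-- shortcut instance (typeclass search takes seconds to find it). -/
local instance (priority := high) algAKFKr (A : ValuationSubring Qbar) (M : ℕ)
    (K : IntermediateField ℚ Qbar) : Algebra ↥(AK A K) ↥(FK M K) := inferInstance

section KLevel

variable (p M' : ℕ) [Fact p.Prime] [NeZero M'] (A : ValuationSubring Qbar)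
  (hA : A.LiesOverPrime p) (hpM : ¬ p ∣ M') (h4 : 4 ∣ M')
  (K : IntermediateField ℚ Qbar) [FiniteDimensional ℚ K] (ht : tq ↥K 4 8 ∈ FK M' K)

/-- a uniformiser of `A ∩ K` lies in the `K`-level closed point below `χ₀`. -/
theorem pi_mem_ker {π : ↥(AK A K)} (hπ : IsUnif (AK A K) π)
    (χ₀ : ↥(chart ↥A (tB p M' h4)) →+* kA A)
    (hχ₀ : ∀ a : ↥A, χ₀ (algebraMap ↥A ↥(chart ↥A (tB p M' h4)) a) = IsLocalRing.residue ↥A a) :
    algebraMap ↥(AK A K) ↥(B0 A p ht) π ∈ RingHom.ker (phi0 p M' A h4 K ht χ₀) := by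
  obtain ⟨ϖ, -, hres, e⟩ := pi_const p M' A K hπ
  rw [RingHom.mem_ker, phi0_apply]
  have : (⟨baseChangeHom (M' * p) K
        ((algebraMap ↥(AK A K) ↥(B0 A p ht) π : ↥(B0 A p ht)) : ↥(FK (M' * p) K)),
      baseChangeHom_mem_chart0 p M' A h4 K ht (algebraMap ↥(AK A K) ↥(B0 A p ht) π).2⟩ :
      ↥(chart ↥A (tB p M' h4))) = algebraMap ↥A ↥(chart ↥A (tB p M' h4)) ϖ :=
    Subtype.ext (by
      show baseChangeHom (M' * p) K (algebraMap ↥(AK A K) ↥(FK (M' * p) K) π) =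
        ((algebraMap ↥A ↥(chart ↥A (tB p M' h4)) ϖ : ↥(chart ↥A (tB p M' h4))) : ↥(Fbar (M' * p)))
      rw [e]; rfl)
  rw [this, hχ₀, hres]

set_option maxHeartbeats 2000000 in
/-- **Program P's regular node coordinates at the `K`-level point below a two-branch closed point
`χ₀` of `chart A t`**, `K` any finite inertial field containing `ζ_{M'}`, uniformiser `p`. -/
theorem exists_reg0 (hp2 : p ≠ 2) (hK : IsInertial A K) (hζ : zetaK M' ∈ K)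
    (χ₀ : ↥(chart ↥A (tB p M' h4)) →+* kA A)
    (hχ₀ : ∀ a : ↥A, χ₀ (algebraMap ↥A ↥(chart ↥A (tB p M' h4)) a) = IsLocalRing.residue ↥A a)
    (hon₁ : ∀ b : ↥(chart ↥A (tB p M' h4)),
      red1 p M' A hA hpM h4 ⟨(b : ↥(Fbar (M' * p))), chart0_le_G1 p M' A hA hpM h4 b.2⟩ = 0 →
        χ₀ b = 0)
    (hon₂ : ∀ b : ↥(chart ↥A (tB p M' h4)),
      red2 p M' A hA hpM h4 ⟨(b : ↥(Fbar (M' * p))), chart0_le_G2 p M' A hA hpM h4 b.2⟩ = 0 →
        χ₀ b = 0) :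
    ∃ (ht : tq ↥K 4 8 ∈ FK M' K) (x0 y0 e0 : ↥(B0 A p ht)),
      x0 * y0 = algebraMap ↥(AK A K) ↥(B0 A p ht) ((p : ℕ) : ↥(AK A K)) * e0 ∧
      phi0 p M' A h4 K ht χ₀ e0 ≠ 0 ∧ phi0 p M' A h4 K ht χ₀ x0 = 0 ∧
      phi0 p M' A h4 K ht χ₀ y0 = 0 ∧
      red1 p M' A hA hpM h4 ⟨baseChangeHom (M' * p) K (x0 : ↥(FK (M' * p) K)),
        chart0_le_G1 p M' A hA hpM h4 (baseChangeHom_mem_chart0 p M' A h4 K ht x0.2)⟩ ≠ 0 ∧
      red2 p M' A hA hpM h4 ⟨baseChangeHom (M' * p) K (x0 : ↥(FK (M' * p) K)),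
        chart0_le_G2 p M' A hA hpM h4 (baseChangeHom_mem_chart0 p M' A h4 K ht x0.2)⟩ = 0 ∧
      red1 p M' A hA hpM h4 ⟨baseChangeHom (M' * p) K (y0 : ↥(FK (M' * p) K)),
        chart0_le_G1 p M' A hA hpM h4 (baseChangeHom_mem_chart0 p M' A h4 K ht y0.2)⟩ = 0 ∧
      red2 p M' A hA hpM h4 ⟨baseChangeHom (M' * p) K (y0 : ↥(FK (M' * p) K)),
        chart0_le_G2 p M' A hA hpM h4 (baseChangeHom_mem_chart0 p M' A h4 K ht y0.2)⟩ ≠ 0 ∧
      ∀ f : ↥(B0 A p ht), phi0 p M' A h4 K ht χ₀ f = 0 →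
        ∃ d a b : ↥(B0 A p ht), phi0 p M' A h4 K ht χ₀ d ≠ 0 ∧ d * f = a * x0 + b * y0 := by
  have hq : p.Prime := Fact.out
  have hF := Fermat.Agent.ES.P36.ModelInert4.frobInvAt_of_isInertial hK hq hA
  have hT := Fermat.Agent.ES.P36.RegDone21.twoGenItems_four hq hp2 hpM h4 hA hζ hF hK.1
  have hNode := Fermat.Agent.ES.P36.EisFinal4.nodeRegItems_four hq hp2 hpM h4 hA hK hζ
    (Fermat.Agent.ES.P36.RegNode21.twoGenItems10_of hT)
  obtain ⟨ht, hE, -⟩ := nodalNumData_four_at (K := K) hq hp2 hpM h4 hA hζ hF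
  have hπ : IsUnif (AK A K) ((p : ℕ) : ↥(AK A K)) :=
    Fermat.Agent.ES.P36.UnrFixed1.isUnif_natCast A hq hA K hK.1
  set 𝔪 : Ideal ↥(B0 A p ht) := RingHom.ker (phi0 p M' A h4 K ht χ₀) with h𝔪def
  have h𝔪 : 𝔪.IsMaximal := isMaxK p A hA _
  have hπ𝔪 : algebraMap ↥(AK A K) ↥(B0 A p ht) ((p : ℕ) : ↥(AK A K)) ∈ 𝔪 :=
    pi_mem_ker p M' A h4 K ht hπ χ₀ hχ₀
  have h1 : ¬ OffBranch ((p : ℕ) : ↥(AK A K)) (B0 A p ht) (O1 M' p hπ hE) 𝔪 :=
    Fermat.Agent.ES.P36.CuspOffAsm21.not_off_of_on _ _ _ _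
      (onBranch_one0 p M' A hA hpM h4 K ht hπ hE χ₀ hon₁)
  have h2 : ¬ OffBranch ((p : ℕ) : ↥(AK A K)) (B0 A p ht) (O2 M' p hπ hE) 𝔪 :=
    Fermat.Agent.ES.P36.CuspOffAsm21.not_off_of_on _ _ _ _
      (onBranch_two0 p M' A hA hpM h4 K ht hπ hE χ₀ hon₂)
  haveI h𝔪p : 𝔪.IsPrime := h𝔪.isPrime
  obtain ⟨x, y, e, hxy, hle1, hle2, hmax, hpx, hpy, hnxy, hnyx, hx2, hy1, he⟩ :=
    (hNode ht hE _ hπ).1 𝔪 h𝔪 hπ𝔪 h1 h2
  -- memberships in the Gauss rings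
  have hO1 : ∀ b : ↥(B0 A p ht), (b : ↥(FK (M' * p) K)) ∈ O1 M' p hπ hE := fun b =>
    (on_iff_one p M' A hA hpM h4 K hπ hE _).1
      (chart0_le_G1 p M' A hA hpM h4 (baseChangeHom_mem_chart0 p M' A h4 K ht b.2))
  have hO2 : ∀ b : ↥(B0 A p ht), (b : ↥(FK (M' * p) K)) ∈ O2 M' p hπ hE := fun b =>
    (on_iff_two p M' A hA hpM h4 K hπ hE _).1
      (chart0_le_G2 p M' A hA hpM h4 (baseChangeHom_mem_chart0 p M' A h4 K ht b.2))
  -- `x, y ∈ 𝔪`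
  have hxm' : algebraMap ↥(B0 A p ht) ↥(locSub (B0 A p ht) 𝔪) x ∈
      IsLocalRing.maximalIdeal ↥(locSub (B0 A p ht) 𝔪) := by
    rw [hmax]; exact Ideal.subset_span (Set.mem_insert _ _)
  have hym' : algebraMap ↥(B0 A p ht) ↥(locSub (B0 A p ht) 𝔪) y ∈
      IsLocalRing.maximalIdeal ↥(locSub (B0 A p ht) 𝔪) := by
    rw [hmax]; exact Ideal.subset_span (Set.mem_insert_of_mem _ (Set.mem_singleton _))
  have mem_of : ∀ z : ↥(B0 A p ht), algebraMap ↥(B0 A p ht) ↥(locSub (B0 A p ht) 𝔪) z ∈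
      IsLocalRing.maximalIdeal ↥(locSub (B0 A p ht) 𝔪) → z ∈ 𝔪 := by
    intro z hz
    by_contra hzm
    have hu : IsUnit (algebraMap ↥(B0 A p ht) ↥(locSub (B0 A p ht) 𝔪) z) :=
      (IsLocalization.AtPrime.isUnit_to_map_iff ↥(locSub (B0 A p ht) 𝔪) 𝔪 z).mpr hzm
    exact (IsLocalRing.mem_maximalIdeal _).1 hz hu
  have hxm : x ∈ 𝔪 := mem_of x hxm'
  have hym : y ∈ 𝔪 := mem_of y hym'
  refine ⟨ht, x, y, e, hxy, ?_, ?_, ?_, ?_, ?_, ?_, ?_, ?_⟩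
  · exact fun h0 => he (RingHom.mem_ker.2 h0)
  · exact RingHom.mem_ker.1 hxm
  · exact RingHom.mem_ker.1 hym
  · -- `red₁ (j x) ≠ 0`
    intro h0
    have hc := (on_zero_iff_one p M' A hA hpM h4 K hπ hE _ (hO1 x)).1 h0
    exact hnyx ((hy1 (algebraMap ↥(B0 A p ht) ↥(locSub (B0 A p ht) 𝔪) x)).1 hc)
  · -- `red₂ (j x) = 0`
    have hc := (hx2 (algebraMap ↥(B0 A p ht) ↥(locSub (B0 A p ht) 𝔪) x)).2 dvd_rfl
    exact (on_zero_iff_two p M' A hA hpM h4 K hπ hE _ (hO2 x)).2 hc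
  · -- `red₁ (j y) = 0`
    have hc := (hy1 (algebraMap ↥(B0 A p ht) ↥(locSub (B0 A p ht) 𝔪) y)).2 dvd_rfl
    exact (on_zero_iff_one p M' A hA hpM h4 K hπ hE _ (hO1 y)).2 hc
  · -- `red₂ (j y) ≠ 0`
    intro h0
    have hc := (on_zero_iff_two p M' A hA hpM h4 K hπ hE _ (hO2 y)).1 h0
    exact hnxy ((hx2 (algebraMap ↥(B0 A p ht) ↥(locSub (B0 A p ht) 𝔪) y)).1 hc)
  · -- generation
    intro f hf
    have hfm : f ∈ 𝔪 := RingHom.mem_ker.2 hf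
    have hf' : algebraMap ↥(B0 A p ht) ↥(locSub (B0 A p ht) 𝔪) f ∈
        IsLocalRing.maximalIdeal ↥(locSub (B0 A p ht) 𝔪) :=
      (IsLocalRing.mem_maximalIdeal _).2 (not_isUnit_of_mem (B0 A p ht) 𝔪 hfm)
    rw [hmax, Ideal.mem_span_pair] at hf'
    obtain ⟨α, β, hαβ⟩ := hf'
    obtain ⟨a₁, d₁, hd₁, hα⟩ := α.2
    obtain ⟨a₂, d₂, hd₂, hβ⟩ := β.2
    refine ⟨d₁ * d₂, a₁ * d₂, a₂ * d₁, ?_, ?_⟩
    · intro h0
      rcases h𝔪p.mem_or_mem (RingHom.mem_ker.2 h0 : d₁ * d₂ ∈ 𝔪) with h | h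
      · exact hd₁ h
      · exact hd₂ h
    · apply Subtype.ext
      have hF' : ((α : ↥(locSub (B0 A p ht) 𝔪)) : ↥(FK (M' * p) K)) * (x : ↥(FK (M' * p) K)) +
          ((β : ↥(locSub (B0 A p ht) 𝔪)) : ↥(FK (M' * p) K)) * (y : ↥(FK (M' * p) K)) =
          (f : ↥(FK (M' * p) K)) :=
        congrArg (fun z : ↥(locSub (B0 A p ht) 𝔪) => (z : ↥(FK (M' * p) K))) hαβ
      show (d₁ : ↥(FK (M' * p) K)) * (d₂ : ↥(FK (M' * p) K)) * (f : ↥(FK (M' * p) K)) =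
        (a₁ : ↥(FK (M' * p) K)) * (d₂ : ↥(FK (M' * p) K)) * (x : ↥(FK (M' * p) K)) +
        (a₂ : ↥(FK (M' * p) K)) * (d₁ : ↥(FK (M' * p) K)) * (y : ↥(FK (M' * p) K))
      rw [← hF', ← hα, ← hβ]
      ring

end KLevel

/-! ### the package at the nodes of the concrete datum -/

section Datum

open Fermat.Agent.FF.BASE.Place2 Fermat.Agent.ORD.IFACEN.Centre8 Fermat.Agent.ORD.IFACEN.AtlasPts6
  Fermat.Agent.ORD.IFACEN.PtsDict3 Fermat.Agent.ORD.IFACEN.PtsAssembly3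
  Fermat.Agent.ORD.IFACEN.TwoCompAssembly3 Fermat.Agent.ORD.IFACEN.AtlasSplit6
  Fermat.Agent.MP.FINAL.MainDatum6
  Fermat.Agent.ORD.SEMIRED.SemiRedDatum9 Fermat.Agent.ORD.SEMIRED.ToSemiRed9
  Fermat.Agent.ORD.IFACEN.AssembleN9

variable {p M' : ℕ} [Fact p.Prime] [NeZero M'] (hpM : ¬ p ∣ M') (h4 : 4 ∣ M') (hp2 : p ≠ 2)

/-- **The regular coordinates of Program P at a node `e` of the concrete datum**, at the finite
level `K`: `x0 y0 e0 ∈ B0_K`, `X := j x0`, `Y := j y0`, `E := j e0` (`j = baseChangeHom (M' p) K`). -/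
structure NodePkg (e : Nodes hpM h4 hp2) (K : IntermediateField ℚ Qbar)
    (ht : tq ↥K 4 8 ∈ FK M' K) (x0 y0 e0 : ↥(B0 (padicPlace p) p ht)) : Prop where
  /-- thickness one at level `K` -/
  mulK : x0 * y0 = algebraMap ↥(AK (padicPlace p) K) ↥(B0 (padicPlace p) p ht)
    ((p : ℕ) : ↥(AK (padicPlace p) K)) * e0
  /-- thickness one over `ℚ̄` -/
  mul : baseChangeHom (M' * p) K (x0 : ↥(FK (M' * p) K)) *
      baseChangeHom (M' * p) K (y0 : ↥(FK (M' * p) K)) =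
    algebraMap Qbar ↥(Fbar (M' * p)) ((p : ℕ) : Qbar) *
      baseChangeHom (M' * p) K (e0 : ↥(FK (M' * p) K))
  /-- the level chart lies in the local ring of the node -/
  mem : ∀ b : ↥(B0 (padicPlace p) p ht),
    baseChangeHom (M' * p) K (b : ↥(FK (M' * p) K)) ∈ ringPts e.1
  chi_X : chiPts e.1 ⟨_, mem x0⟩ = 0
  chi_Y : chiPts e.1 ⟨_, mem y0⟩ = 0
  chi_E : chiPts e.1 ⟨_, mem e0⟩ ≠ 0
  /-- the level chart lies in both Gauss rings -/
  mem_G : ∀ (v : Fin 2) (b : ↥(B0 (padicPlace p) p ht)),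
    baseChangeHom (M' * p) K (b : ↥(FK (M' * p) K)) ∈ (datum hpM h4 hp2).G v
  red0_X : (datum hpM h4 hp2).red 0 ⟨_, mem_G 0 x0⟩ ≠ 0
  red1_X : (datum hpM h4 hp2).red 1 ⟨_, mem_G 1 x0⟩ = 0
  red0_Y : (datum hpM h4 hp2).red 0 ⟨_, mem_G 0 y0⟩ = 0
  red1_Y : (datum hpM h4 hp2).red 1 ⟨_, mem_G 1 y0⟩ ≠ 0
  /-- GENERATION: the closed point of level `K` is generated by `x0, y0` up to units -/
  gen : ∀ f : ↥(B0 (padicPlace p) p ht), chiPts e.1 ⟨_, mem f⟩ = 0 →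
    ∃ d a b : ↥(B0 (padicPlace p) p ht), chiPts e.1 ⟨_, mem d⟩ ≠ 0 ∧ d * f = a * x0 + b * y0

theorem baseChangeHom_natCast (N : ℕ) [NeZero N] (A : ValuationSubring Qbar)
    (K : IntermediateField ℚ Qbar) (n : ℕ) :
    baseChangeHom N K (algebraMap ↥(AK A K) ↥(FK N K) ((n : ℕ) : ↥(AK A K))) =
      algebraMap Qbar ↥(Fbar N) ((n : ℕ) : Qbar) := by
  rw [map_natCast, map_natCast, map_natCast]

set_option maxHeartbeats 2000000 in
/-- **the package exists at every node, for every finite inertial `K ∋ ζ_{M'}`.** -/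
theorem exists_nodePkg (e : Nodes hpM h4 hp2) (K : IntermediateField ℚ Qbar)
    [FiniteDimensional ℚ K] (hK : IsInertial (padicPlace p) K) (hζ : zetaK M' ∈ K) :
    ∃ (ht : tq ↥K 4 8 ∈ FK M' K) (x0 y0 e0 : ↥(B0 (padicPlace p) p ht)),
      NodePkg hpM h4 hp2 e K ht x0 y0 e0 := by
  rcases e with ⟨x₀ | y, hn⟩
  swap
  · exfalso
    obtain ⟨x₀, hx₀⟩ := Fermat.Agent.MP.TH.Cusp2.h0 hpM h4 hp2 ⟨Sum.inr y, hn⟩
    exact Sum.inr_ne_inl hx₀
  have hon₁ : ∀ b : ↥(chart ↥(padicPlace p) (tB p M' h4)),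
      red1 p M' (padicPlace p) (liesOverPrime (ℓ := p)) hpM h4
        ⟨(b : ↥(Fbar (M' * p))),
          chart0_le_G1 p M' (padicPlace p) (liesOverPrime (ℓ := p)) hpM h4 b.2⟩ = 0 →
        x₀.χ b = 0 := fun b hb => hn.1 b hb
  have hon₂ : ∀ b : ↥(chart ↥(padicPlace p) (tB p M' h4)),
      red2 p M' (padicPlace p) (liesOverPrime (ℓ := p)) hpM h4
        ⟨(b : ↥(Fbar (M' * p))),
          chart0_le_G2 p M' (padicPlace p) (liesOverPrime (ℓ := p)) hpM h4 b.2⟩ = 0 →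
        x₀.χ b = 0 := fun b hb => hn.2 b hb
  obtain ⟨ht, x0, y0, e0, hmul, hE, hX, hY, h1X, h2X, h1Y, h2Y, hgen⟩ :=
    exists_reg0 p M' (padicPlace p) (liesOverPrime (ℓ := p)) hpM h4 K hp2 hK hζ x₀.χ x₀.const
      hon₁ hon₂
  have hmem : ∀ b : ↥(B0 (padicPlace p) p ht),
      baseChangeHom (M' * p) K (b : ↥(FK (M' * p) K)) ∈
        locC (chart ↥(padicPlace p) (tB p M' h4)) x₀.χ := fun b =>
    le_locC _ _ (baseChangeHom_mem_chart0 p M' (padicPlace p) h4 K ht b.2)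
  have hchi : ∀ b : ↥(B0 (padicPlace p) p ht),
      chiC (chart ↥(padicPlace p) (tB p M' h4)) x₀.χ ⟨_, hmem b⟩ =
        phi0 p M' (padicPlace p) h4 K ht x₀.χ b := fun b =>
    chiC_ofBA (chart ↥(padicPlace p) (tB p M' h4)) x₀.χ
      ⟨_, baseChangeHom_mem_chart0 p M' (padicPlace p) h4 K ht b.2⟩
  refine ⟨ht, x0, y0, e0, ?_⟩
  refine
    { mulK := hmul
      mul := ?_
      mem := hmem
      chi_X := (hchi x0).trans hX
      chi_Y := (hchi y0).trans hY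
      chi_E := fun h => hE ((hchi e0).symm.trans h)
      mem_G := ?_
      red0_X := h1X
      red1_X := h2X
      red0_Y := h1Y
      red1_Y := h2Y
      gen := ?_ }
  · have h := congrArg (fun z : ↥(B0 (padicPlace p) p ht) =>
      baseChangeHom (M' * p) K (z : ↥(FK (M' * p) K))) hmul
    simp only [MulMemClass.coe_mul, map_mul] at h
    rw [h]
    congr 1
    exact baseChangeHom_natCast (M' * p) (padicPlace p) K p
  · intro v b
    fin_cases v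
    · exact chart0_le_G1 p M' (padicPlace p) (liesOverPrime (ℓ := p)) hpM h4
        (baseChangeHom_mem_chart0 p M' (padicPlace p) h4 K ht b.2)
    · exact chart0_le_G2 p M' (padicPlace p) (liesOverPrime (ℓ := p)) hpM h4
        (baseChangeHom_mem_chart0 p M' (padicPlace p) h4 K ht b.2)
  · intro f hf
    obtain ⟨d, a, b, hd, hdf⟩ := hgen f ((hchi f).symm.trans hf)
    exact ⟨d, a, b, fun h => hd ((hchi d).symm.trans h), hdf⟩

end Datum

end Fermat.Agent.MP.TH.RegNode2
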