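/-
Programme MP (row 38 via S44), chapter TH (helper7): **(I2') the degeneracy image `S = β t = t(q^p)`
of the Hauptmodul is unbranched at the non-cuspidal places of `X₀(M p)`**, and the consequence for
the differential quotient `ψ = dS/dT`.

`4 ∣ M`, `t = tq 4 8` the Hauptmodul of `X₀(4)`, `T := tF (M * p) _` (= `α t`, the same Laurent
series) and `S := heckeBetaBar ℚ̄ M p (tF M _)` (= `t(q^p)`) in `F = ℚ̄ · F_{M p}`.

* `ordH_comp_scaleH` : `ord_{z₀} (f(d z)) = ord_{d z₀} f`;
* `realize_beta` : `Θ_{M p}(β x)(z) = Θ_M(x)(p z)` on `R_M = ℚ̄[j_d : d ∣ M]`;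
* `isRealizedBy_beta` : if `x ∈ F_M` is realised by `τ` then `β x` is realised by `z ↦ τ(p z)`;
* `ordH_tau_sub_le_one` : `ord_z (τ − c) ≤ 1` at EVERY `z ∈ ℍ` with `j(z)` algebraic
  (from the base level `4`, where `ℚ̄(t) = F_4`);
* **`exists_ord_beta_sub_eq_one`** : at every place `v` of `F` with `0 ≤ ord_v j` there is `c` with
  `ord_v (S − c) = 1`;
* `exists_ord_alpha_sub_eq_one` : the same for `T` (restatement of `Unbranched 4 8 (M * p)`);
* **`ord_eq_zero_of_D_eq_smul`** : if `D S = ψ • D T` in `Ω[F⁄ℚ̄]` then `ord_v ψ = 0` at every such `v`.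
-/
import Mathlib
import Fermat.Agent.RED.BASE.Main12
import Fermat.Agent.RED.BASE.UnbranchedMain14
import Fermat.Agent.X0.FFDiff
import Fermat.Prelude.Def_ModularCurve_HeckeOperator

set_option autoImplicit false
set_option linter.unusedSectionVars false
set_option linter.style.longLine false
set_option linter.style.haveILetI false
set_option synthInstance.maxHeartbeats 400000

open UpperHalfPlane hiding I
open Complex Filter Topology
open scoped MatrixGroups IntermediateField Manifold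

noncomputable section

namespace Fermat.Agent.MP.TH.Unram7

open Fermat.Agent.X0 Fermat.Agent.X0.FF AlgebraicCurve ModularCurve
open Fermat.Agent.X0.PointPlacesD Fermat.Agent.X0.PointPlaces
open Fermat.Agent.RED.BASE.Interface12 Fermat.Agent.RED.BASE.EtaQuot12
open Fermat.Agent.RED.BASE.NoElliptic14 Fermat.Agent.RED.BASE.Unbranched14

/-! ### 1. scaling `z ↦ d z` -/

/-- the scaling map on `ℂ`. -/
def scaleC (d : ℕ) (w : ℂ) : ℂ := (d : ℂ) * w

theorem hasDerivAt_scaleC (d : ℕ) (w : ℂ) : HasDerivAt (scaleC d) (d : ℂ) w := by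
  have h := (hasDerivAt_id w).const_mul (d : ℂ)
  rw [mul_one] at h
  exact h

theorem analyticAt_scaleC (d : ℕ) (w : ℂ) : AnalyticAt ℂ (scaleC d) w := by
  have h : DifferentiableOn ℂ (scaleC d) Set.univ := fun w _ =>
    (hasDerivAt_scaleC d w).differentiableAt.differentiableWithinAt
  exact h.analyticAt (isOpen_univ.mem_nhds (Set.mem_univ w))

theorem deriv_scaleC_ne_zero (d : ℕ) [NeZero d] (w : ℂ) : deriv (scaleC d) w ≠ 0 := by
  rw [(hasDerivAt_scaleC d w).deriv]
  exact Nat.cast_ne_zero.mpr (NeZero.ne d)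

theorem scaleC_im_pos (d : ℕ) [NeZero d] {w : ℂ} (hw : 0 < w.im) : 0 < (scaleC d w).im := by
  have hd : 0 < (d : ℝ) := by exact_mod_cast Nat.pos_of_ne_zero (NeZero.ne d)
  have : (scaleC d w).im = d * w.im := by simp [scaleC]
  rw [this]
  exact mul_pos hd hw

theorem comp_scaleH_comp_ofComplex (f : ℍ → ℂ) (d : ℕ) [NeZero d] {w : ℂ} (hw : 0 < w.im) :
    ((fun z => f (scaleH d z)) ∘ ofComplex) w = ((f ∘ ofComplex) ∘ scaleC d) w := by
  simp only [Function.comp_apply]
  congr 1
  rw [ofComplex_apply_of_im_pos hw, ofComplex_apply_of_im_pos (scaleC_im_pos d hw)]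
  rfl

theorem comp_scaleH_mem_HolH {f : ℍ → ℂ} (hf : f ∈ HolH) (d : ℕ) [NeZero d] :
    (fun z => f (scaleH d z)) ∈ HolH := by
  rw [mem_HolH, UpperHalfPlane.mdifferentiable_iff]
  have h1 : DifferentiableOn ℂ (f ∘ ofComplex) upperHalfPlaneSet :=
    UpperHalfPlane.mdifferentiable_iff.mp hf
  have h2 : DifferentiableOn ℂ ((f ∘ ofComplex) ∘ scaleC d) upperHalfPlaneSet := by
    apply h1.comp
    · intro w _
      exact (hasDerivAt_scaleC d w).differentiableAt.differentiableWithinAt
    · intro w hw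
      exact scaleC_im_pos d hw
  exact h2.congr fun w hw => comp_scaleH_comp_ofComplex f d hw

/-- **the order at `z₀` of `z ↦ f(d z)` is the order of `f` at `d z₀`.** -/
theorem ordH_comp_scaleH (f : ℍ → ℂ) (d : ℕ) [NeZero d] (z₀ : ℍ) :
    ordH (fun z => f (scaleH d z)) z₀ = ordH f (scaleH d z₀) := by
  unfold ordH
  have he : ((fun z => f (scaleH d z)) ∘ ofComplex) =ᶠ[𝓝 (z₀ : ℂ)] (f ∘ ofComplex) ∘ scaleC d := by
    filter_upwards [isOpen_upperHalfPlaneSet.mem_nhds z₀.im_pos] with w hw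
    exact comp_scaleH_comp_ofComplex f d hw
  rw [analyticOrderAt_congr he,
    analyticOrderAt_comp_of_deriv_ne_zero (analyticAt_scaleC d _) (deriv_scaleC_ne_zero d _)]
  rfl

/-! ### 2. the degeneracy map `β` and the analytic realisation -/

section Beta

variable (M p : ℕ) [NeZero M] [NeZero p]

/-- `β = V_p : f(q) ↦ f(q^p)` from level `M` to level `M p`. -/
abbrev beta : FF M →ₐ[Kbar] FF (M * p) := heckeBetaBar Kbar M p

theorem coe_beta (x : FF M) :
    ((beta M p x : FF (M * p)) : LaurentSeries Kbar) = qExpand Kbar p (x : LaurentSeries Kbar) :=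
  coe_heckeBetaBar M p x

theorem beta_injective : Function.Injective (beta M p) := (beta M p).toRingHom.injective

theorem beta_mem_genSet {x : FF M} (hx : x ∈ genSet M) : beta M p x ∈ genSet (M * p) := by
  obtain ⟨d, hd0, hd, rfl⟩ := hx
  haveI : NeZero (p * d) := ⟨Nat.mul_ne_zero (NeZero.ne p) (NeZero.ne d)⟩
  refine ⟨p * d, inferInstance, by rw [mul_comm M p]; exact Nat.mul_dvd_mul_left p hd, ?_⟩
  apply Subtype.ext
  rw [coe_beta]
  show qExpand Kbar p (coeffEmb Kbar (qExpand ℚ d jq)) = coeffEmb Kbar (qExpand ℚ (p * d) jq)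
  rw [← qExpand_qExpand]
  exact (Fermat.Agent.X0.CuspGood.coeffMap_qExpand (algebraMap ℚ Kbar) p (qExpand ℚ d jq)).symm

theorem beta_mem_Rsub {x : FF M} (hx : x ∈ Rsub M) : beta M p x ∈ Rsub (M * p) := by
  have h1 : (Rsub M).map (beta M p) = Algebra.adjoin Kbar (beta M p '' genSet M) :=
    AlgHom.map_adjoin (beta M p) (genSet M)
  have h2 : Algebra.adjoin Kbar (beta M p '' genSet M) ≤ Rsub (M * p) := by
    apply Algebra.adjoin_mono
    rintro _ ⟨x, hx, rfl⟩
    exact beta_mem_genSet M p hx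
  exact h2 (h1 ▸ ⟨x, hx, rfl⟩)

/-- `β` on `R_M = ℚ̄[j_d : d ∣ M]`. -/
def betaR (x : Rsub M) : Rsub (M * p) := ⟨beta M p x, beta_mem_Rsub M p x.2⟩

@[simp] theorem coe_betaR (x : Rsub M) : ((betaR M p x : Rsub (M * p)) : FF (M * p)) = beta M p x :=
  rfl

/-- **`Θ_{M p}(β x)(z) = Θ_M(x)(p z)`.** -/
theorem realize_beta (x : Rsub M) :
    realize (M * p) (betaR M p x) = fun z => realize M x (scaleH p z) := by
  apply realize_eq_of_hasQExp
  have h := (hasQExp_realize M x).qExpand p
  have e : Analytic.toC (((betaR M p x : Rsub (M * p)) : FF (M * p)) : LaurentSeries Kbar)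
      = qExpand ℂ p (Analytic.toC ((x : FF M) : LaurentSeries Kbar)) := by
    rw [coe_betaR, coe_beta]
    exact Fermat.Agent.X0.CuspGood.coeffMap_qExpand iotaK p _
  rw [e]
  exact h

/-- if `x` is realised by `τ` at level `M`, then `β x` is realised by `z ↦ τ(p z)` at level `M p`. -/
theorem isRealizedBy_beta {x : FF M} {τ : ℍ → ℂ} (hx : IsRealizedBy (realizeData M) x τ) :
    IsRealizedBy (realizeData (M * p)) (beta M p x) (fun z => τ (scaleH p z)) := by
  obtain ⟨a, b, hb, hab, hΘ⟩ := hx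
  refine ⟨betaR M p a, betaR M p b, ?_, ?_, ?_⟩
  · intro h0
    apply hb
    have h1 : beta M p (b : FF M) = 0 := congrArg Subtype.val h0
    have h2 : (b : FF M) = 0 := beta_injective M p (by rw [h1, map_zero])
    exact Subtype.ext h2
  · rw [coe_betaR, coe_betaR, ← map_mul, hab]
  · intro z
    rw [realizeData_Θ, realize_beta, realize_beta]
    have := hΘ (scaleH p z)
    rw [realizeData_Θ] at this
    exact this

end Beta

/-! ### 3. the base level: every zero of `τ − c` is simple -/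

section Base

instance neZero_four7 : NeZero 4 := ⟨by norm_num⟩

open Fermat.Agent.RED.BASE.UnbranchedMain14 Fermat.Agent.RED.BASE.Main12 in
/-- **at every point `z` of `ℍ` with algebraic `j(z)`, the order of `τ − c` is at most `1`**
(`τ` the analytic Hauptmodul of `X₀(4)`; `ℚ̄(t) = F_4`). -/
theorem ordH_tau_sub_le_one (z : ℍ) (cj : Kbar) (hc : jFun z = iotaK cj) (c : Kbar) :
    ordH (fun w => tauFun 4 8 w - iotaK c) z ≤ 1 := by
  have B := baseExports_four 4 (dvd_refl 4)
  obtain ⟨h, a, b, hb, hab, hΘ⟩ := B.realizeBase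
  obtain ⟨h', htop⟩ := B.genBase
  obtain ⟨hgen, hdeg⟩ := isGen_of_adjoin_eq_top (transcendental_jF 4) htop
  have ht₀ : IsRealizedBy (realizeData 4) (tF 4 h) (tauFun 4 8) := ⟨a, b, hb, hab, hΘ⟩
  have h2 : ModularCurve.nuTwo 4 = 0 := nuTwo_eq_zero (Or.inl (dvd_refl 4))
  have h3 : ModularCurve.nuThree 4 = 0 := nuThree_eq_zero (Or.inl (dvd_refl 4))
  have hτ := tauFun_mem_HolH 4 8
  have hne₀ : tF 4 h - algebraMap Kbar (FF 4) c ≠ 0 := by
    intro h0
    apply hgen.transcendental
    rw [sub_eq_zero.mp h0]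
    exact isAlgebraic_algebraMap c
  have e₀ := ord_sub_eq_ordH (realizeData 4) (cuspData 4) h2 h3 hτ ht₀ z cj hc 1 c hne₀
  rw [inv_one, compSL_one] at e₀
  have hσ : (fun w => tauFun 4 8 w - iotaK c) ∈ HolH :=
    HolH.sub_mem hτ (HolH.algebraMap_mem (iotaK c))
  have hσ0 : (fun w => tauFun 4 8 w - iotaK c) ≠ 0 := by
    intro h0
    apply hne₀
    have hconst : tauFun 4 8 = fun _ => iotaK c := by
      funext w
      have := congrFun h0 w
      simp only [Pi.zero_apply] at this
      linear_combination this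
    rw [hconst] at ht₀
    rw [eq_algebraMap_of_isRealizedBy_const (realizeData 4) c ht₀, sub_self]
  have htop' := ordH_ne_top hσ hσ0 z
  have hle : (pointPlaceD (realizeData 4) z cj hc 1).ord (tF 4 h - algebraMap Kbar (FF 4) c) ≤ 1 := by
    by_contra hgt
    push Not at hgt
    have h1 := ord_eq_one_of_finrank_eq_one hgen hdeg c _ (by omega :
      0 < (pointPlaceD (realizeData 4) z cj hc 1).ord (tF 4 h - algebraMap Kbar (FF 4) c))
    omega
  rw [e₀] at hle
  have hnat : (ordH (fun w => tauFun 4 8 w - iotaK c) z).toNat ≤ 1 := by exact_mod_cast hle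
  rw [← ENat.natCast_toNat htop']
  exact_mod_cast hnat

end Base

/-! ### 4. `S = β t` is unbranched off the cusps -/

section Main

variable (M p : ℕ) [NeZero M] [NeZero p]

open Fermat.Agent.RED.BASE.UnbranchedMain14 Fermat.Agent.RED.BASE.Main12

/-- the value of `j(p z)` at a point place is algebraic. -/
theorem exists_jFun_scaleH_eq (N p : ℕ) [NeZero N] [NeZero p] (hpN : p ∣ N)
    (z₀ : ℍ) (cj : Kbar) (hc : jFun z₀ = iotaK cj) (g : SL(2, ℤ)) :
    ∃ c₂ : Kbar, jFun (scaleH p (g⁻¹ • z₀)) = iotaK c₂ := by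
  set D := realizeData N with hD
  have C := cuspData N
  set v := pointPlaceD D z₀ cj hc g with hv
  set u : Rsub N := ⟨jdF N p hpN, Algebra.subset_adjoin ⟨p, inferInstance, hpN, rfl⟩⟩ with hu
  have hΘu : D.Θ u = jdFun p := realize_jdF N p hpN
  have hgenj := Degree.isGen_jF N D C
  -- elements of `R` are regular at point places
  have hreg : ∀ w : Rsub N, w ≠ 0 → 0 ≤ v.ord (w : FF N) := by
    intro w hw
    have h1 := pointPlaceD_spec D z₀ cj hc g w hw
    rw [← hv] at h1
    have hm := pointMultD_pos D z₀ cj hc g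
    by_contra hneg
    push Not at hneg
    have h2 : (pointMultD D z₀ cj hc g : ℤ) * v.ord (w : FF N) < 0 :=
      mul_neg_of_pos_of_neg (by exact_mod_cast hm) hneg
    have h3 : (0 : ℤ) ≤ ((ordH (compSL (D.Θ w) g⁻¹) z₀).toNat : ℤ) := Int.natCast_nonneg _
    omega
  have hu0 : u ≠ 0 := by
    intro h0
    have h1 : D.Θ u = 0 := by rw [h0, map_zero]
    rw [hΘu] at h1
    have hj : jdFun p = fun z => jFun (scaleH p z) := rfl
    -- `j` is surjective, so `jdFun p` is not identically zero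
    obtain ⟨w, hw⟩ := jFun_surjective 1
    have hp : 0 < (p : ℝ) := by exact_mod_cast Nat.pos_of_ne_zero (NeZero.ne p)
    have him : 0 < ((w : ℂ) / (p : ℂ)).im := by
      have : ((w : ℂ) / (p : ℂ)).im = (w : ℂ).im / p := Complex.div_natCast_im _ _
      rw [this]
      exact div_pos w.im_pos hp
    have h3 := congrFun h1 (⟨(w : ℂ) / p, him⟩ : ℍ)
    rw [hj] at h3
    simp only [Pi.zero_apply] at h3
    have h4 : scaleH p (⟨(w : ℂ) / p, him⟩ : ℍ) = w := by
      apply UpperHalfPlane.ext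
      rw [coe_scaleH]
      show (p : ℂ) * ((w : ℂ) / p) = w
      have hp' : (p : ℂ) ≠ 0 := Nat.cast_ne_zero.mpr (NeZero.ne p)
      field_simp
    rw [h4, hw] at h3
    exact one_ne_zero h3
  have hmem : (u : FF N) ∈ v.toValuationSubring := ffp_mem_of_ord_nonneg v (hreg u hu0)
  obtain ⟨c₂, hc₂ | hc₂⟩ := exists_ord_sub_pos hgenj v hmem
  · refine ⟨c₂, ?_⟩
    have h1 : u = algebraMap Kbar (Rsub N) c₂ := Subtype.ext hc₂
    have h2 : D.Θ u = fun _ => iotaK c₂ := by rw [h1]; exact D.algebraMap_eq c₂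
    rw [hΘu] at h2
    exact congrFun h2 (g⁻¹ • z₀)
  · refine ⟨c₂, ?_⟩
    set u' : Rsub N := u - algebraMap Kbar (Rsub N) c₂ with hu'
    have hcoe : ((u' : Rsub N) : FF N) = (u : FF N) - algebraMap Kbar (FF N) c₂ := rfl
    have hu'0 : u' ≠ 0 := by
      intro h0
      have h00 : ((u' : Rsub N) : FF N) = 0 := by rw [h0]; rfl
      rw [hcoe] at h00
      rw [h00, Place.ord_zero] at hc₂
      exact lt_irrefl _ hc₂
    have h1 := pointPlaceD_spec D z₀ cj hc g u' hu'0
    rw [← hv, hcoe] at h1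
    have hm := pointMultD_pos D z₀ cj hc g
    have hpos : (0 : ℤ) < ((ordH (compSL (D.Θ u') g⁻¹) z₀).toNat : ℤ) := by
      rw [h1]
      exact mul_pos (by exact_mod_cast hm) hc₂
    have hne0 : ordH (compSL (D.Θ u') g⁻¹) z₀ ≠ 0 := by
      intro h0
      rw [h0] at hpos
      simp at hpos
    have hhol : compSL (D.Θ u') g⁻¹ ∈ HolH := compSL_mem_HolH (D.mem_HolH u') g⁻¹
    have hval : compSL (D.Θ u') g⁻¹ z₀ = 0 := by
      by_contra hnz
      exact hne0 ((ordH_eq_zero_iff hhol z₀).mpr hnz)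
    have hΘu' : D.Θ u' = fun z => jdFun p z - iotaK c₂ := by
      rw [hu', map_sub, D.algebraMap_eq, hΘu]
      rfl
    rw [hΘu'] at hval
    have : jdFun p (g⁻¹ • z₀) - iotaK c₂ = 0 := hval
    exact sub_eq_zero.mp this

/-- **(I2') `S = β t` is unbranched at the non-cuspidal places of `X₀(M p)`.** -/
theorem exists_ord_beta_sub_eq_one (h4 : 4 ∣ M) (hmem : TMem 4 8 M)
    (v : Place Kbar (FF (M * p))) (hv : 0 ≤ v.ord (jF (M * p))) :
    ∃ c : Kbar, v.ord (beta M p (tF M hmem) - algebraMap Kbar (FF (M * p)) c) = 1 := by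
  set D := realizeData (M * p) with hD
  have C := cuspData (M * p)
  have h4N : 4 ∣ M * p := Dvd.dvd.mul_right h4 p
  have h2 : ModularCurve.nuTwo (M * p) = 0 := nuTwo_eq_zero (Or.inl h4N)
  have h3 : ModularCurve.nuThree (M * p) = 0 := nuThree_eq_zero (Or.inl h4N)
  have B := baseExports_four M h4
  obtain ⟨h, a, b, hb, hab, hΘ⟩ := B.realize
  obtain ⟨h', hgenM⟩ := B.isGen
  have hS : IsRealizedBy D (beta M p (tF M hmem)) (fun z => tauFun 4 8 (scaleH p z)) :=
    isRealizedBy_beta M p (x := tF M hmem) ⟨a, b, hb, hab, hΘ⟩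
  have hτ := tauFun_mem_HolH 4 8
  have hτp : (fun z => tauFun 4 8 (scaleH p z)) ∈ HolH := comp_scaleH_mem_HolH hτ p
  have htr : Transcendental Kbar (beta M p (tF M hmem)) := by
    intro halg
    obtain ⟨c, hc⟩ := eq_algebraMap_of_isAlgebraic halg
    have h1 : beta M p (tF M hmem) = beta M p (algebraMap Kbar (FF M) c) := by
      rw [hc, AlgHom.commutes]
    have h2' := beta_injective M p h1
    apply hgenM.transcendental
    show IsAlgebraic Kbar (tF M hmem)
    rw [h2']
    exact isAlgebraic_algebraMap c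
  obtain ⟨z₀, cj, hc, g, rfl⟩ := exists_pointPlaceD_eq_of_ord_nonneg D C v hv
  have hreg := ord_nonneg_of_isRealizedBy D C h2 h3 hτp hS z₀ cj hc g
  have hmemS : beta M p (tF M hmem) ∈ (pointPlaceD D z₀ cj hc g).toValuationSubring :=
    ffp_mem_of_ord_nonneg _ hreg
  have hgenj := Degree.isGen_jF (M * p) D C
  obtain ⟨c, hc' | hc'⟩ := exists_ord_sub_pos hgenj (pointPlaceD D z₀ cj hc g) hmemS
  · exfalso
    apply htr
    rw [hc']
    exact isAlgebraic_algebraMap c
  · refine ⟨c, ?_⟩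
    have hne : beta M p (tF M hmem) - algebraMap Kbar (FF (M * p)) c ≠ 0 := by
      intro h0
      rw [h0, Place.ord_zero] at hc'
      exact lt_irrefl _ hc'
    have e := ord_sub_eq_ordH D C h2 h3 hτp hS z₀ cj hc g c hne
    have hσ : (fun z => tauFun 4 8 (scaleH p z) - iotaK c) ∈ HolH :=
      HolH.sub_mem hτp (HolH.algebraMap_mem (iotaK c))
    rw [ordH_compSL hσ g⁻¹ z₀] at e
    have e2 : ordH (fun z => tauFun 4 8 (scaleH p z) - iotaK c) (g⁻¹ • z₀)
        = ordH (fun w => tauFun 4 8 w - iotaK c) (scaleH p (g⁻¹ • z₀)) :=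
      ordH_comp_scaleH (fun w => tauFun 4 8 w - iotaK c) p (g⁻¹ • z₀)
    rw [e2] at e
    obtain ⟨c₂, hc₂⟩ := exists_jFun_scaleH_eq (M * p) p (Dvd.intro_left M rfl) z₀ cj hc g
    have hle := ordH_tau_sub_le_one (scaleH p (g⁻¹ • z₀)) c₂ hc₂ c
    have hnat : (ordH (fun w => tauFun 4 8 w - iotaK c) (scaleH p (g⁻¹ • z₀))).toNat ≤ 1 := by
      have := ENat.toNat_le_toNat hle (by simp)
      simpa using this
    have : (pointPlaceD D z₀ cj hc g).ord (beta M p (tF M hmem) - algebraMap Kbar (FF (M * p)) c) ≤ 1 := by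
      rw [e]
      exact_mod_cast hnat
    omega

/-- **`T = α t` is unbranched at the non-cuspidal places** (restatement of `Unbranched 4 8 N`). -/
theorem exists_ord_alpha_sub_eq_one (N : ℕ) [NeZero N] (h4 : 4 ∣ N) (hmem : TMem 4 8 N)
    (v : Place Kbar (FF N)) (hv : 0 ≤ v.ord (jF N)) :
    ∃ c : Kbar, v.ord (tF N hmem - algebraMap Kbar (FF N) c) = 1 := by
  obtain ⟨h, hU⟩ := (baseExports_four N h4).unbranched
  exact hU v hv

end Main

/-! ### 5. differentials at an unramified place -/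

section Diff

open KaehlerDifferential

variable {K F : Type*} [Field K] [Field F] [Algebra K F] [CharZero K] [IsAlgClosed K] {x : F}

/-- if `t − c` is a uniformiser at `v` then `dt` has order `0` at `v`. -/
theorem ordDifferential_D_of_unif (hx : IsGen K x) (v : Place K F) {t : F} {c : K}
    (ht : v.ord (t - algebraMap K F c) = 1) : v.ordDifferential (D K F t) = 0 := by
  have h1 := ordDifferential_D_of_ord_ne_zero hx v (y := t - algebraMap K F c)
    (by rw [ht]; exact one_ne_zero)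
  rw [map_sub, Derivation.map_algebraMap, sub_zero, ht, sub_self] at h1
  exact h1

theorem D_ne_zero_of_unif (hx : IsGen K x) (v : Place K F) {t : F} {c : K}
    (ht : v.ord (t - algebraMap K F c) = 1) : D K F t ≠ 0 := by
  have htr : Transcendental K (t - algebraMap K F c) :=
    ffp_transcendental_of_ord_ne_zero v (by rw [ht]; exact one_ne_zero)
  have h := D_ne_zero (hx.of_transcendental htr)
  rwa [map_sub, Derivation.map_algebraMap, sub_zero] at h

/-- **the derivative with respect to an unramified coordinate preserves regularity**: if `t − c` is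
a uniformiser at `v`, `a` is regular at `v` and `da = δ dt`, then `δ` is regular at `v`. -/
theorem ord_nonneg_of_D_eq_smul (hx : IsGen K x) (v : Place K F) {t a δ : F} {c : K}
    (ht : v.ord (t - algebraMap K F c) = 1) (ha : 0 ≤ v.ord a)
    (hδ : D K F a = δ • D K F t) : 0 ≤ v.ord δ := by
  rcases eq_or_ne δ 0 with rfl | hδ0
  · rw [Place.ord_zero]
  have hDt := D_ne_zero_of_unif hx v ht
  have h1 := ordDifferential_smul' hx v hδ0 hDt
  rw [← hδ, ordDifferential_D_of_unif hx v ht, add_zero] at h1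
  rw [← h1]
  exact ord_differentialCoeff_D_nonneg hx v ha

/-- **the differential quotient of two unramified coordinates is a unit**: if `t − c` and `s − c'`
are uniformisers at `v` and `ds = ψ dt`, then `ord_v ψ = 0`. -/
theorem ord_eq_zero_of_D_eq_smul' (hx : IsGen K x) (v : Place K F) {t s ψ : F} {c c' : K}
    (ht : v.ord (t - algebraMap K F c) = 1) (hs : v.ord (s - algebraMap K F c') = 1)
    (hψ : D K F s = ψ • D K F t) : v.ord ψ = 0 := by
  have hDt := D_ne_zero_of_unif hx v ht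
  have hDs := D_ne_zero_of_unif hx v hs
  have hψ0 : ψ ≠ 0 := by
    rintro rfl
    rw [zero_smul] at hψ
    exact hDs hψ
  have h1 := ordDifferential_smul' hx v hψ0 hDt
  rw [← hψ, ordDifferential_D_of_unif hx v ht, ordDifferential_D_of_unif hx v hs, add_zero] at h1
  exact h1.symm

end Diff

section DiffX0

open KaehlerDifferential Fermat.Agent.RED.BASE.Main12

variable (M p : ℕ) [NeZero M] [NeZero p]

/-- **`ψ = dS/dT` has neither zero nor pole at the non-cuspidal places of `X₀(M p)`.** -/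
theorem ord_eq_zero_of_D_eq_smul (h4 : 4 ∣ M) (hmem : TMem 4 8 M) (hmemN : TMem 4 8 (M * p))
    (ψ : FF (M * p))
    (hψ : D Kbar (FF (M * p)) (beta M p (tF M hmem)) = ψ • D Kbar (FF (M * p)) (tF (M * p) hmemN))
    (v : Place Kbar (FF (M * p))) (hv : 0 ≤ v.ord (jF (M * p))) : v.ord ψ = 0 := by
  have hgenj := Degree.isGen_jF (M * p) (realizeData (M * p)) (cuspData (M * p))
  obtain ⟨c, hc⟩ := exists_ord_alpha_sub_eq_one (M * p) (Dvd.dvd.mul_right h4 p) hmemN v hv
  obtain ⟨c', hc'⟩ := exists_ord_beta_sub_eq_one M p h4 hmem v hv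
  exact ord_eq_zero_of_D_eq_smul' hgenj v hc hc' hψ

/-- the `T`-derivative preserves the local rings at the non-cuspidal places. -/
theorem ord_nonneg_of_D_eq_smul_alpha (N : ℕ) [NeZero N] (h4 : 4 ∣ N) (hmemN : TMem 4 8 N)
    (v : Place Kbar (FF N)) (hv : 0 ≤ v.ord (jF N)) {a δ : FF N} (ha : 0 ≤ v.ord a)
    (hδ : D Kbar (FF N) a = δ • D Kbar (FF N) (tF N hmemN)) : 0 ≤ v.ord δ := by
  have hgenj := Degree.isGen_jF N (realizeData N) (cuspData N)
  obtain ⟨c, hc⟩ := exists_ord_alpha_sub_eq_one N h4 hmemN v hv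
  exact ord_nonneg_of_D_eq_smul hgenj v hc ha hδ

/-- the `S`-derivative preserves the local rings at the non-cuspidal places. -/
theorem ord_nonneg_of_D_eq_smul_beta (h4 : 4 ∣ M) (hmem : TMem 4 8 M)
    (v : Place Kbar (FF (M * p))) (hv : 0 ≤ v.ord (jF (M * p))) {a δ : FF (M * p)}
    (ha : 0 ≤ v.ord a)
    (hδ : D Kbar (FF (M * p)) a = δ • D Kbar (FF (M * p)) (beta M p (tF M hmem))) :
    0 ≤ v.ord δ := by
  have hgenj := Degree.isGen_jF (M * p) (realizeData (M * p)) (cuspData (M * p))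
  obtain ⟨c', hc'⟩ := exists_ord_beta_sub_eq_one M p h4 hmem v hv
  exact ord_nonneg_of_D_eq_smul hgenj v hc' ha hδ

end DiffX0

end Fermat.Agent.MP.TH.Unram7
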